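/-
S48 (Deligne-Serre).  Basic definitions shared by all S48 files.  Owner: helper48.
-/
import Mathlib
import Fermat.Prelude.Def_GaloisRep_Residual
import Fermat.Prelude.Def_Deformations_MatrixRepresentation

set_option autoImplicit false

namespace Fermat.Agent.S48

open scoped MatrixGroups

/-- The absolute Galois group of `ℚ` in the shape used by the frozen statements. -/
abbrev GQ : Type := AlgebraicClosure ℚ ≃ₐ[ℚ] AlgebraicClosure ℚ

/-- Algebraic integers inside `ℂ`. -/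
abbrev Zbar : Subalgebra ℤ ℂ := integralClosure ℤ ℂ

/-- The Hecke relations of weight one and character `ε` for a sequence of coefficients. -/
def HeckeRel (N : ℕ) (ε : DirichletCharacter ℂ N) (a : ℕ → ℂ) : Prop :=
  ∀ p : ℕ, p.Prime → ¬ p ∣ N → ∀ n : ℕ,
    a (p * n) + ε (p : ZMod N) * (if p ∣ n then a (n / p) else 0) = a p * a n

/-- `σ` is a Frobenius element at some place of `ℚ̄` above `p`. -/
def IsFrob (σ : GQ) (p : ℕ) : Prop :=
  ∃ A : ValuationSubring (AlgebraicClosure ℚ), A.LiesOverPrime p ∧ A.IsFrobeniusAt σ p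

/-- `σ` lies in the inertia group of some place of `ℚ̄` above `p`. -/
def IsInert (σ : GQ) (p : ℕ) : Prop :=
  ∃ A : ValuationSubring (AlgebraicClosure ℚ), A.LiesOverPrime p ∧ σ ∈ A.inertiaSubgroupIn ℚ

/-- Upper Dirichlet density at most `η`, with a bounded error, phrased with finite sums. -/
def UpperDens (X : Set ℕ) (η : ℝ) : Prop :=
  ∃ C : ℝ, ∀ s : ℝ, 1 < s → s ≤ 2 → ∀ P : Finset ℕ, (∀ p ∈ P, p.Prime ∧ p ∈ X) →
    ∑ p ∈ P, (p : ℝ) ^ (-s) ≤ η * Real.log (1 / (s - 1)) + C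

/-- Lower Dirichlet density at least `η`, with a bounded error, phrased with finite sums. -/
def LowerDens (X : Set ℕ) (η : ℝ) : Prop :=
  ∃ C : ℝ, ∀ s : ℝ, 1 < s → s ≤ 2 → ∃ P : Finset ℕ, (∀ p ∈ P, p.Prime ∧ p ∈ X) ∧
    η * Real.log (1 / (s - 1)) - C ≤ ∑ p ∈ P, (p : ℝ) ^ (-s)

/-- The conclusion of S48 for a sequence `a` of would-be Frobenius traces. -/
def Conclusion (N : ℕ) (ε : DirichletCharacter ℂ N) (a : ℕ → ℂ) : Prop :=
  ∃ ρ : GQ →* GL (Fin 2) ℂ, GaloisFactorsThroughFiniteLevel ρ ∧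
    (Deformation.matrixRepresentation ρ).IsIrreducible ∧
    ∀ p : ℕ, p.Prime → ¬ p ∣ N →
      ∀ A : ValuationSubring (AlgebraicClosure ℚ), A.LiesOverPrime p →
        (∀ σ ∈ A.inertiaSubgroupIn ℚ, ρ σ = 1) ∧
        ∀ σ : GQ, A.IsFrobeniusAt σ p →
          ((ρ σ : GL (Fin 2) ℂ) : Matrix (Fin 2) (Fin 2) ℂ).trace = a p ∧
          ((ρ σ : GL (Fin 2) ℂ) : Matrix (Fin 2) (Fin 2) ℂ).det = ε (p : ZMod N)

end Fermat.Agent.S48
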