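/-
S48 (Deligne-Serre).  The top level nodes of the proof, as `Prop`s.  Owner: helper48.
No proofs here: every `def ... : Prop` below is a theorem to be proved in its own file.
-/
import Fermat.Agent.S48.Defs

set_option autoImplicit false

namespace Fermat.Agent.S48

open Polynomial CongruenceSubgroup
open scoped MatrixGroups ModularForm

/-! ## Part 1: nodes which do not mention modular forms -/

/-- **Node CH** (Chebotarev, Dirichlet density, lower bound for every element). -/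
def ChebotarevDensity : Prop :=
  ∀ (G : Type) [Group G] [Finite G] (r : GQ →* G), Function.Surjective r →
    GaloisFactorsThroughFiniteLevel r → ∀ (g : G) (δ : ℝ), 0 < δ →
      LowerDens {p : ℕ | ∃ σ : GQ, IsFrob σ p ∧ r σ = g}
        ((Nat.card {h : G // IsConj g h} : ℝ) / Nat.card G - δ)

/-- **Node WC** (Frobenius density theorem, existence form; same statement as
`Fermat.Agent.S29.WeakChebotarev`). -/
def WeakChebotarev : Prop :=
  ∀ (L : IntermediateField ℚ (AlgebraicClosure ℚ)), FiniteDimensional ℚ L →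
    ∀ (σ : GQ) (T : Finset ℕ),
    ∃ ℓ : ℕ, ℓ.Prime ∧ ℓ ∉ T ∧ ∃ A : ValuationSubring (AlgebraicClosure ℚ), A.LiesOverPrime ℓ ∧
      ∃ f : GQ, A.IsFrobeniusAt f ℓ ∧ ∃ j : ℕ, ∀ x ∈ L, (f ^ j) x = σ x

/-- Semisimplicity of a two dimensional representation: every stable line has a stable
complement. -/
def IsSS {Γ : Type*} [Group Γ] {κ : Type*} [Field κ] (ρ : Γ →* GL (Fin 2) κ) : Prop :=
  ∀ v : Fin 2 → κ, v ≠ 0 →
    (∀ g, ∃ c : κ, ((ρ g : GL (Fin 2) κ) : Matrix (Fin 2) (Fin 2) κ).mulVec v = c • v) →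
    ∃ w : Fin 2 → κ, LinearIndependent κ ![v, w] ∧
      ∀ g, ∃ c : κ, ((ρ g : GL (Fin 2) κ) : Matrix (Fin 2) (Fin 2) κ).mulVec w = c • w

/-- **Node F** (bounded image, Deligne-Serre Prop. 7.2 with `η = 1/4`). -/
def BoundedImage : Prop :=
  ∀ M : ℕ, ∃ B : ℕ, ∀ (ℓ : ℕ) (κ : Type) [Field κ] [IsAlgClosed κ] [CharP κ ℓ]
    (G : Type) [Group G] [Finite G] (ρ : G →* GL (Fin 2) κ),
    ℓ.Prime → B < ℓ → Function.Injective ρ → IsSS ρ →
    (∃ PP : Finset κ[X], PP.card ≤ M ∧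
      (3 / 4 : ℝ) * Nat.card G ≤
        Nat.card {g : G // ((ρ g : GL (Fin 2) κ) : Matrix (Fin 2) (Fin 2) κ).charpoly ∈ PP}) →
    Nat.card G ≤ B

/-- **Node P** (a two dimensional pseudo-representation with a "complex conjugation" is the
trace of a representation; Wiles' explicit matrices). -/
def PseudoRep : Prop :=
  ∀ (Γ : Type) [Group Γ] (t : Γ → ℂ) (d : Γ →* ℂˣ) (c : Γ),
    c * c = 1 → t c = 0 → d c = -1 → t 1 = 2 →
    (∀ g h, t (g * h) = t (h * g)) →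
    (∀ g h, t g * t h = t (g * h) + (d h : ℂ) * t (g * h⁻¹)) →
    ∃ ρ : Γ →* GL (Fin 2) ℂ,
      (∀ g, ((ρ g : GL (Fin 2) ℂ) : Matrix (Fin 2) (Fin 2) ℂ).trace = t g ∧
        ((ρ g : GL (Fin 2) ℂ) : Matrix (Fin 2) (Fin 2) ℂ).det = d g) ∧
      (∀ τ, (∀ g, t (g * τ) = t g) → ρ τ = 1)

/-- For all large primes `ℓ` and all reductions `φ : ℤ̄ → κ` there is a nonzero finite
dimensional Galois module over `κ`, of finite level, unramified outside `N ℓ`, on which the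
Frobenius elements at `p ∤ N ℓ` satisfy `F ^ 2 - a_p F + ε(p) = 0`. -/
def HasResidualModules (N : ℕ) (ε : DirichletCharacter ℂ N) (a : ℕ → ℂ) : Prop :=
  ∃ ℓ₀ : ℕ, ∀ ℓ : ℕ, ℓ.Prime → ℓ₀ < ℓ →
    ∀ (κ : Type) [Field κ] [IsAlgClosed κ] [CharP κ ℓ] (φ : Zbar →+* κ),
    ∃ (W : Type) (_ : AddCommGroup W) (_ : Module κ W) (_ : FiniteDimensional κ W)
      (_ : Nontrivial W) (r : GQ →* Module.End κ W),
      GaloisFactorsThroughFiniteLevel r ∧
      (∀ p : ℕ, p.Prime → ¬ p ∣ N * ℓ → ∀ σ, IsInert σ p → r σ = 1) ∧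
      (∀ p : ℕ, p.Prime → ¬ p ∣ N * ℓ → ∀ σ, IsFrob σ p →
        ∃ x e : Zbar, (x : ℂ) = a p ∧ (e : ℂ) = ε (p : ZMod N) ∧
          r σ * r σ - φ x • r σ + φ e • (1 : Module.End κ W) = 0)

/-- Everything the Galois-theoretic half of the proof needs to know about the eigenvalues. -/
structure AbstractHyp (N : ℕ) (ε : DirichletCharacter ℂ N) (a : ℕ → ℂ) : Prop where
  odd : ε (-1) = -1
  integral : ∀ p : ℕ, p.Prime → ¬ p ∣ N → IsIntegral ℤ (a p)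
  fin : ∀ eta : ℝ, 0 < eta → ∃ (Y : Finset ℂ) (X : Set ℕ), UpperDens X eta ∧
    ∀ p : ℕ, p.Prime → ¬ p ∣ N → p ∉ X → a p ∈ Y
  rankin : ∃ C : ℝ, ∀ s : ℝ, 1 < s → s ≤ 2 → ∀ P : Finset ℕ, (∀ p ∈ P, p.Prime ∧ ¬ p ∣ N) →
    ∑ p ∈ P, Real.log (1 + ‖a p‖ ^ 2 * (p : ℝ) ^ (-s)) ≤ Real.log (1 / (s - 1)) + C
  res : HasResidualModules N ε a

/-- **Node GAL-half**: the Galois theoretic half of Deligne-Serre. -/
def GaloisHalf : Prop :=
  ∀ (N : ℕ) [NeZero N] (ε : DirichletCharacter ℂ N) (a : ℕ → ℂ),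
    AbstractHyp N ε a → Conclusion N ε a

/-! ## Part 2: nodes about modular forms -/

/-- **Node A** (nebentypus): the formal Hecke relations force the character. -/
def Nebentypus : Prop :=
  ∀ (N : ℕ) [NeZero N] (ε : DirichletCharacter ℂ N) (f : CuspForm (Gamma1 N) 1),
    ModularFormClass.qCoeff f 1 = 1 → HeckeRel N ε (ModularFormClass.qCoeff f) →
    ∀ γ : SL(2, ℤ), γ ∈ Gamma0 N →
      (f : UpperHalfPlane → ℂ) ∣[(1 : ℤ)] γ = ε ((γ 1 1 : ℤ) : ZMod N) • (f : UpperHalfPlane → ℂ)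

/-- **Node C** (integral structure of `S₁(Γ₁(N))`). -/
def IntegralStructure : Prop :=
  ∀ (N : ℕ) [NeZero N] (f : CuspForm (Gamma1 N) 1),
    ∃ (m : ℕ) (b : Fin m → CuspForm (Gamma1 N) 1) (c : Fin m → ℂ),
      (∀ i n, ∃ z : ℤ, ModularFormClass.qCoeff (b i) n = z) ∧ f = ∑ i, c i • b i

/-- **Node D** (mean square bound for the coefficients of a cusp form of weight one). -/
def MeanSquare : Prop :=
  ∀ (N : ℕ) [NeZero N] (f : CuspForm (Gamma1 N) 1),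
    ∃ C : ℝ, ∀ X : ℕ, ∑ n ∈ Finset.range (X + 1), ‖ModularFormClass.qCoeff f n‖ ^ 2 ≤ C * X

/-- **Node B** (Eisenstein series of weight one and odd character modulo a prime). -/
def EisensteinOne : Prop :=
  ∀ (ℓ : ℕ) [NeZero ℓ], ℓ.Prime → ∀ χ : DirichletCharacter ℂ ℓ, χ (-1) = -1 →
    ∃ E : ModularForm (Gamma1 ℓ) 1,
      (∀ γ : SL(2, ℤ), γ ∈ Gamma0 ℓ →
        (E : UpperHalfPlane → ℂ) ∣[(1 : ℤ)] γ =
          χ ((γ 1 1 : ℤ) : ZMod ℓ) • (E : UpperHalfPlane → ℂ)) ∧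
      ModularFormClass.qCoeff E 0 = - ∑ x ∈ Finset.range ℓ, (x : ℂ) * χ (x : ZMod ℓ) ∧
      ∀ n : ℕ, 0 < n →
        ModularFormClass.qCoeff E n = 2 * (ℓ : ℂ) * ∑ x ∈ n.divisors, χ (x : ZMod ℓ)

/-- **Node BB** (the black box: mod `ℓ` Galois modules for weight two, level `Γ₁(M)`, `ℓ ∣ M`,
nebentypus `χ`, attached to a form which is an eigenform only after reduction). -/
def ResidualWeightTwo : Prop :=
  ∀ (M : ℕ) [NeZero M] (ℓ : ℕ), ℓ.Prime → ℓ ∣ M →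
    ∀ (χ : DirichletCharacter ℂ M) (h : CuspForm (Gamma1 M) 2),
    (∀ γ : SL(2, ℤ), γ ∈ Gamma0 M →
      (h : UpperHalfPlane → ℂ) ∣[(2 : ℤ)] γ =
        χ ((γ 1 1 : ℤ) : ZMod M) • (h : UpperHalfPlane → ℂ)) →
    ∀ (κ : Type) [Field κ] [IsAlgClosed κ] [CharP κ ℓ] (φ : Zbar →+* κ)
      (b : ℕ → Zbar) (x : ZMod M → Zbar) (c : ℕ → κ),
    (∀ n, (b n : ℂ) = ModularFormClass.qCoeff h n) → (∀ u, (x u : ℂ) = χ u) →
    φ (b 1) ≠ 0 →
    (∀ p : ℕ, p.Prime → ¬ p ∣ M → ∀ n : ℕ,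
      φ (b (p * n)) + φ (x (p : ZMod M)) * (p : κ) * (if p ∣ n then φ (b (n / p)) else 0)
        = c p * φ (b n)) →
    ∃ (W : Type) (_ : AddCommGroup W) (_ : Module κ W) (_ : FiniteDimensional κ W)
      (_ : Nontrivial W) (r : GQ →* Module.End κ W),
      GaloisFactorsThroughFiniteLevel r ∧
      (∀ p : ℕ, p.Prime → ¬ p ∣ M → ∀ σ, IsInert σ p → r σ = 1) ∧
      (∀ p : ℕ, p.Prime → ¬ p ∣ M → ∀ σ, IsFrob σ p →
        r σ * r σ - c p • r σ + (φ (x (p : ZMod M)) * (p : κ)) • (1 : Module.End κ W) = 0)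

/-- **Node MOD-half**: the modular half of Deligne-Serre. -/
def ModularHalf : Prop :=
  ∀ (N : ℕ) [NeZero N] (ε : DirichletCharacter ℂ N) (f : CuspForm (Gamma1 N) 1),
    ModularFormClass.qCoeff f 1 = 1 → HeckeRel N ε (ModularFormClass.qCoeff f) →
    AbstractHyp N ε (ModularFormClass.qCoeff f)

end Fermat.Agent.S48
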