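/-
S48 (Deligne-Serre).  Decomposition of the node `ModularHalf` into small nodes.  Owner: helper48.
No proofs here: every `def ... : Prop` below is a theorem to be proved in its own file.
-/
import Fermat.Agent.S48.Nodes

set_option autoImplicit false

namespace Fermat.Agent.S48

open CongruenceSubgroup ModularFormClass
open scoped MatrixGroups ModularForm

/-- `f` (a function on the upper half plane) has nebentypus `χ` in weight `k` and level `M`. -/
def HasNeben (M : ℕ) (k : ℤ) (χ : DirichletCharacter ℂ M) (f : UpperHalfPlane → ℂ) : Prop :=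
  ∀ γ : SL(2, ℤ), γ ∈ Gamma0 M → f ∣[k] γ = χ ((γ 1 1 : ℤ) : ZMod M) • f

/-! ## Consequences of the integral structure -/

/-- **Node M1**: the space of coefficient sequences is stable under every additive map. -/
def ConjForm : Prop :=
  ∀ (N : ℕ) [NeZero N] (f : CuspForm (Gamma1 N) 1) (π : ℂ →+ ℂ),
    ∃ g : CuspForm (Gamma1 N) 1, ∀ n, qCoeff g n = π (qCoeff f n)

/-- **Node M2**: the coefficients lie in a finitely generated abelian group. -/
def CoeffFG : Prop :=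
  ∀ (N : ℕ) [NeZero N] (f : CuspForm (Gamma1 N) 1),
    ∃ (m : ℕ) (c : Fin m → ℂ), ∀ n, qCoeff f n ∈ Submodule.span ℤ (Set.range c)

/-! ## Pure algebra -/

/-- **Node M3**: the good Hecke eigenvalues are integers of a number field. -/
def CoeffField : Prop :=
  ∀ (N : ℕ) [NeZero N] (ε : DirichletCharacter ℂ N) (a : ℕ → ℂ) (m : ℕ) (c : Fin m → ℂ),
    a 1 = 1 → HeckeRel N ε a → (∀ n, a n ∈ Submodule.span ℤ (Set.range c)) →
    ∃ K : IntermediateField ℚ ℂ, FiniteDimensional ℚ K ∧ (∀ u, ε u ∈ K) ∧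
      ∀ p : ℕ, p.Prime → ¬ p ∣ N → a p ∈ K ∧ IsIntegral ℤ (a p)

/-- **Node M4**: a `K`-linear projection of `ℂ` onto `K`. -/
def Projection : Prop :=
  ∀ K : IntermediateField ℚ ℂ, ∃ pr : ℂ →+ ℂ, (∀ z, pr z ∈ K) ∧
    (∀ x ∈ K, ∀ z, pr (x * z) = x * pr z) ∧ pr 1 = 1

/-- **Node M5**: replace `f` by a form with the same good eigenvalues, all of whose
coefficients lie in a number field and have bounded denominators. -/
def RationalModel : Prop :=
  ∀ (N : ℕ) [NeZero N] (ε : DirichletCharacter ℂ N) (f : CuspForm (Gamma1 N) 1),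
    qCoeff f 1 = 1 → HeckeRel N ε (qCoeff f) →
    ∃ (K : IntermediateField ℚ ℂ) (g : CuspForm (Gamma1 N) 1) (D : ℕ),
      FiniteDimensional ℚ K ∧ 0 < D ∧ (∀ u, ε u ∈ K) ∧
      (∀ p : ℕ, p.Prime → ¬ p ∣ N → IsIntegral ℤ (qCoeff f p) ∧ qCoeff g p = qCoeff f p) ∧
      qCoeff g 1 = 1 ∧ HeckeRel N ε (qCoeff g) ∧ (∀ n, qCoeff g n ∈ K) ∧
      ∀ n, IsIntegral ℤ ((D : ℂ) * qCoeff g n)

/-- The Rankin bound for a sequence. -/
def RankinBound (N : ℕ) (a : ℕ → ℂ) : Prop :=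
  ∃ C : ℝ, ∀ s : ℝ, 1 < s → s ≤ 2 → ∀ P : Finset ℕ, (∀ p ∈ P, p.Prime ∧ ¬ p ∣ N) →
    ∑ p ∈ P, Real.log (1 + ‖a p‖ ^ 2 * (p : ℝ) ^ (-s)) ≤ Real.log (1 / (s - 1)) + C

/-- **Node M6**: the Rankin bound holds for all conjugates. -/
def ConjRankin : Prop :=
  ∀ (N : ℕ) [NeZero N] (ε : DirichletCharacter ℂ N) (K : IntermediateField ℚ ℂ)
    (g : CuspForm (Gamma1 N) 1) (b : ℕ → K), (∀ u, ε u ∈ K) → (∀ n, (b n : ℂ) = qCoeff g n) →
    qCoeff g 1 = 1 → HeckeRel N ε (qCoeff g) →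
    ∀ σ : K →+* ℂ, RankinBound N (fun n => σ (b n))

/-- **Node M7** (pure): Rankin bounds for all conjugates of a sequence of integers of a number
field imply that the sequence takes finitely many values outside a set of small density. -/
def FinAbstract : Prop :=
  ∀ (N : ℕ) (K : IntermediateField ℚ ℂ) (b : ℕ → K), FiniteDimensional ℚ K →
    (∀ p : ℕ, p.Prime → ¬ p ∣ N → IsIntegral ℤ (b p)) →
    (∀ σ : K →+* ℂ, RankinBound N (fun n => σ (b n))) →
    ∀ eta : ℝ, 0 < eta → ∃ (Y : Finset ℂ) (X : Set ℕ), UpperDens X eta ∧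
      ∀ p : ℕ, p.Prime → ¬ p ∣ N → p ∉ X → (b p : ℂ) ∈ Y

/-! ## From weight one to weight two -/

/-- **Node M8** (Teichmüller character attached to a reduction map). -/
def Teichmuller : Prop :=
  ∀ (ℓ : ℕ) [NeZero ℓ], ℓ.Prime → ∀ (κ : Type) [Field κ] [CharP κ ℓ] (φ : Zbar →+* κ),
    ∃ (ω : DirichletCharacter ℂ ℓ) (w : ZMod ℓ → Zbar), (∀ u, (w u : ℂ) = ω u) ∧
      ∀ x : ℕ, φ (w (x : ZMod ℓ)) = (x : κ)

/-- **Node M9** (product of a cusp form of weight one and a modular form of weight one). -/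
def ProductForm : Prop :=
  ∀ (N ℓ : ℕ) [NeZero N] [NeZero ℓ] (ε : DirichletCharacter ℂ N) (χ : DirichletCharacter ℂ ℓ)
    (f : CuspForm (Gamma1 N) 1) (E : ModularForm (Gamma1 ℓ) 1),
    HasNeben N 1 ε f → HasNeben ℓ 1 χ E →
    ∃ h : CuspForm (Gamma1 (N * ℓ)) 2,
      HasNeben (N * ℓ) 2 (DirichletCharacter.changeLevel (Dvd.intro ℓ rfl) ε *
        DirichletCharacter.changeLevel (Dvd.intro_left N rfl) χ) h ∧
      ∀ n, qCoeff h n = ∑ x ∈ Finset.HasAntidiagonal.antidiagonal n, qCoeff f x.1 * qCoeff E x.2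

/-- **Node M10** (residual modules for a form with bounded denominators). -/
def ResNode : Prop :=
  ∀ (N : ℕ) [NeZero N] (ε : DirichletCharacter ℂ N) (g : CuspForm (Gamma1 N) 1) (D : ℕ),
    0 < D → qCoeff g 1 = 1 → HeckeRel N ε (qCoeff g) →
    (∀ n, IsIntegral ℤ ((D : ℂ) * qCoeff g n)) →
    (∀ p : ℕ, p.Prime → ¬ p ∣ N → IsIntegral ℤ (qCoeff g p)) →
    HasResidualModules N ε (qCoeff g)

end Fermat.Agent.S48
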