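/-
S48 (Deligne-Serre).  Node M10: residual modules for a form of weight one with bounded
denominators, from the weight two black box (multiplication by an Eisenstein series of weight one
which is congruent to `1` modulo `ℓ`).  Task S48-M10 (helper133).
-/
import Fermat.Agent.S48.ModNodes

set_option autoImplicit false

namespace Fermat.Agent.S48

open CongruenceSubgroup ModularFormClass
open scoped MatrixGroups ModularForm

namespace ResNodeAux

/-- values of Dirichlet characters are algebraic integers -/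
theorem isIntegral_dirichlet {M : ℕ} [NeZero M] (χ : DirichletCharacter ℂ M) (u : ZMod M) :
    IsIntegral ℤ (χ u) := by
  by_cases hu : IsUnit u
  · obtain ⟨v, rfl⟩ := hu
    have h1 : (χ (v : ZMod M)) ^ (Fintype.card (ZMod M)ˣ) = 1 := by
      rw [← map_pow, ← Units.val_pow_eq_pow_val, pow_card_eq_one, Units.val_one, map_one]
    exact IsIntegral.of_pow Fintype.card_pos (by rw [h1]; exact isIntegral_one)
  · rw [MulChar.map_nonunit χ hu]; exact isIntegral_zero

theorem qCoeff_smul' {M : ℕ} (c : ℂ) (h : CuspForm (Gamma1 M) 2) (n : ℕ) :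
    qCoeff (c • h : CuspForm (Gamma1 M) 2) n = c * qCoeff h n := by
  have hΓ : (1 : ℝ) ∈ ((Gamma1 M : Subgroup (GL (Fin 2) ℝ))).strictPeriods := by
    simp [CongruenceSubgroup.strictPeriods_Gamma1]
  unfold ModularFormClass.qCoeff
  rw [FunLike.coe_smul, ModularForm.qExpansion_smul one_pos hΓ c h, PowerSeries.coeff_smul,
    smul_eq_mul]

/-- the product character at a prime not dividing the level -/
theorem changeLevel_mul_apply {N ℓ : ℕ} (ε : DirichletCharacter ℂ N) (χ : DirichletCharacter ℂ ℓ)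
    {p : ℕ} (hp : p.Prime) (hpM : ¬ p ∣ N * ℓ) :
    (DirichletCharacter.changeLevel (Dvd.intro ℓ rfl) ε *
        DirichletCharacter.changeLevel (Dvd.intro_left N rfl) χ) (p : ZMod (N * ℓ))
      = ε (p : ZMod N) * χ (p : ZMod ℓ) := by
  have hcop : IsCoprime (p : ℤ) ((N * ℓ : ℕ) : ℤ) :=
    Nat.isCoprime_iff_coprime.mpr ((hp.coprime_iff_not_dvd).mpr hpM)
  have h1 := DirichletCharacter.changeLevel_eq_cast_of_dvd' ε (Dvd.intro ℓ rfl) hcop
  have h2 := DirichletCharacter.changeLevel_eq_cast_of_dvd' χ (Dvd.intro_left N rfl) hcop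
  rw [Int.cast_natCast, Int.cast_natCast] at h1 h2
  rw [MulChar.mul_apply, h1, h2]

end ResNodeAux

open ResNodeAux in
theorem resNode (hA : Nebentypus) (hB : EisensteinOne) (hT : Teichmuller) (hP : ProductForm)
    (hBB : ResidualWeightTwo) : ResNode := by
  intro N _ ε g D hD hg1 hrel hDint hpint
  refine ⟨max D 2, ?_⟩
  intro ℓ hℓ hℓ0 κ _ _ _ φ
  have : NeZero ℓ := ⟨hℓ.ne_zero⟩
  have : NeZero (N * ℓ) := ⟨Nat.mul_ne_zero (NeZero.ne N) (NeZero.ne ℓ)⟩
  have hDℓ : D < ℓ := lt_of_le_of_lt (le_max_left _ _) hℓ0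
  have h2ℓ : 2 < ℓ := lt_of_le_of_lt (le_max_right _ _) hℓ0
  have hℓκ : (ℓ : κ) = 0 := CharP.cast_eq_zero κ ℓ
  obtain ⟨ω, w, hw, hφw⟩ := hT ℓ hℓ κ φ
  -- `ω (-1) = -1`
  have hω : ω (-1) = -1 := by
    have hsq : ω (-1) * ω (-1) = 1 := by rw [← map_mul]; simp
    rcases mul_self_eq_one_iff.mp hsq with h | h
    · exfalso
      have h1 : w (-1) = 1 := Subtype.ext (by rw [hw, h]; rfl)
      have h2 : ((ℓ - 1 : ℕ) : ZMod ℓ) = -1 := by
        rw [Nat.cast_sub hℓ.one_le]; simp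
      have h3 := hφw (ℓ - 1)
      rw [h2, h1, map_one, Nat.cast_sub hℓ.one_le, hℓκ] at h3
      have h4 : ((2 : ℕ) : κ) = 0 := by
        push_cast
        push_cast at h3
        linear_combination h3
      have h5 := (CharP.cast_eq_zero_iff κ ℓ 2).mp h4
      exact absurd (Nat.le_of_dvd two_pos h5) (by omega)
    · exact h
  set χ : DirichletCharacter ℂ ℓ := ω⁻¹ with hχ
  have hχ1 : χ (-1) = -1 := by
    rw [hχ, MulChar.inv_apply_eq_inv', hω]; norm_num
  obtain ⟨E, hEneb, hE0, hEn⟩ := hB ℓ hℓ χ hχ1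
  -- the values of `χ` as algebraic integers
  set v : ZMod ℓ → Zbar := fun u => w (Ring.inverse u) with hv
  have hvχ : ∀ u, (v u : ℂ) = χ u := fun u => by
    simp only [hv]
    rw [hw, hχ, MulChar.inv_apply]
  have hφv : ∀ x : ℕ, ¬ ℓ ∣ x → φ (v (x : ZMod ℓ)) * (x : κ) = 1 := by
    intro x hx
    rw [← hφw x, ← map_mul]
    have hunit : IsUnit (x : ZMod ℓ) :=
      (ZMod.isUnit_iff_coprime x ℓ).mpr ((Nat.coprime_comm).mp ((hℓ.coprime_iff_not_dvd).mpr hx))
    have hne : ω (x : ZMod ℓ) ≠ 0 := (hunit.map ω).ne_zero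
    have : v (x : ZMod ℓ) * w (x : ZMod ℓ) = 1 := by
      apply Subtype.ext
      show (v (x : ZMod ℓ) : ℂ) * (w (x : ZMod ℓ) : ℂ) = 1
      rw [hvχ, hw, hχ, MulChar.inv_apply_eq_inv', inv_mul_cancel₀ hne]
    rw [this, map_one]
  -- the coefficients of the Eisenstein series
  set e : ℕ → Zbar := fun n =>
    if n = 0 then - ∑ x ∈ Finset.range ℓ, (x : Zbar) * v (x : ZMod ℓ)
    else ((2 * ℓ : ℕ) : Zbar) * ∑ x ∈ n.divisors, v (x : ZMod ℓ) with he
  have heE : ∀ n, (e n : ℂ) = qCoeff E n := by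
    intro n
    by_cases hn : n = 0
    · subst hn
      simp only [he, if_true]
      rw [hE0]
      push_cast
      simp only [hvχ]
    · simp only [he, if_neg hn]
      rw [hEn n (Nat.pos_of_ne_zero hn)]
      push_cast
      simp only [hvχ]
      rfl
  have hφe0 : φ (e 0) = 1 := by
    simp only [he, if_true]
    rw [map_neg, map_sum]
    obtain ⟨m, rfl⟩ : ∃ m, ℓ = m + 1 := ⟨ℓ - 1, by have := hℓ.one_le; omega⟩
    rw [Finset.sum_range_succ']
    have hterm : ∀ i ∈ Finset.range m,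
        φ (((i + 1 : ℕ) : Zbar) * v ((i + 1 : ℕ) : ZMod (m + 1))) = 1 := by
      intro i hi
      rw [map_mul, map_natCast, mul_comm]
      apply hφv
      intro hdvd
      have := Nat.le_of_dvd (Nat.succ_pos i) hdvd
      have := Finset.mem_range.mp hi
      omega
    rw [Finset.sum_congr rfl hterm]
    simp only [Finset.sum_const, Finset.card_range, nsmul_eq_mul, mul_one, Nat.cast_zero,
      zero_mul, map_zero, add_zero]
    have : ((m + 1 : ℕ) : κ) = 0 := hℓκ
    push_cast at this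
    linear_combination -this
  have hφen : ∀ n, n ≠ 0 → φ (e n) = 0 := by
    intro n hn
    simp only [he, if_neg hn]
    rw [map_mul, map_natCast, Nat.cast_mul, hℓκ, mul_zero, zero_mul]
  -- the product
  obtain ⟨h0, hh0neb, hh0⟩ := hP N ℓ ε χ g E (hA N ε g hg1 hrel) hEneb
  set X : DirichletCharacter ℂ (N * ℓ) := DirichletCharacter.changeLevel (Dvd.intro ℓ rfl) ε *
        DirichletCharacter.changeLevel (Dvd.intro_left N rfl) χ with hX
  set h : CuspForm (Gamma1 (N * ℓ)) 2 := (D : ℂ) • h0 with hh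
  have hneb : ∀ γ : SL(2, ℤ), γ ∈ Gamma0 (N * ℓ) →
      (h : UpperHalfPlane → ℂ) ∣[(2 : ℤ)] γ =
        X ((γ 1 1 : ℤ) : ZMod (N * ℓ)) • (h : UpperHalfPlane → ℂ) := by
    intro γ hγ
    rw [hh, FunLike.coe_smul, ModularForm.SL_smul_slash, hh0neb γ hγ, smul_comm]
  set G : ℕ → Zbar := fun n => ⟨(D : ℂ) * qCoeff g n, hDint n⟩ with hG
  set b : ℕ → Zbar := fun n => ∑ x ∈ Finset.HasAntidiagonal.antidiagonal n, G x.1 * e x.2 with hb
  have hbh : ∀ n, (b n : ℂ) = qCoeff h n := by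
    intro n
    rw [hh, qCoeff_smul', hh0 n, Finset.mul_sum]
    simp only [hb]
    push_cast
    apply Finset.sum_congr rfl
    intro x _
    rw [heE, mul_assoc]
  have hφb : ∀ n, φ (b n) = φ (G n) := by
    intro n
    simp only [hb]
    rw [map_sum, Finset.sum_eq_single (n, 0)]
    · rw [map_mul, hφe0, mul_one]
    · rintro ⟨i, j⟩ hij hne
      rw [Finset.HasAntidiagonal.mem_antidiagonal] at hij
      have hj : j ≠ 0 := by
        rintro rfl
        apply hne
        simp only [add_zero] at hij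
        rw [hij]
      rw [map_mul, hφen j hj, mul_zero]
    · intro hn
      exact absurd (Finset.HasAntidiagonal.mem_antidiagonal.mpr (add_zero n)) hn
  set x : ZMod (N * ℓ) → Zbar := fun u => ⟨X u, isIntegral_dirichlet X u⟩ with hx
  set εb : ZMod N → Zbar := fun u => ⟨ε u, isIntegral_dirichlet ε u⟩ with hεb
  classical
  set c : ℕ → κ := fun p =>
    if hp : IsIntegral ℤ (qCoeff g p) then φ ⟨qCoeff g p, hp⟩ else 0 with hc
  have hpN : ∀ p : ℕ, ¬ p ∣ N * ℓ → ¬ p ∣ N := fun p hp hpN => hp (Dvd.dvd.mul_right hpN ℓ)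
  have hpℓ : ∀ p : ℕ, ¬ p ∣ N * ℓ → ¬ p ∣ ℓ := fun p hp hpℓ => hp (Dvd.dvd.mul_left hpℓ N)
  have hxp : ∀ p : ℕ, p.Prime → ¬ p ∣ N * ℓ →
      φ (x (p : ZMod (N * ℓ))) * (p : κ) = φ (εb (p : ZMod N)) := by
    intro p hp hpM
    have h1 : x (p : ZMod (N * ℓ)) = εb (p : ZMod N) * v (p : ZMod ℓ) := by
      apply Subtype.ext
      show X (p : ZMod (N * ℓ)) = ε (p : ZMod N) * (v (p : ZMod ℓ) : ℂ)
      rw [hvχ, hX, changeLevel_mul_apply ε χ hp hpM]
    have hℓp : ¬ ℓ ∣ p := by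
      intro hd
      exact hpℓ p hpM (((Nat.prime_dvd_prime_iff_eq hℓ hp).mp hd) ▸ dvd_rfl)
    rw [h1, map_mul, mul_assoc, hφv p hℓp, mul_one]
  have hcp : ∀ (p : ℕ) (hp : p.Prime) (hpM : ¬ p ∣ N * ℓ),
      c p = φ ⟨qCoeff g p, hpint p hp (hpN p hpM)⟩ := by
    intro p hp hpM
    simp only [hc]
    rw [dif_pos (hpint p hp (hpN p hpM))]
  obtain ⟨W, i1, i2, i3, i4, r, hr1, hr2, hr3⟩ := hBB (N * ℓ) ℓ hℓ (Dvd.intro_left N rfl) X h hneb
    κ φ b x c hbh (fun _ => rfl) (by
      rw [hφb]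
      have h1 : G 1 = (D : Zbar) := by
        apply Subtype.ext
        show (D : ℂ) * qCoeff g 1 = ((D : Zbar) : ℂ)
        rw [hg1, mul_one]
        push_cast
        rfl
      rw [h1, map_natCast]
      intro h0
      have := (CharP.cast_eq_zero_iff κ ℓ D).mp h0
      exact absurd (Nat.le_of_dvd hD this) (by omega)) (by
      intro p hp hpM n
      simp only [hφb]
      rw [hxp p hp hpM, hcp p hp hpM]
      have h1 : G (p * n) + εb (p : ZMod N) * (if p ∣ n then G (n / p) else 0)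
          = ⟨qCoeff g p, hpint p hp (hpN p hpM)⟩ * G n := by
        apply Subtype.ext
        have h2 := hrel p hp (hpN p hpM) n
        by_cases hpn : p ∣ n
        · rw [if_pos hpn] at h2 ⊢
          show (D : ℂ) * qCoeff g (p * n) + ε (p : ZMod N) * ((D : ℂ) * qCoeff g (n / p))
            = qCoeff g p * ((D : ℂ) * qCoeff g n)
          linear_combination (D : ℂ) * h2
        · rw [if_neg hpn] at h2 ⊢
          show (D : ℂ) * qCoeff g (p * n) + ε (p : ZMod N) * 0
            = qCoeff g p * ((D : ℂ) * qCoeff g n)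
          linear_combination (D : ℂ) * h2
      have h3 := congrArg φ h1
      rw [map_add, map_mul, map_mul, apply_ite φ, map_zero] at h3
      by_cases hpn : p ∣ n
      · rw [if_pos hpn] at h3 ⊢
        exact h3
      · rw [if_neg hpn] at h3 ⊢
        exact h3)
  refine ⟨W, i1, i2, i3, i4, r, hr1, hr2, ?_⟩
  intro p hp hpM σ hσ
  refine ⟨⟨qCoeff g p, hpint p hp (hpN p hpM)⟩, εb (p : ZMod N), rfl, rfl, ?_⟩
  have := hr3 p hp hpM σ hσ
  rw [hxp p hp hpM, hcp p hp hpM] at this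
  exact this

end Fermat.Agent.S48
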