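/-
S48, node F (bounded image): assembly.  Owner: helper80.
-/
import Fermat.Agent.S48.BoundedImage.Klein
import Fermat.Agent.S48.BoundedImage.StabBound
import Fermat.Agent.S48.BoundedImage.F1
import Fermat.Agent.S48.BoundedImage.Action
import Fermat.Agent.S48.BoundedImage.Scal

set_option autoImplicit false

namespace Fermat.Agent.S48.BI

open scoped LinearAlgebra.Projectivization MatrixGroups
open Matrix Polynomial

variable {κ : Type*} [Field κ] {G : Type*} [Group G] [Finite G]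

/-- at most `2 M` elements of a stabiliser have their characteristic polynomial in `PP`. -/
theorem ncard_inter_stabilizer_le (ρ : G →* GL (Fin 2) κ) (hρ : Function.Injective ρ)
    (hcard : (Nat.card G : κ) ≠ 0) (M : ℕ) (PP : Finset κ[X]) (hPP : PP.card ≤ M) (x : PL ρ) :
    ({g : G | (mat ρ g).charpoly ∈ PP} ∩ (MulAction.stabilizer G x : Set G)).ncard ≤ 2 * M := by
  classical
  have hsub : ({g : G | (mat ρ g).charpoly ∈ PP} ∩ (MulAction.stabilizer G x : Set G)) ⊆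
      ⋃ P ∈ PP, {g : G | g ∈ MulAction.stabilizer G x ∧ (mat ρ g).charpoly = P} := by
    rintro g ⟨hg1, hg2⟩
    simp only [Set.mem_iUnion, Set.mem_ofPred_eq, exists_prop]
    exact ⟨_, hg1, hg2, rfl⟩
  calc ({g : G | (mat ρ g).charpoly ∈ PP} ∩ (MulAction.stabilizer G x : Set G)).ncard
      ≤ (⋃ P ∈ PP, {g : G | g ∈ MulAction.stabilizer G x ∧ (mat ρ g).charpoly = P}).ncard :=
        Set.ncard_le_ncard hsub (Set.toFinite _)
    _ ≤ ∑ P ∈ PP, {g : G | g ∈ MulAction.stabilizer G x ∧ (mat ρ g).charpoly = P}.ncard :=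
        Finset.set_ncard_biUnion_le _ _
    _ ≤ ∑ _P ∈ PP, 2 := Finset.sum_le_sum fun P _ => ncard_stabilizer_charpoly_le ρ hρ hcard x P
    _ = PP.card * 2 := by rw [Finset.sum_const, smul_eq_mul]
    _ ≤ 2 * M := by nlinarith

theorem card_le_of_not_dvd [IsAlgClosed κ] (ρ : G →* GL (Fin 2) κ) (hρ : Function.Injective ρ)
    (hcard : (Nat.card G : κ) ≠ 0)
    (M : ℕ) (PP : Finset κ[X]) (hPP : PP.card ≤ M)
    (hH : 3 * Nat.card G ≤ 4 * Nat.card {g : G // (mat ρ g).charpoly ∈ PP}) :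
    Nat.card G ≤ 6000 * M ^ 4 := by
  have hz : 3 * Nat.card (scal ρ) ≤ 8 * M := card_scal_le ρ hρ M PP hPP hH
  have hz1 : 1 ≤ Nat.card (scal ρ) := Nat.one_le_iff_ne_zero.mpr Nat.card_pos.ne'
  have hH' : 3 * Nat.card G ≤ 4 * {g : G | (mat ρ g).charpoly ∈ PP}.ncard := hH
  have hstab : ∀ x : PL ρ, Nat.card (MulAction.stabilizer G x) ≤
      2 * Nat.card (scal ρ) + 2 * (2 * M) := fun x =>
    card_stabilizer_le_of_fixedBy (scal ρ) {g : G | (mat ρ g).charpoly ∈ PP}
      (fun g h hh => by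
        simp only [Set.mem_ofPred_eq] at hh ⊢
        rwa [charpoly_mat_conj])
      hH' (fun g hg => ncard_fixedBy ρ hcard hg) x (2 * M)
      (ncard_inter_stabilizer_le ρ hρ hcard M PP hPP x)
  have hmain : Nat.card G ≤ 2 * Nat.card (scal ρ) * (2 * Nat.card (scal ρ) + 2 * (2 * M)) ^ 3 :=
    klein_bound (X := PL ρ) (scal ρ) _ (by omega) (fun g hg x => smul_eq_of_mem_scal ρ hg x)
      (fun g hg => ncard_fixedBy ρ hcard hg) (fun x _ _ _ => hstab x)
  have h1 : Nat.card (scal ρ) ≤ 3 * M := by omega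
  have h2 : 2 * Nat.card (scal ρ) + 2 * (2 * M) ≤ 10 * M := by omega
  calc Nat.card G ≤ 2 * Nat.card (scal ρ) * (2 * Nat.card (scal ρ) + 2 * (2 * M)) ^ 3 := hmain
    _ ≤ 2 * (3 * M) * (10 * M) ^ 3 :=
        Nat.mul_le_mul (Nat.mul_le_mul_left 2 h1) (Nat.pow_le_pow_left h2 3)
    _ = 6000 * M ^ 4 := by ring

end Fermat.Agent.S48.BI

namespace Fermat.Agent.S48

open BI in
theorem boundedImage : BoundedImage := by
  intro M
  refine ⟨6000 * M ^ 4 + 4 * M, ?_⟩
  intro ℓ κ _ _ _ G _ _ ρ hℓ hB hρ hss hPP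
  obtain ⟨PP, hPP, hH⟩ := hPP
  have hH' : 3 * Nat.card G ≤ 4 * Nat.card {g : G // (mat ρ g).charpoly ∈ PP} := by
    have h1 : (3 : ℝ) * Nat.card G ≤ 4 * Nat.card {g : G // (mat ρ g).charpoly ∈ PP} := by
      have := hH
      simp only [← mat_def] at this
      linarith
    exact_mod_cast h1
  have hnd : ¬ ℓ ∣ Nat.card G := by
    intro hdvd
    have := prime_le_of_dvd_card ℓ hℓ ρ hρ hss M PP hPP hH' hdvd
    omega
  have hcard : (Nat.card G : κ) ≠ 0 := by
    rwa [Ne, CharP.cast_eq_zero_iff κ ℓ]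
  have := card_le_of_not_dvd ρ hρ hcard M PP hPP hH'
  omega

end Fermat.Agent.S48
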