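/-
S48 (Deligne-Serre), nodes M3 and M4: the coefficient field and a linear projection onto it.
-/
import Fermat.Agent.S48.ModNodes

set_option autoImplicit false

namespace Fermat.Agent.S48

open CongruenceSubgroup ModularFormClass

theorem coeffField : CoeffField := by
  intro N _ ε a m c ha1 hrel hc
  -- the big finitely generated module
  let Q : Submodule ℤ ℂ :=
    Submodule.span ℤ (Set.range fun x : ZMod N × Fin m => ε x.1 * c x.2)
  have hQ : Q.FG := Submodule.fg_span (Set.finite_range _)
  let P : Submodule ℤ ℂ := Submodule.span ℤ (Set.range fun x : ZMod N × ℕ => ε x.1 * a x.2)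
  have hgen : ∀ (u : ZMod N) (n : ℕ), ε u * a n ∈ P := fun u n =>
    Submodule.subset_span ⟨(u, n), rfl⟩
  have hPQ : P ≤ Q := by
    refine Submodule.span_le.mpr ?_
    rintro _ ⟨⟨u, n⟩, rfl⟩
    show ε u * a n ∈ Q
    have key : ∀ z ∈ Submodule.span ℤ (Set.range c), ε u * z ∈ Q := by
      intro z hz
      induction hz using Submodule.span_induction with
      | mem x hx =>
        obtain ⟨i, rfl⟩ := hx
        exact Submodule.subset_span ⟨(u, i), rfl⟩
      | zero => rw [mul_zero]; exact Q.zero_mem
      | add x y _ _ hx hy => rw [mul_add]; exact Q.add_mem hx hy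
      | smul r x _ hx => rw [mul_smul_comm]; exact Q.smul_mem r hx
    exact key _ (hc n)
  have hP : P.FG := hQ.of_le hPQ
  have h1P : (1 : ℂ) ∈ P := by
    have := hgen 1 1
    rwa [map_one, ha1, one_mul] at this
  -- the stabiliser of `P`
  let R : Submodule ℤ ℂ :=
    { carrier := {x | ∀ y ∈ P, x * y ∈ P}
      add_mem' := by
        intro x x' hx hx' y hy
        rw [add_mul]
        exact P.add_mem (hx y hy) (hx' y hy)
      zero_mem' := by
        intro y _
        rw [zero_mul]
        exact P.zero_mem
      smul_mem' := by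
        intro r x hx y hy
        rw [smul_mul_assoc]
        exact P.smul_mem r (hx y hy) }
  have hRP : R ≤ P := fun x hx => by
    have := hx 1 h1P
    rwa [mul_one] at this
  have hR : R.FG := hP.of_le hRP
  have hint : ∀ x ∈ R, IsIntegral ℤ x := by
    intro x hx
    refine isIntegral_of_smul_mem_submodule P ?_ hP x hx
    intro hbot
    rw [hbot] at h1P
    exact one_ne_zero ((Submodule.mem_bot ℤ).mp h1P)
  -- a criterion for membership in `R`
  have hcrit : ∀ x : ℂ, (∀ (u : ZMod N) (n : ℕ), x * (ε u * a n) ∈ P) → x ∈ R := by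
    intro x hx y hy
    induction hy using Submodule.span_induction with
    | mem y hy =>
      obtain ⟨⟨u, n⟩, rfl⟩ := hy
      exact hx u n
    | zero => rw [mul_zero]; exact P.zero_mem
    | add y y' _ _ h h' => rw [mul_add]; exact P.add_mem h h'
    | smul r y _ h => rw [mul_smul_comm]; exact P.smul_mem r h
  have hεR : ∀ v, ε v ∈ R := by
    intro v
    refine hcrit _ fun u n => ?_
    rw [← mul_assoc, ← map_mul]
    exact hgen _ _
  have haR : ∀ p : ℕ, p.Prime → ¬ p ∣ N → a p ∈ R := by
    intro p hp hpN
    refine hcrit _ fun u n => ?_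
    have h := hrel p hp hpN n
    have e : a p * (ε u * a n) =
        ε u * a (p * n) + ε (u * (p : ZMod N)) * (if p ∣ n then a (n / p) else 0) := by
      rw [map_mul]
      linear_combination (-(ε u)) * h
    rw [e]
    refine P.add_mem (hgen _ _) ?_
    split_ifs
    · exact hgen _ _
    · rw [mul_zero]; exact P.zero_mem
  obtain ⟨T, hT⟩ := hR
  let K : IntermediateField ℚ ℂ := IntermediateField.adjoin ℚ (T : Set ℂ)
  have hTR : ∀ x ∈ T, x ∈ R := fun x hx => hT ▸ Submodule.subset_span hx
  have hRK : ∀ x ∈ R, x ∈ K := by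
    intro x hx
    rw [← hT] at hx
    induction hx using Submodule.span_induction with
    | mem y hy => exact IntermediateField.subset_adjoin ℚ _ hy
    | zero => exact K.zero_mem
    | add y y' _ _ h h' => exact K.add_mem h h'
    | smul r y _ h =>
      rw [zsmul_eq_mul]
      exact K.mul_mem (K.intCast_mem r) h
  refine ⟨K, ?_, fun u => hRK _ (hεR u), fun p hp hpN =>
    ⟨hRK _ (haR p hp hpN), hint _ (haR p hp hpN)⟩⟩
  exact IntermediateField.finiteDimensional_adjoin fun x hx => (hint x (hTR x hx)).tower_top

theorem projection : Projection := by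
  intro K
  obtain ⟨g, hg⟩ := LinearMap.exists_leftInverse_of_injective (Algebra.linearMap K ℂ)
    (LinearMap.ker_eq_bot.mpr (algebraMap K ℂ).injective)
  refine ⟨(K.val : K →+ ℂ).comp g.toAddMonoidHom, fun z => (g z).2, fun x hx z => ?_, ?_⟩
  · have : x * z = (⟨x, hx⟩ : K) • z := rfl
    show ((g (x * z) : K) : ℂ) = x * (g z : K)
    rw [this, map_smul]
    rfl
  · have := LinearMap.congr_fun hg 1
    show ((g 1 : K) : ℂ) = 1
    have h1 : g (Algebra.linearMap K ℂ 1) = 1 := this
    rw [Algebra.linearMap_apply, map_one] at h1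
    rw [h1]
    rfl

end Fermat.Agent.S48
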