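/-
S48 (Deligne-Serre).  Nodes M1, M2: consequences of the integral structure of `S₁(Γ₁(N))`.
Owner: helper233.
-/
import Fermat.Agent.S48.ModNodes

set_option autoImplicit false

namespace Fermat.Agent.S48

open CongruenceSubgroup ModularFormClass
open scoped MatrixGroups ModularForm

namespace ConjFormAux

variable {N : ℕ}

theorem hΓ (N : ℕ) : (1 : ℝ) ∈ ((Gamma1 N : Subgroup (GL (Fin 2) ℝ))).strictPeriods := by
  simp [CongruenceSubgroup.strictPeriods_Gamma1]

theorem qCoeff_add (f g : CuspForm (Gamma1 N) 1) (n : ℕ) :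
    qCoeff ⇑(f + g) n = qCoeff ⇑f n + qCoeff ⇑g n := by
  simp only [qCoeff, FunLike.coe_add]
  rw [ModularForm.qExpansion_add one_pos (hΓ N) f g, map_add]

theorem qCoeff_smul (c : ℂ) (f : CuspForm (Gamma1 N) 1) (n : ℕ) :
    qCoeff ⇑(c • f) n = c * qCoeff ⇑f n := by
  have h1 : ⇑(c • f) = c • ⇑f := by
    ext z
    simp
  simp only [qCoeff, h1]
  rw [ModularForm.qExpansion_smul one_pos (hΓ N) c f]
  simp

theorem qCoeff_zero_form (n : ℕ) : qCoeff ⇑(0 : CuspForm (Gamma1 N) 1) n = 0 := by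
  simp only [qCoeff, FunLike.coe_zero]
  rw [UpperHalfPlane.qExpansion_zero, map_zero]

/-- The `n`-th coefficient as a linear form. -/
noncomputable def qCoeffLin (N n : ℕ) : CuspForm (Gamma1 N) 1 →ₗ[ℂ] ℂ where
  toFun f := qCoeff ⇑f n
  map_add' f g := qCoeff_add f g n
  map_smul' c f := by simpa using qCoeff_smul c f n

theorem qCoeff_sum_smul {m : ℕ} (c : Fin m → ℂ) (b : Fin m → CuspForm (Gamma1 N) 1) (n : ℕ) :
    qCoeff ⇑(∑ i, c i • b i) n = ∑ i, c i * qCoeff ⇑(b i) n := by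
  have h := map_sum (qCoeffLin N n) (fun i => c i • b i) Finset.univ
  simp only [map_smul, smul_eq_mul] at h
  exact h

end ConjFormAux

open ConjFormAux

/-- **Node M1**. -/
theorem conjForm (h : IntegralStructure) : ConjForm := by
  intro N _ f π
  obtain ⟨m, b, c, hb, hf⟩ := h N f
  refine ⟨∑ i, π (c i) • b i, fun n => ?_⟩
  rw [hf, qCoeff_sum_smul, qCoeff_sum_smul, map_sum]
  refine Finset.sum_congr rfl fun i _ => ?_
  obtain ⟨z, hz⟩ := hb i n
  rw [hz, mul_comm (c i), mul_comm (π (c i)), ← zsmul_eq_mul, ← zsmul_eq_mul, map_zsmul]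

/-- **Node M2**. -/
theorem coeffFG (h : IntegralStructure) : CoeffFG := by
  intro N _ f
  obtain ⟨m, b, c, hb, hf⟩ := h N f
  refine ⟨m, c, fun n => ?_⟩
  rw [hf, qCoeff_sum_smul]
  refine Submodule.sum_mem _ fun i _ => ?_
  obtain ⟨z, hz⟩ := hb i n
  rw [hz, mul_comm, ← zsmul_eq_mul]
  exact Submodule.smul_mem _ _ (Submodule.subset_span ⟨i, rfl⟩)

end Fermat.Agent.S48
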