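/-
S48-D1 (owner: helper125).  Mean square bound for the coefficients of a cusp form of weight one.
-/
import Fermat.Agent.S48.Nodes

set_option autoImplicit false

namespace Fermat.Agent.S48

open Complex MeasureTheory UpperHalfPlane CongruenceSubgroup
open scoped Real

/-- Bessel's inequality for a continuous, `1`-periodic, bounded function. -/
theorem bessel_periodic (G : ℝ → ℂ) (hc : Continuous G) (hper : Function.Periodic G 1) (B : ℝ)
    (hB0 : 0 ≤ B) (hB : ∀ u, ‖G u‖ ≤ B) (s : Finset ℤ) :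
    ∑ n ∈ s, ‖∫ u in (0 : ℝ)..1, Complex.exp (2 * π * Complex.I * (-n : ℤ) * u / (1 : ℝ)) * G u‖ ^ 2
      ≤ B ^ 2 := by
  have : Fact ((0 : ℝ) < 1) := ⟨one_pos⟩
  let F : C(AddCircle (1 : ℝ), ℂ) := ⟨hper.lift, hc.quotient_liftOn' _⟩
  have hFcoe : ∀ u : ℝ, F (u : AddCircle (1 : ℝ)) = G u := fun u => rfl
  have hF : ‖F‖ ≤ B := by
    rw [ContinuousMap.norm_le _ hB0]
    intro x
    induction x using QuotientAddGroup.induction_on with
    | H u => exact hB u
  have hcoeff : ∀ n : ℤ, fourierCoeff F n =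
      ∫ u in (0 : ℝ)..1, Complex.exp (2 * π * Complex.I * (-n : ℤ) * u / (1 : ℝ)) * G u := by
    intro n
    rw [fourierCoeff_eq_intervalIntegral F n 0]
    simp only [zero_add, div_one, one_smul, fourier_coe_apply, hFcoe, smul_eq_mul]
  have hb := Orthonormal.sum_inner_products_le
    (ContinuousMap.toLp 2 AddCircle.haarAddCircle ℂ F) (s := s) (orthonormal_fourier (T := 1))
  have hin : ∀ n : ℤ, inner ℂ (fourierLp 2 n) (ContinuousMap.toLp 2 AddCircle.haarAddCircle ℂ F)
      = fourierCoeff F n := by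
    intro n
    rw [← fourierCoeff_toLp, ← fourierBasis_repr, HilbertBasis.repr_apply_apply, coe_fourierBasis]
  simp only [hin, hcoeff] at hb
  refine hb.trans ?_
  have hnorm : ‖ContinuousMap.toLp 2 AddCircle.haarAddCircle ℂ F‖ ≤ B := by
    have h1 := (ContinuousMap.toLp 2 (AddCircle.haarAddCircle (T := 1)) ℂ (E := ℂ)).le_opNorm F
    have h2 := ContinuousMap.toLp_norm_le (p := 2) (AddCircle.haarAddCircle (T := 1)) (𝕜 := ℂ) (E := ℂ)
    have h3 : ((measureUnivNNReal (AddCircle.haarAddCircle (T := 1)) : ℝ)) ^ (2 : ENNReal).toReal⁻¹ = 1 := by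
      simp [measureUnivNNReal]
    rw [h3] at h2
    calc _ ≤ ‖ContinuousMap.toLp 2 (AddCircle.haarAddCircle (T := 1)) ℂ (E := ℂ)‖ * ‖F‖ := h1
      _ ≤ 1 * B := by gcongr
      _ = B := one_mul B
  gcongr

/-- The mean square bound at a fixed height. -/
theorem meanSquare_aux (N : ℕ) [NeZero N] (f : CuspForm (Gamma1 N) 1) (C0 : ℝ)
    (hC0 : ∀ τ : ℍ, ‖f τ‖ ≤ C0 / τ.im ^ (((1 : ℤ) : ℝ) / 2 : ℝ)) (X : ℕ) (hX : 0 < X) :
    ∑ n ∈ Finset.range (X + 1), ‖ModularFormClass.qCoeff f n‖ ^ 2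
      ≤ Real.exp (4 * π) * C0 ^ 2 * X := by
  have hΓ : (1 : ℝ) ∈ ((Gamma1 N : Subgroup (GL (Fin 2) ℝ))).strictPeriods := by
    simp [CongruenceSubgroup.strictPeriods_Gamma1]
  have hXr : (0 : ℝ) < X := by exact_mod_cast hX
  set t : ℝ := 1 / X with ht_def
  have ht : 0 < t := by positivity
  have him : ∀ u : ℝ, 0 < ((u : ℂ) + t * Complex.I).im := by intro u; simpa using ht
  let G : ℝ → ℂ := fun u => f ⟨(u : ℂ) + t * Complex.I, him u⟩
  have hGc : Continuous G := by
    have h1 : Continuous (fun u : ℝ => (⟨(u : ℂ) + t * Complex.I, him u⟩ : ℍ)) := by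
      apply Continuous.upperHalfPlaneMk
      fun_prop
    exact (ModularFormClass.holo f).continuous.comp h1
  have hGper : Function.Periodic G 1 := by
    intro u
    have := SlashInvariantFormClass.periodic_comp_ofComplex f hΓ ((u : ℂ) + t * Complex.I)
    simp only [Function.comp_apply] at this
    rw [ofComplex_apply_of_im_pos (him u)] at this
    have h2 : (u : ℂ) + t * Complex.I + ((1 : ℝ) : ℂ) = ((u + 1 : ℝ) : ℂ) + t * Complex.I := by
      push_cast; ring
    rw [h2, ofComplex_apply_of_im_pos (him (u + 1))] at this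
    exact this
  set B : ℝ := C0 / t ^ (((1 : ℤ) : ℝ) / 2 : ℝ) with hB_def
  have hGB : ∀ u, ‖G u‖ ≤ B := by
    intro u
    have := hC0 ⟨(u : ℂ) + t * Complex.I, him u⟩
    have h3 : (⟨(u : ℂ) + t * Complex.I, him u⟩ : ℍ).im = t := by
      simp [UpperHalfPlane.im]
    rw [h3] at this
    exact this
  have hB0 : 0 ≤ B := (norm_nonneg _).trans (hGB 0)
  have hB2 : B ^ 2 = C0 ^ 2 * X := by
    rw [hB_def, div_pow, ← Real.rpow_natCast (t ^ _), ← Real.rpow_mul ht.le]
    norm_num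
    rw [ht_def]
    field_simp
  have hcoeff : ∀ n : ℕ, ModularFormClass.qCoeff f n = Complex.exp (2 * π * n * t) *
      ∫ u in (0 : ℝ)..1, Complex.exp (2 * π * Complex.I * (-(n : ℤ) : ℤ) * u / (1 : ℝ)) * G u := by
    intro n
    have h := ModularFormClass.qExpansion_coeff_eq_intervalIntegral f one_pos hΓ n ht
    rw [ModularFormClass.qCoeff, h, ← intervalIntegral.integral_const_mul,
      ← intervalIntegral.integral_const_mul]
    congr 1
    ext u
    rw [← mul_assoc, ← mul_assoc]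
    congr 1
    rw [Function.Periodic.qParam, ← Complex.exp_nat_mul, one_div, one_div, ← Complex.exp_neg,
      ← Complex.exp_add]
    rw [Complex.ofReal_one, inv_one, one_mul]
    congr 1
    push_cast
    linear_combination (-(n : ℂ) * (2 * π * t)) * Complex.I_sq
  have hterm : ∀ n ∈ Finset.range (X + 1), ‖ModularFormClass.qCoeff f n‖ ^ 2 ≤
      Real.exp (4 * π) * ‖∫ u in (0 : ℝ)..1,
        Complex.exp (2 * π * Complex.I * (-(n : ℤ) : ℤ) * u / (1 : ℝ)) * G u‖ ^ 2 := by
    intro n hn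
    have hnX : (n : ℝ) ≤ X := by
      have := Finset.mem_range.mp hn
      exact_mod_cast Nat.lt_succ_iff.mp this
    rw [hcoeff n, norm_mul, mul_pow]
    gcongr
    have h4 : (2 * (π : ℂ) * n * t) = ((2 * π * n * t : ℝ) : ℂ) := by push_cast; ring
    rw [h4, ← Complex.ofReal_exp, Complex.norm_real, Real.norm_eq_abs, abs_of_pos (Real.exp_pos _),
      ← Real.exp_nat_mul]
    apply Real.exp_le_exp.mpr
    have h5 : (n : ℝ) * t ≤ 1 := by
      rw [ht_def, mul_one_div, div_le_one hXr]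
      exact hnX
    push_cast
    nlinarith [Real.pi_pos]
  calc ∑ n ∈ Finset.range (X + 1), ‖ModularFormClass.qCoeff f n‖ ^ 2
      ≤ ∑ n ∈ Finset.range (X + 1), Real.exp (4 * π) * ‖∫ u in (0 : ℝ)..1,
        Complex.exp (2 * π * Complex.I * (-(n : ℤ) : ℤ) * u / (1 : ℝ)) * G u‖ ^ 2 :=
        Finset.sum_le_sum hterm
    _ = Real.exp (4 * π) * ∑ n ∈ (Finset.range (X + 1)).map Nat.castEmbedding, ‖∫ u in (0 : ℝ)..1,
        Complex.exp (2 * π * Complex.I * (-(n : ℤ) : ℤ) * u / (1 : ℝ)) * G u‖ ^ 2 := by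
        rw [Finset.sum_map, Finset.mul_sum]
        rfl
    _ ≤ Real.exp (4 * π) * B ^ 2 := by
        gcongr
        exact bessel_periodic G hGc hGper B hB0 hGB _
    _ = Real.exp (4 * π) * C0 ^ 2 * X := by rw [hB2]; ring

/-- **Node D**: the mean square bound. -/
theorem meanSquare : MeanSquare := by
  intro N _ f
  obtain ⟨C0, hC0⟩ := CuspFormClass.exists_bound f
  refine ⟨Real.exp (4 * π) * C0 ^ 2, fun X => ?_⟩
  rcases Nat.eq_zero_or_pos X with rfl | hX
  · have hΓ : (1 : ℝ) ∈ ((Gamma1 N : Subgroup (GL (Fin 2) ℝ))).strictPeriods := by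
      simp [CongruenceSubgroup.strictPeriods_Gamma1]
    have := CuspFormClass.qExpansion_coeff_zero f one_pos hΓ
    simp [ModularFormClass.qCoeff, this]
  · exact meanSquare_aux N f C0 hC0 X hX

end Fermat.Agent.S48
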