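/-
S48 (Deligne-Serre), node D2: the "Rankin bound" in its abstract form.  A mean square bound for a
sequence satisfying the formal Hecke relations gives
`∑_{p ∈ P} log (1 + |a_p|² p⁻ˢ) ≤ log (1 / (s - 1)) + C`, uniformly in `1 < s ≤ 2` and in the finite
set `P` of good primes.  No modular forms here.  Owner: helper228.
-/
import Fermat.Agent.S48.Nodes

set_option autoImplicit false

namespace Fermat.Agent.S48

/-- The Hecke relations make `a` multiplicative on products of distinct good primes. -/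
theorem HeckeRel.apply_prod_primes {N : ℕ} {ε : DirichletCharacter ℂ N} {a : ℕ → ℂ}
    (h1 : a 1 = 1) (hT : HeckeRel N ε a) (S : Finset ℕ) (hS : ∀ p ∈ S, p.Prime ∧ ¬ p ∣ N) :
    a (∏ p ∈ S, p) = ∏ p ∈ S, a p := by
  induction S using Finset.induction_on with
  | empty => simpa using h1
  | insert p S hp ih =>
    have hpS := hS p (Finset.mem_insert_self p S)
    have hS' : ∀ q ∈ S, q.Prime ∧ ¬ q ∣ N := fun q hq => hS q (Finset.mem_insert_of_mem hq)
    rw [Finset.prod_insert hp, Finset.prod_insert hp, ← ih hS']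
    have hnd : ¬ p ∣ ∏ q ∈ S, q := by
      intro hd
      obtain ⟨q, hq, hpq⟩ := (Prime.dvd_finsetProd_iff hpS.1.prime _).1 hd
      have : p = q := (Nat.prime_dvd_prime_iff_eq hpS.1 (hS' q hq).1).1 hpq
      exact hp (this ▸ hq)
    have := hT p hpS.1 hpS.2 (∏ q ∈ S, q)
    rw [if_neg hnd] at this
    simpa using this

/-- Abel's inequality: if all partial sums of `d` are nonnegative and `w` is antitone and
nonnegative then the weighted sums are bounded below by (last partial sum) * (last weight). -/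
theorem abel_partial_sum_mul_le (d w : ℕ → ℝ) (hD : ∀ m, 0 ≤ ∑ n ∈ Finset.range m, d n)
    (hw : Antitone w) (Y : ℕ) :
    (∑ n ∈ Finset.range (Y + 1), d n) * w Y ≤ ∑ n ∈ Finset.range (Y + 1), d n * w n := by
  induction Y with
  | zero => simp
  | succ Y ih =>
    rw [Finset.sum_range_succ (fun n => d n) (Y + 1),
      Finset.sum_range_succ (fun n => d n * w n) (Y + 1), add_mul]
    have h1 : (∑ n ∈ Finset.range (Y + 1), d n) * w (Y + 1) ≤
        (∑ n ∈ Finset.range (Y + 1), d n) * w Y :=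
      mul_le_mul_of_nonneg_left (hw (Nat.le_succ Y)) (hD (Y + 1))
    linarith

/-- Abel's inequality, nonnegativity form. -/
theorem abel_sum_mul_nonneg (d w : ℕ → ℝ) (hD : ∀ m, 0 ≤ ∑ n ∈ Finset.range m, d n)
    (hw : Antitone w) (hw0 : ∀ n, 0 ≤ w n) (Y : ℕ) :
    0 ≤ ∑ n ∈ Finset.range Y, d n * w n := by
  cases Y with
  | zero => simp
  | succ Y =>
    exact le_trans (mul_nonneg (hD (Y + 1)) (hw0 Y)) (abel_partial_sum_mul_le d w hD hw Y)

/-- Partial sums of `ζ(s)` are at most `1 + 1 / (s - 1)`. -/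
theorem sum_range_add_one_rpow_neg_le (s : ℝ) (hs : 1 < s) (Y : ℕ) :
    ∑ n ∈ Finset.range Y, ((n : ℝ) + 1) ^ (-s) ≤ 1 + 1 / (s - 1) := by
  have hs0 : 0 < s - 1 := by linarith
  cases Y with
  | zero =>
    simp only [Finset.range_zero, Finset.sum_empty]
    positivity
  | succ k =>
    rw [Finset.sum_range_succ']
    have hanti : AntitoneOn (fun x : ℝ => x ^ (-s)) (Set.Icc (1 : ℝ) (1 + k)) := by
      intro x hx y _ hxy
      exact Real.rpow_le_rpow_of_nonpos (by linarith [hx.1]) hxy (by linarith)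
    have h := hanti.sum_le_integral
    have hk : (0 : ℝ) ≤ k := Nat.cast_nonneg k
    have hint : ∫ x in (1 : ℝ)..(1 + k), x ^ (-s) = ((1 + k : ℝ) ^ (-s + 1) - 1 ^ (-s + 1)) / (-s + 1) := by
      apply integral_rpow
      right
      refine ⟨by linarith, ?_⟩
      rw [Set.uIcc_of_le (by linarith)]
      intro h0
      linarith [h0.1]
    rw [hint] at h
    have hpos : 0 ≤ (1 + k : ℝ) ^ (-s + 1) := Real.rpow_nonneg (by linarith) _
    have hle : ((1 + k : ℝ) ^ (-s + 1) - 1 ^ (-s + 1)) / (-s + 1) ≤ 1 / (s - 1) := by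
      rw [Real.one_rpow, show (-s + 1) = -(s - 1) by ring, div_neg, ← neg_div]
      apply div_le_div_of_nonneg_right _ hs0.le
      rw [show -(s - 1) = -s + 1 by ring]
      linarith
    have hsum : ∑ n ∈ Finset.range k, (((n + 1 : ℕ) : ℝ) + 1) ^ (-s) =
        ∑ i ∈ Finset.range k, (fun x : ℝ => x ^ (-s)) (1 + ((i + 1 : ℕ) : ℝ)) := by
      apply Finset.sum_congr rfl
      intro i _
      simp only
      rw [add_comm]
    rw [hsum]
    simp only [Nat.cast_zero, zero_add, Real.one_rpow]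
    linarith

/-- Weighted mean square bound. -/
theorem sum_mul_rpow_le_of_mean (b : ℕ → ℝ) (hb : ∀ n, 0 ≤ b n) (C0 : ℝ)
    (hms : ∀ X : ℕ, ∑ n ∈ Finset.range (X + 1), b n ≤ C0 * X) (s : ℝ) (hs : 1 < s) (Y : ℕ) :
    ∑ n ∈ Finset.range Y, b (n + 1) * ((n : ℝ) + 1) ^ (-s) ≤
      C0 * ∑ n ∈ Finset.range Y, ((n : ℝ) + 1) ^ (-s) := by
  have hD : ∀ m, 0 ≤ ∑ n ∈ Finset.range m, (C0 - b (n + 1)) := by
    intro m
    rw [Finset.sum_sub_distrib, Finset.sum_const, Finset.card_range, nsmul_eq_mul]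
    have h := hms m
    rw [Finset.sum_range_succ'] at h
    have := hb 0
    linarith
  have hw : Antitone (fun n : ℕ => ((n : ℝ) + 1) ^ (-s)) := by
    intro m n hmn
    have hm : (0 : ℝ) ≤ m := Nat.cast_nonneg m
    have hmn' : (m : ℝ) ≤ n := Nat.cast_le.2 hmn
    exact Real.rpow_le_rpow_of_nonpos (by linarith) (by linarith) (by linarith)
  have hw0 : ∀ n : ℕ, 0 ≤ ((n : ℝ) + 1) ^ (-s) := by
    intro n
    have hn : (0 : ℝ) ≤ n := Nat.cast_nonneg n
    exact Real.rpow_nonneg (by linarith) _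
  have h := abel_sum_mul_nonneg (fun n => C0 - b (n + 1)) _ hD hw hw0 Y
  simp only [sub_mul, Finset.sum_sub_distrib, ← Finset.mul_sum] at h
  linarith

/-- The Euler product over a finite set of good primes is dominated by a partial sum of the
Rankin-Selberg Dirichlet series. -/
theorem prod_one_add_le_sum {N : ℕ} {ε : DirichletCharacter ℂ N} {a : ℕ → ℂ}
    (h1 : a 1 = 1) (hT : HeckeRel N ε a) (s : ℝ) (P : Finset ℕ)
    (hP : ∀ p ∈ P, p.Prime ∧ ¬ p ∣ N) :
    ∏ p ∈ P, (1 + ‖a p‖ ^ 2 * (p : ℝ) ^ (-s)) ≤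
      ∑ n ∈ Finset.range (∏ p ∈ P, p), ‖a (n + 1)‖ ^ 2 * ((n : ℝ) + 1) ^ (-s) := by
  rw [Finset.prod_one_add]
  have hpos : ∀ S ∈ P.powerset, 0 < ∏ p ∈ S, p := by
    intro S hS
    exact Finset.prod_pos fun p hp => (hP p (Finset.mem_powerset.1 hS hp)).1.pos
  have hterm : ∀ S ∈ P.powerset, ∏ p ∈ S, (‖a p‖ ^ 2 * (p : ℝ) ^ (-s)) =
      (fun n : ℕ => ‖a (n + 1)‖ ^ 2 * ((n : ℝ) + 1) ^ (-s)) ((∏ p ∈ S, p) - 1) := by
    intro S hS
    have hS' : ∀ p ∈ S, p.Prime ∧ ¬ p ∣ N := fun p hp => hP p (Finset.mem_powerset.1 hS hp)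
    have h0 := hpos S hS
    have hsub : (∏ p ∈ S, p) - 1 + 1 = ∏ p ∈ S, p := Nat.sub_add_cancel h0
    have hcast : (((∏ p ∈ S, p) - 1 : ℕ) : ℝ) + 1 = ∏ p ∈ S, (p : ℝ) := by
      rw [← Nat.cast_prod, ← hsub]
      simp
    simp only
    rw [hsub, hcast, HeckeRel.apply_prod_primes h1 hT S hS', Finset.prod_mul_distrib, norm_prod,
      Finset.prod_pow, Real.finsetProd_rpow _ _ (fun p _ => Nat.cast_nonneg p)]
  rw [Finset.sum_congr rfl hterm]
  have hinj : Set.InjOn (fun S : Finset ℕ => (∏ p ∈ S, p) - 1) (P.powerset : Set (Finset ℕ)) := by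
    intro S hS T hT' hST
    have hS0 := hpos S hS
    have hT0 := hpos T hT'
    have hST' : ∏ p ∈ S, p = ∏ p ∈ T, p := by
      simp only at hST
      omega
    have e1 := Nat.primeFactors_prod (s := S)
      (fun p hp => (hP p (Finset.mem_powerset.1 hS hp)).1)
    have e2 := Nat.primeFactors_prod (s := T)
      (fun p hp => (hP p (Finset.mem_powerset.1 hT' hp)).1)
    rw [← e1, ← e2, hST']
  rw [← Finset.sum_image (f := fun n : ℕ => ‖a (n + 1)‖ ^ 2 * ((n : ℝ) + 1) ^ (-s)) hinj]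
  apply Finset.sum_le_sum_of_subset_of_nonneg
  · intro n hn
    obtain ⟨S, hS, rfl⟩ := Finset.mem_image.1 hn
    have hS0 := hpos S hS
    have hP0 := hpos P (Finset.mem_powerset_self P)
    have hdvd : ∏ p ∈ S, p ∣ ∏ p ∈ P, p :=
      Finset.prod_dvd_prod_of_subset _ _ _ (Finset.mem_powerset.1 hS)
    have := Nat.le_of_dvd hP0 hdvd
    rw [Finset.mem_range]
    omega
  · intro n _ _
    have hn : (0 : ℝ) ≤ n := Nat.cast_nonneg n
    exact mul_nonneg (by positivity) (Real.rpow_nonneg (by linarith) _)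

/-- **Node D2** (abstract Rankin bound). -/
theorem rankin_abstract (N : ℕ) (eps : DirichletCharacter ℂ N) (a : ℕ → ℂ) (h1 : a 1 = 1)
    (hT : HeckeRel N eps a) (C0 : ℝ)
    (hms : ∀ X : ℕ, ∑ n ∈ Finset.range (X + 1), ‖a n‖ ^ 2 ≤ C0 * X) :
    ∃ C : ℝ, ∀ s : ℝ, 1 < s → s ≤ 2 → ∀ P : Finset ℕ, (∀ p ∈ P, p.Prime ∧ ¬ p ∣ N) →
      ∑ p ∈ P, Real.log (1 + ‖a p‖ ^ 2 * (p : ℝ) ^ (-s)) ≤ Real.log (1 / (s - 1)) + C := by
  have hC0 : 1 ≤ C0 := by
    have h := hms 1
    rw [Finset.sum_range_succ, Finset.sum_range_succ, Finset.sum_range_zero, h1] at h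
    have : 0 ≤ ‖a 0‖ ^ 2 := by positivity
    simp only [norm_one, Nat.cast_one] at h
    linarith
  refine ⟨Real.log (2 * C0), ?_⟩
  intro s hs hs2 P hP
  have hs0 : 0 < s - 1 := by linarith
  have hfac : ∀ p ∈ P, 0 < 1 + ‖a p‖ ^ 2 * (p : ℝ) ^ (-s) := by
    intro p _
    have : 0 ≤ ‖a p‖ ^ 2 * (p : ℝ) ^ (-s) :=
      mul_nonneg (by positivity) (Real.rpow_nonneg (Nat.cast_nonneg p) _)
    linarith
  rw [← Real.log_prod (fun p hp => (hfac p hp).ne'),
    ← Real.log_mul (by positivity) (by positivity)]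
  apply Real.log_le_log (Finset.prod_pos hfac)
  calc ∏ p ∈ P, (1 + ‖a p‖ ^ 2 * (p : ℝ) ^ (-s))
      ≤ ∑ n ∈ Finset.range (∏ p ∈ P, p), ‖a (n + 1)‖ ^ 2 * ((n : ℝ) + 1) ^ (-s) :=
        prod_one_add_le_sum h1 hT s P hP
    _ ≤ C0 * ∑ n ∈ Finset.range (∏ p ∈ P, p), ((n : ℝ) + 1) ^ (-s) :=
        sum_mul_rpow_le_of_mean (fun n => ‖a n‖ ^ 2) (fun n => by positivity) C0 hms s hs _
    _ ≤ C0 * (1 + 1 / (s - 1)) :=
        mul_le_mul_of_nonneg_left (sum_range_add_one_rpow_neg_le s hs _) (by linarith)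
    _ ≤ 1 / (s - 1) * (2 * C0) := by
        have h2 : 1 + 1 / (s - 1) ≤ 2 * (1 / (s - 1)) := by
          have : 1 ≤ 1 / (s - 1) := by
            rw [le_div_iff₀ hs0]
            linarith
          linarith
        calc C0 * (1 + 1 / (s - 1)) ≤ C0 * (2 * (1 / (s - 1))) :=
              mul_le_mul_of_nonneg_left h2 (by linarith)
          _ = 1 / (s - 1) * (2 * C0) := by ring

end Fermat.Agent.S48
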