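/-
S48 (Deligne-Serre), node M6: the Rankin bound holds for all conjugates.  Owner: helper4.
-/
import Fermat.Agent.S48.ModNodes
import Fermat.Agent.S48.MeanSquare
import Fermat.Agent.S48.RankinAbstract

set_option autoImplicit false

namespace Fermat.Agent.S48

open CongruenceSubgroup ModularFormClass
open scoped MatrixGroups ModularForm

/-- **Node M6**. -/
theorem conjRankin (h1 : ConjForm) (h4 : Projection) : ConjRankin := by
  intro N _ ε K g b hε hb hg1 hrel σ
  obtain ⟨pr, hprK, hprlin, hpr1⟩ := h4 K
  have hprid : ∀ x ∈ K, pr x = x := fun x hx => by simpa [hpr1] using hprlin x hx 1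
  let π : ℂ →+ ℂ :=
    { toFun := fun z => σ ⟨pr z, hprK z⟩
      map_zero' := by
        have : (⟨pr 0, hprK 0⟩ : K) = 0 := Subtype.ext (by simp)
        rw [this, map_zero]
      map_add' := fun x y => by
        have : (⟨pr (x + y), hprK (x + y)⟩ : K) = ⟨pr x, hprK x⟩ + ⟨pr y, hprK y⟩ :=
          Subtype.ext (by simp)
        rw [this, map_add] }
  obtain ⟨g', hg'⟩ := h1 N g π
  have hcoef : ∀ n, qCoeff g' n = σ (b n) := by
    intro n
    rw [hg' n]
    change σ ⟨pr (qCoeff g n), _⟩ = σ (b n)
    congr 1
    apply Subtype.ext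
    change pr (qCoeff g n) = (b n : ℂ)
    rw [← hb n]
    exact hprid _ (b n).2
  let epsK : MulChar (ZMod N) K :=
    { toFun := fun u => ⟨ε u, hε u⟩
      map_one' := Subtype.ext (by simp)
      map_mul' := fun x y => Subtype.ext (by simp)
      map_nonunit' := fun a ha => Subtype.ext (by simpa using ε.map_nonunit ha) }
  have hepsK : ∀ u, ((epsK u : K) : ℂ) = ε u := fun u => rfl
  let eps' : DirichletCharacter ℂ N := epsK.ringHomComp σ
  have heps' : ∀ u, eps' u = σ (epsK u) := fun u => rfl
  have hrel' : HeckeRel N eps' (fun n => σ (b n)) := by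
    intro p hp hpN n
    have h0 := hrel p hp hpN n
    have hK : b (p * n) + epsK (p : ZMod N) * (if p ∣ n then b (n / p) else 0) = b p * b n := by
      apply Subtype.ext
      simp only [← hb] at h0
      by_cases hpn : p ∣ n
      · simp only [hpn, if_true] at h0 ⊢
        simpa [hepsK] using h0
      · simp only [hpn, if_false] at h0 ⊢
        simpa [hepsK] using h0
    have h2 := congrArg σ hK
    rw [map_add, map_mul, map_mul, apply_ite σ, map_zero] at h2
    simpa [heps'] using h2
  obtain ⟨C0, hC0⟩ := meanSquare N g'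
  have hb1 : σ (b 1) = 1 := by
    have : b 1 = 1 := Subtype.ext (by rw [hb 1, hg1]; rfl)
    rw [this, map_one]
  exact rankin_abstract N eps' (fun n => σ (b n)) hb1 hrel' C0 (by simpa [hcoef] using hC0)

end Fermat.Agent.S48
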