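/-
S48 (Deligne-Serre).  Decomposition of the node `GaloisHalf` into small nodes.  Owner: helper48.
No proofs here: every `def ... : Prop` below is a theorem to be proved in its own file.
-/
import Fermat.Agent.S48.Nodes

set_option autoImplicit false

namespace Fermat.Agent.S48

open Polynomial
open scoped MatrixGroups

/-- Trace of a two dimensional matrix representation. -/
abbrev trG {Γ : Type*} [Group Γ] {κ : Type*} [Field κ] (ρ : Γ →* GL (Fin 2) κ) (g : Γ) : κ :=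
  ((ρ g : GL (Fin 2) κ) : Matrix (Fin 2) (Fin 2) κ).trace

/-- Determinant of a two dimensional matrix representation. -/
abbrev dtG {Γ : Type*} [Group Γ] {κ : Type*} [Field κ] (ρ : Γ →* GL (Fin 2) κ) (g : Γ) : κ :=
  ((ρ g : GL (Fin 2) κ) : Matrix (Fin 2) (Fin 2) κ).det

/-! ## Density -/

/-- **Node CHS** (Chebotarev density theorem for sets stable under conjugation and inversion;
lower bound).  Note the universal quantifier: ALL Frobenius elements at `p` land in `C`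
(automatic for `p` unramified in the field cut out by `r`).
Sub-architect: helper108, directory `S48/CH`. -/
def ChebotarevSym : Prop :=
  ∀ (G : Type) [Group G] [Finite G] (r : GQ →* G), Function.Surjective r →
    GaloisFactorsThroughFiniteLevel r → ∀ C : Set G,
      (∀ g h : G, g ∈ C → h * g * h⁻¹ ∈ C) → (∀ g ∈ C, g⁻¹ ∈ C) → ∀ δ : ℝ, 0 < δ →
      LowerDens {p : ℕ | ∀ σ : GQ, IsFrob σ p → r σ ∈ C} ((Nat.card C : ℝ) / Nat.card G - δ)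

/-- **Node DL** (a set of lower density `≥ η'` is not contained, up to a finite set, in a set of
upper density `≤ η < η'`). -/
def DensLe : Prop :=
  ∀ (X X' : Set ℕ) (T : Finset ℕ) (η η' : ℝ), UpperDens X η → LowerDens X' η' →
    (∀ p ∈ X', p ∈ X ∨ p ∈ T) → η' ≤ η

/-- **Node CHW** (weighted form of `ChebotarevSym`). -/
def ChebotarevWeighted : Prop :=
  ∀ (G : Type) [Group G] [Fintype G] (r : GQ →* G), Function.Surjective r →
    GaloisFactorsThroughFiniteLevel r → ∀ w : G → ℝ, (∀ g, 0 ≤ w g) →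
      (∀ g h : G, w (h * g * h⁻¹) = w g) → (∀ g, w g⁻¹ = w g) →
      ∀ (u : ℕ → ℝ) (T : Finset ℕ),
      (∀ p : ℕ, p.Prime → p ∉ T → ∀ σ, IsFrob σ p → u p = w (r σ)) →
      ∀ δ : ℝ, 0 < δ → ∃ C : ℝ, ∀ s : ℝ, 1 < s → s ≤ 2 →
        ∃ P : Finset ℕ, (∀ p ∈ P, p.Prime ∧ p ∉ T) ∧
          ((∑ g, w g) / Fintype.card G - δ) * Real.log (1 / (s - 1)) - C
            ≤ ∑ p ∈ P, u p * (p : ℝ) ^ (-s)

/-! ## Basic facts on `G_ℚ` -/

/-- **Node GB1**: finite level implies finite image. -/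
def FiniteRange : Prop :=
  ∀ (M : Type) [Group M] (r : GQ →* M), GaloisFactorsThroughFiniteLevel r → Finite r.range

/-- **Node GB2**: conjugates of Frobenius (inertia) elements are Frobenius (inertia) elements. -/
def FrobConj : Prop :=
  ∀ (p : ℕ) (σ τ : GQ), (IsFrob σ p → IsFrob (τ * σ * τ⁻¹) p) ∧
    (IsInert σ p → IsInert (τ * σ * τ⁻¹) p)

/-- The determinant character and complex conjugation. -/
structure DetData (N : ℕ) (ε : DirichletCharacter ℂ N) (d : GQ →* Zbarˣ) (c : GQ) : Prop where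
  lvl : GaloisFactorsThroughFiniteLevel d
  frob : ∀ p : ℕ, p.Prime → ¬ p ∣ N → ∀ σ, IsFrob σ p →
    (((d σ : Zbarˣ) : Zbar) : ℂ) = ε (p : ZMod N)
  inert : ∀ p : ℕ, p.Prime → ¬ p ∣ N → ∀ σ, IsInert σ p → d σ = 1
  tors : ∀ σ, d σ ^ N.totient = 1
  cc : c * c = 1
  dc : d c = -1

/-- **Node G1**: `d = ε ∘ cyc_N` and complex conjugation. -/
def ExistsDetData : Prop :=
  ∀ (N : ℕ) [NeZero N] (ε : DirichletCharacter ℂ N), ε (-1) = -1 →
    ∃ (d : GQ →* Zbarˣ) (c : GQ), DetData N ε d c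

/-! ## Reduction of algebraic integers -/

/-- **Node EX**: reductions exist for every prime. -/
def ExistsReduction : Prop :=
  ∀ ℓ : ℕ, ℓ.Prime → ∃ (κ : Type) (_ : Field κ) (_ : IsAlgClosed κ) (_ : CharP κ ℓ),
    Nonempty (Zbar →+* κ)

/-- Sums of at most eight `m`-th roots of unity. -/
def TestSet (m : ℕ) : Set Zbar :=
  {x | ∃ f : Fin 8 → Zbar, (∀ i, f i = 0 ∨ f i ^ m = 1) ∧ x = ∑ i, f i}

/-- **Node KILL**: a nonzero algebraic integer survives reduction at all large primes. -/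
def KillLemma : Prop :=
  ∀ x : Zbar, x ≠ 0 → ∃ L : ℕ, ∀ ℓ : ℕ, ℓ.Prime → L < ℓ →
    ∀ (κ : Type) [Field κ] [CharP κ ℓ] (φ : Zbar →+* κ), φ x ≠ 0

/-- **Node INJ**: reduction at a large prime is injective on the test set. -/
def TestInjective : Prop :=
  ∀ m : ℕ, 0 < m → ∃ L : ℕ, ∀ ℓ : ℕ, ℓ.Prime → L < ℓ →
    ∀ (κ : Type) [Field κ] [CharP κ ℓ] (φ : Zbar →+* κ), ∀ x ∈ TestSet m, φ x = 0 → x = 0

/-! ## Residual representations -/

/-- `ρ` is a semisimple two dimensional representation modulo `φ` with the expected traces. -/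
structure IsResidual (N : ℕ) (a : ℕ → Zbar) (d : GQ →* Zbarˣ) (ℓ : ℕ) {κ : Type} [Field κ]
    (φ : Zbar →+* κ) (ρ : GQ →* GL (Fin 2) κ) : Prop where
  lvl : GaloisFactorsThroughFiniteLevel ρ
  ss : IsSS ρ
  det : ∀ σ, dtG ρ σ = φ (d σ : Zbarˣ)
  unr : ∀ p : ℕ, p.Prime → ¬ p ∣ N * ℓ → ∀ σ, IsInert σ p → ρ σ = 1
  tr : ∀ p : ℕ, p.Prime → ¬ p ∣ N * ℓ → ∀ σ, IsFrob σ p → trG ρ σ = φ (a p)

/-- **Node SS** (semisimplification in dimension two). -/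
def Semisimplify : Prop :=
  ∀ (Γ : Type) [Group Γ] (κ : Type) [Field κ] (ρ : Γ →* GL (Fin 2) κ),
    ∃ ρ' : Γ →* GL (Fin 2) κ, IsSS ρ' ∧ (∀ g, trG ρ' g = trG ρ g ∧ dtG ρ' g = dtG ρ g) ∧
      ∀ g, ρ g = 1 → ρ' g = 1

/-- **Node R** (from a Galois module with quadratic relations to a residual representation). -/
def ResidualRep : Prop :=
  ∀ (N : ℕ) [NeZero N] (a : ℕ → Zbar) (d : GQ →* Zbarˣ), GaloisFactorsThroughFiniteLevel d →
    (∀ p : ℕ, p.Prime → ¬ p ∣ N → ∀ σ, IsInert σ p → d σ = 1) →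
    ∀ (ℓ : ℕ) (κ : Type) [Field κ] [IsAlgClosed κ] (φ : Zbar →+* κ)
      (W : Type) [AddCommGroup W] [Module κ W] [FiniteDimensional κ W] [Nontrivial W]
      (r : GQ →* Module.End κ W), ℓ.Prime → GaloisFactorsThroughFiniteLevel r →
      (∀ p : ℕ, p.Prime → ¬ p ∣ N * ℓ → ∀ σ, IsInert σ p → r σ = 1) →
      (∀ p : ℕ, p.Prime → ¬ p ∣ N * ℓ → ∀ σ, IsFrob σ p →
        r σ * r σ - φ (a p) • r σ + φ (d σ : Zbarˣ) • (1 : Module.End κ W) = 0) →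
      ∃ ρ : GQ →* GL (Fin 2) κ, IsResidual N a d ℓ φ ρ

/-- **Node IB** (the images of the residual representations are bounded). -/
def ImageBound : Prop :=
  ∀ (N : ℕ) [NeZero N] (a : ℕ → Zbar) (d : GQ →* Zbarˣ) (Y : Finset Zbar) (X : Set ℕ),
    UpperDens X (1 / 8) → (∀ p : ℕ, p.Prime → ¬ p ∣ N → p ∉ X → a p ∈ Y) →
    (∀ σ, d σ ^ N.totient = 1) →
    ∃ B : ℕ, ∀ (ℓ : ℕ) (κ : Type) [Field κ] [IsAlgClosed κ] [CharP κ ℓ] (φ : Zbar →+* κ)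
      (ρ : GQ →* GL (Fin 2) κ), ℓ.Prime → B < ℓ → IsResidual N a d ℓ φ ρ →
      Nat.card ρ.range ≤ B

/-- **Node RU** (the Frobenius eigenvalues are roots of unity of bounded order). -/
def RootsOfUnityNode : Prop :=
  ∀ (N : ℕ) (a : ℕ → Zbar) (d : GQ →* Zbarˣ) (m ℓ₁ : ℕ), 0 < m →
    (∀ ℓ : ℕ, ℓ.Prime → ℓ₁ < ℓ → ∃ (κ : Type) (_ : Field κ) (_ : IsAlgClosed κ) (_ : CharP κ ℓ)
      (φ : Zbar →+* κ) (ρ : GQ →* GL (Fin 2) κ), IsResidual N a d ℓ φ ρ ∧ ∀ σ, ρ σ ^ m = 1) →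
    ∀ p : ℕ, p.Prime → ¬ p ∣ N → ∃ α β : Zbar, α ^ m = 1 ∧ β ^ m = 1 ∧ a p = α + β

/-- **Node LIFT** (lifting a residual representation of bounded image to characteristic 0). -/
def LiftNode : Prop :=
  ∀ (N : ℕ) (a : ℕ → Zbar) (d : GQ →* Zbarˣ) (c : GQ) (m ℓ : ℕ), 0 < m → 2 ∣ m →
    c * c = 1 → d c = -1 → (∀ σ, d σ ^ m = 1) →
    (∀ p : ℕ, p.Prime → ¬ p ∣ N → ∃ α β : Zbar, α ^ m = 1 ∧ β ^ m = 1 ∧ a p = α + β) →
    ∀ (κ : Type) [Field κ] [IsAlgClosed κ] (φ : Zbar →+* κ) (ρ' : GQ →* GL (Fin 2) κ),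
      IsResidual N a d ℓ φ ρ' → (∀ σ, ρ' σ ^ m = 1) →
      (∀ x ∈ TestSet m, φ x = 0 → x = 0) →
      ∃ ρ : GQ →* GL (Fin 2) ℂ, GaloisFactorsThroughFiniteLevel ρ ∧
        (∀ σ, dtG ρ σ = (((d σ : Zbarˣ) : Zbar) : ℂ)) ∧
        (∀ p : ℕ, p.Prime → ¬ p ∣ N * ℓ → ∀ σ, IsInert σ p → ρ σ = 1) ∧
        (∀ p : ℕ, p.Prime → ¬ p ∣ N * ℓ → ∀ σ, IsFrob σ p → trG ρ σ = (a p : ℂ)) ∧
        (∀ τ, (∀ g, trG ρ (g * τ) = trG ρ g) → ρ τ = 1)

/-- **Node IND** (a finite level representation is determined, as far as traces go, by its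
traces at almost all Frobenius elements). -/
def TraceDetermined : Prop :=
  ∀ (ρ₁ ρ₂ : GQ →* GL (Fin 2) ℂ), GaloisFactorsThroughFiniteLevel ρ₁ →
    GaloisFactorsThroughFiniteLevel ρ₂ → (∀ σ, dtG ρ₁ σ = dtG ρ₂ σ) →
    ∀ T : Finset ℕ, (∀ p : ℕ, p.Prime → p ∉ T → ∀ σ, IsFrob σ p → trG ρ₁ σ = trG ρ₂ σ) →
    ∀ σ, trG ρ₁ σ = trG ρ₂ σ

/-- **Node IRR1** (a reducible two dimensional representation has trace `χ₁ + χ₂`). -/
def ReducibleSplit : Prop :=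
  ∀ (Γ : Type) [Group Γ] (ρ : Γ →* GL (Fin 2) ℂ),
    ¬ (Deformation.matrixRepresentation ρ).IsIrreducible →
    ∃ χ₁ χ₂ : Γ →* ℂˣ, (∀ g, trG ρ g = (χ₁ g : ℂ) + (χ₂ g : ℂ)) ∧
      ∀ g, ρ g = 1 → χ₁ g = 1 ∧ χ₂ g = 1

/-- **Node IRR** (irreducibility from the Rankin bound). -/
def IrredNode : Prop :=
  ∀ (N : ℕ) [NeZero N] (a : ℕ → ℂ) (ρ : GQ →* GL (Fin 2) ℂ),
    GaloisFactorsThroughFiniteLevel ρ →
    (∀ p : ℕ, p.Prime → ¬ p ∣ N → ∀ σ, IsFrob σ p → trG ρ σ = a p) →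
    (∃ C : ℝ, ∀ s : ℝ, 1 < s → s ≤ 2 → ∀ P : Finset ℕ, (∀ p ∈ P, p.Prime ∧ ¬ p ∣ N) →
      ∑ p ∈ P, Real.log (1 + ‖a p‖ ^ 2 * (p : ℝ) ^ (-s)) ≤ Real.log (1 / (s - 1)) + C) →
    (Deformation.matrixRepresentation ρ).IsIrreducible

end Fermat.Agent.S48
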