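/-
S48 (Deligne-Serre), node G1: the determinant character `d = ε ∘ cyc_N` and complex conjugation.
-/
import Fermat.Agent.S48.GalNodes
import Fermat.Agent.S29.Cyclo
import Fermat.Prelude.Def_GaloisRep_ComplexConjugation

set_option autoImplicit false

namespace Fermat.Agent.S48.Det

open Fermat.Agent.S05 Fermat.Agent.S29.Cyclo

local notation "Qbar" => AlgebraicClosure ℚ

section Roots

variable {L : Type*} [Field L]

theorem not_valuation_sub_one_lt_one' (A : ValuationSubring L) {ℓ N : ℕ} (hℓ : ℓ.Prime)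
    (hN : N ≠ 0) (hne : ¬ ℓ ∣ N) (hA : A.LiesOverPrime ℓ) {η : L} (hη : η ^ N = 1)
    (hη1 : η ≠ 1) : ¬ A.valuation (η - 1) < 1 := by
  intro hlt
  set m := orderOf η with hm
  have hmN : m ∣ N := orderOf_dvd_of_pow_eq_one hη
  have hm0 : m ≠ 0 := fun h => hN (by rw [h] at hmN; exact Nat.eq_zero_of_zero_dvd hmN)
  have hm1 : m ≠ 1 := fun h => hη1 (orderOf_eq_one_iff.mp h)
  have hprim : IsPrimitiveRoot η m := IsPrimitiveRoot.orderOf η
  have hsum : ∑ i ∈ Finset.range m, η ^ i = 0 := hprim.geom_sum_eq_zero (by omega)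
  have hv : A.valuation η = 1 := valuation_eq_one_of_pow_eq_one A hN hη
  have hterm : ∀ i : ℕ, A.valuation (η ^ i - 1) < 1 := by
    intro i
    induction i with
    | zero => simp
    | succ i ih =>
      have : η ^ (i + 1) - 1 = η * (η ^ i - 1) + (η - 1) := by ring
      rw [this]
      apply Valuation.map_add_lt _ _ hlt
      rw [map_mul, hv, one_mul]
      exact ih
  have hpsum : (m : L) = - ∑ i ∈ Finset.range m, (η ^ i - 1) := by
    rw [Finset.sum_sub_distrib, hsum]
    simp
  have hlt' : A.valuation (m : L) < 1 := by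
    rw [hpsum, Valuation.map_neg]
    exact Valuation.map_sum_lt _ one_ne_zero (fun i _ => hterm i)
  have hnd : ¬ (ℓ : ℤ) ∣ (m : ℤ) := by
    intro h
    exact hne ((Int.natCast_dvd_natCast.mp h).trans hmN)
  have := valuation_intCast_eq_one A hℓ hA hnd
  rw [Int.cast_natCast] at this
  exact absurd this hlt'.ne

theorem eq_of_valuation_sub_lt_one' (A : ValuationSubring L) {ℓ N : ℕ} (hℓ : ℓ.Prime)
    (hN : N ≠ 0) (hne : ¬ ℓ ∣ N) (hA : A.LiesOverPrime ℓ) {x y : L} (hx : x ^ N = 1)
    (hy : y ^ N = 1) (h : A.valuation (x - y) < 1) : x = y := by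
  by_contra hxy
  have hy0 : y ≠ 0 := by
    rintro rfl
    rw [zero_pow hN] at hy
    exact zero_ne_one hy
  have h1 : (x / y) ^ N = 1 := by rw [div_pow, hx, hy, div_one]
  have h2 : x / y ≠ 1 := by
    intro h3
    exact hxy ((div_eq_one_iff_eq hy0).mp h3)
  apply not_valuation_sub_one_lt_one' A hℓ hN hne hA h1 h2
  have h3 : x / y - 1 = (x - y) / y := by field_simp
  rw [h3, map_div₀, valuation_eq_one_of_pow_eq_one A hN hy, div_one]
  exact h

end Roots

section Cyc

variable (N : ℕ) [NeZero N]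

theorem card_rootsN : Nat.card (rootsOfUnity N Qbar) = N :=
  haveI : NeZero (N : Qbar) := ⟨Nat.cast_ne_zero.mpr (NeZero.ne N)⟩
  HasEnoughRootsOfUnity.natCard_rootsOfUnity Qbar N

/-- The mod `N` cyclotomic character. -/
noncomputable def cycN : GQ →* (ZMod N)ˣ :=
  (modularCyclotomicCharacter Qbar (card_rootsN N)).comp (MulSemiringAction.toRingAut GQ Qbar)

theorem cycN_eq_of_forall (σ : GQ) (c : ℕ) (h : ∀ x : Qbar, x ^ N = 1 → σ x = x ^ c) :
    ((cycN N σ : (ZMod N)ˣ) : ZMod N) = (c : ZMod N) := by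
  symm
  apply modularCyclotomicCharacter.unique
  intro t ht
  have ht' : (t : Qbar) ^ N = 1 := by
    have := (mem_rootsOfUnity _ _).mp ht
    rw [← Units.val_pow_eq_pow_val, this, Units.val_one]
  have h1 : (MulSemiringAction.toRingAut GQ Qbar σ) (t : Qbar) = σ (t : Qbar) := rfl
  rw [h1, h _ ht', ZMod.val_natCast]
  exact pow_eq_pow_mod c ht'

theorem cycN_frob {ℓ : ℕ} (hℓ : ℓ.Prime) (hne : ¬ ℓ ∣ N) (A : ValuationSubring Qbar)
    (hA : A.LiesOverPrime ℓ) {σ : GQ} (hσ : A.IsFrobeniusAt σ ℓ) :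
    ((cycN N σ : (ZMod N)ˣ) : ZMod N) = (ℓ : ZMod N) := by
  have hN : N ≠ 0 := NeZero.ne N
  apply cycN_eq_of_forall
  intro x hx
  apply eq_of_valuation_sub_lt_one' A hℓ hN hne hA
  · rw [← map_pow, hx, map_one]
  · rw [← pow_mul, mul_comm, pow_mul, hx, one_pow]
  · exact frob_valuation_sub_lt_one A hσ (valuation_eq_one_of_pow_eq_one A hN hx).le

theorem cycN_inertia {ℓ : ℕ} (hℓ : ℓ.Prime) (hne : ¬ ℓ ∣ N) (A : ValuationSubring Qbar)
    (hA : A.LiesOverPrime ℓ) {σ : GQ} (hσ : σ ∈ A.inertiaSubgroupIn ℚ) :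
    cycN N σ = 1 := by
  have hN : N ≠ 0 := NeZero.ne N
  apply Units.ext
  have := cycN_eq_of_forall N σ 1 (fun x hx => by
    rw [pow_one]
    apply eq_of_valuation_sub_lt_one' A hℓ hN hne hA
    · rw [← map_pow, hx, map_one]
    · exact hx
    · exact inertia_valuation_sub_lt_one A hσ (valuation_eq_one_of_pow_eq_one A hN hx).le)
  simpa using this

/-- The field generated by the `N`-th roots of unity. -/
noncomputable def cycFieldN : IntermediateField ℚ Qbar :=
  IntermediateField.adjoin ℚ {x : Qbar | x ^ N = 1}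

theorem cycFieldN_finite : FiniteDimensional ℚ (cycFieldN N) := by
  have hN : 0 < N := Nat.pos_of_ne_zero (NeZero.ne N)
  have hfin : {x : Qbar | x ^ N = 1}.Finite := by
    have h1 : {x : Qbar | x ^ N = 1} ⊆ ((Polynomial.nthRoots N (1 : Qbar)).toFinset : Set Qbar) := by
      intro x hx
      simp only [Finset.mem_coe, Multiset.mem_toFinset]
      exact (Polynomial.mem_nthRoots hN).mpr hx
    exact (Finset.finite_toSet _).subset h1
  have := hfin.to_subtype
  apply IntermediateField.finiteDimensional_adjoin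
  intro x hx
  have hx' : x ^ N = 1 := hx
  exact IsIntegral.of_pow hN (by rw [hx']; exact isIntegral_one)

theorem cycN_eq_one_of_fixes {σ : GQ} (h : ∀ x ∈ cycFieldN N, σ x = x) : cycN N σ = 1 := by
  apply Units.ext
  have := cycN_eq_of_forall N σ 1 (fun x hx => by
    rw [pow_one]
    exact h x (IntermediateField.subset_adjoin ℚ _ hx))
  simpa using this

/-- complex conjugation inverts the roots of unity. -/
theorem complexConjugation_root {x : Qbar} (hx : x ^ N = 1) :
    complexConjugation x = x ^ (N - 1) := by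
  have hN : N ≠ 0 := NeZero.ne N
  apply complexEmbedding.toRingHom.injective
  change complexEmbedding (complexConjugation x) = complexEmbedding (x ^ (N - 1))
  rw [complexEmbedding_complexConjugation, map_pow]
  set z := complexEmbedding x with hz
  have hzN : z ^ N = 1 := by rw [hz, ← map_pow, hx, map_one]
  have hnorm : ‖z‖ = 1 := Complex.norm_eq_one_of_pow_eq_one hzN hN
  rw [← Complex.inv_eq_conj hnorm]
  have hz0 : z ≠ 0 := by
    rintro h0
    rw [h0, zero_pow hN] at hzN
    exact zero_ne_one hzN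
  symm
  apply eq_inv_of_mul_eq_one_left
  rw [← pow_succ, Nat.sub_add_cancel (Nat.pos_of_ne_zero hN), hzN]

theorem cycN_complexConjugation :
    ((cycN N complexConjugation : (ZMod N)ˣ) : ZMod N) = -1 := by
  have hN : 1 ≤ N := Nat.pos_of_ne_zero (NeZero.ne N)
  rw [cycN_eq_of_forall N complexConjugation (N - 1) (fun x hx => complexConjugation_root N hx),
    Nat.cast_sub hN, ZMod.natCast_self, Nat.cast_one, zero_sub]

variable {N}

theorem eps_pow_totient (ε : DirichletCharacter ℂ N) (u : (ZMod N)ˣ) :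
    ε (u : ZMod N) ^ N.totient = 1 := by
  rw [← map_pow, ← Units.val_pow_eq_pow_val, ZMod.pow_totient, Units.val_one, map_one]

theorem eps_mem_Zbar (ε : DirichletCharacter ℂ N) (u : (ZMod N)ˣ) : ε (u : ZMod N) ∈ Zbar := by
  have hpos : 0 < N.totient := Nat.totient_pos.mpr (Nat.pos_of_ne_zero (NeZero.ne N))
  change IsIntegral ℤ (ε (u : ZMod N))
  exact IsIntegral.of_pow hpos (by rw [eps_pow_totient]; exact isIntegral_one)

/-- `ε` as a homomorphism to the multiplicative monoid of the algebraic integers. -/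
noncomputable def epsZ (ε : DirichletCharacter ℂ N) : (ZMod N)ˣ →* Zbar where
  toFun u := ⟨ε (u : ZMod N), eps_mem_Zbar ε u⟩
  map_one' := by
    apply Subtype.ext
    simp
  map_mul' u v := by
    apply Subtype.ext
    simp

/-- the determinant character. -/
noncomputable def detChar (ε : DirichletCharacter ℂ N) : GQ →* Zbarˣ :=
  (MonoidHom.toHomUnits (epsZ ε)).comp (cycN N)

theorem detChar_coe (ε : DirichletCharacter ℂ N) (σ : GQ) :
    (((detChar ε σ : Zbarˣ) : Zbar) : ℂ) = ε ((cycN N σ : (ZMod N)ˣ) : ZMod N) := rfl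

end Cyc

end Fermat.Agent.S48.Det

namespace Fermat.Agent.S48

open Det

/-- **Node G1.** -/
theorem existsDetData : ExistsDetData := by
  intro N _ ε hε
  refine ⟨detChar ε, complexConjugation, ?_, ?_, ?_, ?_, complexConjugation_mul_self, ?_⟩
  · refine ⟨cycFieldN N, cycFieldN_finite N, fun σ hσ => ?_⟩
    rw [detChar, MonoidHom.comp_apply, cycN_eq_one_of_fixes N hσ, map_one]
  · rintro p hp hpN σ ⟨A, hA, hσ⟩
    rw [detChar_coe, cycN_frob N hp hpN A hA hσ]
  · rintro p hp hpN σ ⟨A, hA, hσ⟩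
    rw [detChar, MonoidHom.comp_apply, cycN_inertia N hp hpN A hA hσ, map_one]
  · intro σ
    rw [← map_pow, detChar, MonoidHom.comp_apply, map_pow, ZMod.pow_totient, map_one]
  · apply Units.ext
    apply Subtype.ext
    rw [detChar_coe, cycN_complexConjugation, hε]
    simp

end Fermat.Agent.S48
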