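/-
S48 (Deligne-Serre).  Node M7 `FinAbstract`: Rankin bounds for all conjugates of a sequence of
integers of a number field imply that the sequence takes finitely many values outside a set of
small upper density.  Owner: helper293.
-/
import Fermat.Agent.S48.ModNodes

set_option autoImplicit false

namespace Fermat.Agent.S48

namespace FinAbs

lemma log_lower {y : ℝ} (hy : 0 ≤ y) : y - y ^ 2 / 2 ≤ Real.log (1 + y) := by
  have h := Real.le_log_one_add_of_nonneg hy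
  refine le_trans ?_ h
  rw [le_div_iff₀ (by positivity)]
  nlinarith [pow_nonneg hy 3]

lemma sum_sq_le (P : Finset ℕ) (hP : ∀ p ∈ P, p.Prime) {s : ℝ} (hs : 1 < s) :
    ∑ p ∈ P, ((p : ℝ) ^ (-s)) ^ 2 ≤ ∑' n : ℕ, 1 / (n : ℝ) ^ 2 := by
  have hsum : Summable (fun n : ℕ => 1 / (n : ℝ) ^ 2) :=
    Real.summable_one_div_nat_pow.mpr (by norm_num)
  refine le_trans (Finset.sum_le_sum fun p hp => ?_)
    (hsum.sum_le_tsum P (fun _ _ => by positivity))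
  have hp1 : (1 : ℝ) ≤ p := by exact_mod_cast (hP p hp).one_le
  have h1 : (p : ℝ) ^ (-s) ≤ (p : ℝ) ^ (-1 : ℝ) :=
    Real.rpow_le_rpow_of_exponent_le hp1 (by linarith)
  rw [Real.rpow_neg_one] at h1
  have h0 : 0 ≤ (p : ℝ) ^ (-s) := by positivity
  calc ((p : ℝ) ^ (-s)) ^ 2 ≤ ((p : ℝ)⁻¹) ^ 2 := pow_le_pow_left₀ h0 h1 2
    _ = 1 / (p : ℝ) ^ 2 := by rw [inv_pow, one_div]

/-- One conjugate: the primes where `c < ‖a p‖ ^ 2` have upper density at most `1 / c`. -/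
lemma one_conj {N : ℕ} {a : ℕ → ℂ} {C c : ℝ} (hc : 0 < c)
    (hC : ∀ s : ℝ, 1 < s → s ≤ 2 → ∀ P : Finset ℕ, (∀ p ∈ P, p.Prime ∧ ¬ p ∣ N) →
      ∑ p ∈ P, Real.log (1 + ‖a p‖ ^ 2 * (p : ℝ) ^ (-s)) ≤ Real.log (1 / (s - 1)) + C)
    {s : ℝ} (hs : 1 < s) (hs2 : s ≤ 2) (P : Finset ℕ)
    (hP : ∀ p ∈ P, p.Prime ∧ ¬ p ∣ N ∧ c < ‖a p‖ ^ 2) :
    ∑ p ∈ P, (p : ℝ) ^ (-s) ≤
      (1 / c) * Real.log (1 / (s - 1)) + (C + c ^ 2 / 2 * ∑' n : ℕ, 1 / (n : ℝ) ^ 2) / c := by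
  have h1 := hC s hs hs2 P (fun p hp => ⟨(hP p hp).1, (hP p hp).2.1⟩)
  have h2 : ∑ p ∈ P, (c * (p : ℝ) ^ (-s) - c ^ 2 / 2 * ((p : ℝ) ^ (-s)) ^ 2) ≤
      ∑ p ∈ P, Real.log (1 + ‖a p‖ ^ 2 * (p : ℝ) ^ (-s)) := by
    refine Finset.sum_le_sum fun p hp => ?_
    have h0 : 0 ≤ (p : ℝ) ^ (-s) := by positivity
    have h3 := log_lower (y := c * (p : ℝ) ^ (-s)) (by positivity)
    have h4 : Real.log (1 + c * (p : ℝ) ^ (-s)) ≤
        Real.log (1 + ‖a p‖ ^ 2 * (p : ℝ) ^ (-s)) := by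
      apply Real.log_le_log (by positivity)
      have := mul_le_mul_of_nonneg_right (hP p hp).2.2.le h0
      linarith
    calc c * (p : ℝ) ^ (-s) - c ^ 2 / 2 * ((p : ℝ) ^ (-s)) ^ 2
        = c * (p : ℝ) ^ (-s) - (c * (p : ℝ) ^ (-s)) ^ 2 / 2 := by ring
      _ ≤ _ := h3.trans h4
  rw [Finset.sum_sub_distrib, ← Finset.mul_sum, ← Finset.mul_sum] at h2
  have h5 := sum_sq_le P (fun p hp => (hP p hp).1) hs
  have h6 : c ^ 2 / 2 * ∑ p ∈ P, ((p : ℝ) ^ (-s)) ^ 2 ≤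
      c ^ 2 / 2 * ∑' n : ℕ, 1 / (n : ℝ) ^ 2 :=
    mul_le_mul_of_nonneg_left h5 (by positivity)
  have h7 : c * ∑ p ∈ P, (p : ℝ) ^ (-s) ≤
      Real.log (1 / (s - 1)) + (C + c ^ 2 / 2 * ∑' n : ℕ, 1 / (n : ℝ) ^ 2) := by linarith
  have h8 : ∑ p ∈ P, (p : ℝ) ^ (-s) ≤
      (Real.log (1 / (s - 1)) + (C + c ^ 2 / 2 * ∑' n : ℕ, 1 / (n : ℝ) ^ 2)) / c := by
    rw [le_div_iff₀ hc]; linarith
  calc ∑ p ∈ P, (p : ℝ) ^ (-s) ≤ _ := h8
    _ = _ := by ring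

end FinAbs

open FinAbs in
theorem finAbstract : FinAbstract := by
  classical
  intro N K b hK hint hR eta heta
  have : NumberField K := ⟨⟩
  set r : ℝ := (Fintype.card (K →+* ℂ) : ℝ) with hr
  have hr0 : 0 ≤ r := by positivity
  set c : ℝ := r / eta + 1 with hcdef
  have hc : 0 < c := by positivity
  have hrc : r / c ≤ eta := by
    rw [div_le_iff₀ hc, hcdef, mul_add, mul_div_cancel₀ _ heta.ne']
    linarith
  have hfin := NumberField.Embeddings.finite_of_norm_le K ℂ (Real.sqrt c)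
  choose C hC using hR
  refine ⟨hfin.toFinset.image (fun x : K => (x : ℂ)),
    {p | ¬ p ∣ N ∧ ∃ σ : K →+* ℂ, c < ‖σ (b p)‖ ^ 2}, ?_, ?_⟩
  · refine ⟨∑ σ : K →+* ℂ, (C σ + c ^ 2 / 2 * ∑' n : ℕ, 1 / (n : ℝ) ^ 2) / c, ?_⟩
    intro s hs hs2 P hP
    have hlog : 0 ≤ Real.log (1 / (s - 1)) := by
      apply Real.log_nonneg
      rw [le_div_iff₀ (by linarith)]
      linarith
    have hcover : ∑ p ∈ P, (p : ℝ) ^ (-s) ≤
        ∑ σ : K →+* ℂ, ∑ p ∈ P.filter (fun p => c < ‖σ (b p)‖ ^ 2), (p : ℝ) ^ (-s) := by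
      simp_rw [Finset.sum_filter]
      rw [Finset.sum_comm]
      refine Finset.sum_le_sum fun p hp => ?_
      obtain ⟨σ, hσ⟩ := (hP p hp).2.2
      have h0 : 0 ≤ (p : ℝ) ^ (-s) := by positivity
      calc (p : ℝ) ^ (-s) = if c < ‖σ (b p)‖ ^ 2 then (p : ℝ) ^ (-s) else 0 := by rw [if_pos hσ]
        _ ≤ _ := Finset.single_le_sum
            (f := fun σ : K →+* ℂ => if c < ‖σ (b p)‖ ^ 2 then (p : ℝ) ^ (-s) else 0)
            (fun τ _ => by split_ifs <;> simp [h0]) (Finset.mem_univ σ)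
    have heach : ∀ σ : K →+* ℂ,
        ∑ p ∈ P.filter (fun p => c < ‖σ (b p)‖ ^ 2), (p : ℝ) ^ (-s) ≤
        (1 / c) * Real.log (1 / (s - 1)) +
          (C σ + c ^ 2 / 2 * ∑' n : ℕ, 1 / (n : ℝ) ^ 2) / c := by
      intro σ
      refine one_conj (N := N) (a := fun n => σ (b n)) hc (hC σ) hs hs2 _ ?_
      intro p hp
      rw [Finset.mem_filter] at hp
      exact ⟨(hP p hp.1).1, (hP p hp.1).2.1, hp.2⟩
    calc ∑ p ∈ P, (p : ℝ) ^ (-s) ≤ _ := hcover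
      _ ≤ ∑ σ : K →+* ℂ, ((1 / c) * Real.log (1 / (s - 1)) +
          (C σ + c ^ 2 / 2 * ∑' n : ℕ, 1 / (n : ℝ) ^ 2) / c) :=
          Finset.sum_le_sum fun σ _ => heach σ
      _ = (r / c) * Real.log (1 / (s - 1)) +
          ∑ σ : K →+* ℂ, (C σ + c ^ 2 / 2 * ∑' n : ℕ, 1 / (n : ℝ) ^ 2) / c := by
          rw [Finset.sum_add_distrib, Finset.sum_const, Finset.card_univ, nsmul_eq_mul, hr]
          ring
      _ ≤ _ := by
          have := mul_le_mul_of_nonneg_right hrc hlog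
          linarith
  · intro p hp hpN hpX
    rw [Finset.mem_image]
    refine ⟨b p, ?_, rfl⟩
    rw [Set.Finite.mem_toFinset]
    refine ⟨hint p hp hpN, fun σ => ?_⟩
    have h1 : ‖σ (b p)‖ ^ 2 ≤ c := by
      by_contra hcon
      exact hpX ⟨hpN, σ, not_le.mp hcon⟩
    exact Real.le_sqrt_of_sq_le h1

end Fermat.Agent.S48
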