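/-
S48 (Deligne-Serre).  Proofs of the small nodes `FiniteRange`, `FrobConj`, `DensLe`,
`ExistsReduction`, `KillLemma`, `TestInjective` of `GalNodes.lean`.
-/
import Fermat.Agent.S48.GalNodes
import Fermat.Agent.S29.Residue

set_option autoImplicit false

namespace Fermat.Agent.S48

open Polynomial
open scoped Pointwise

/-! ## `FiniteRange` -/

theorem finiteRange : FiniteRange := by
  intro M _ r hr
  obtain ⟨L, hL, hr⟩ := hr
  let res : GQ → (L →ₐ[ℚ] AlgebraicClosure ℚ) := fun σ => (σ : _ →ₐ[ℚ] _).comp L.val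
  have key : ∀ σ τ : GQ, res σ = res τ → r σ = r τ := by
    intro σ τ h
    have h1 : r (τ⁻¹ * σ) = 1 := by
      apply hr
      intro x hx
      have h2 : σ x = τ x := DFunLike.congr_fun h ⟨x, hx⟩
      change τ⁻¹ (σ x) = x
      rw [h2]
      exact τ.symm_apply_apply x
    rw [map_mul, map_inv, inv_mul_eq_one] at h1
    exact h1.symm
  have hfin : Finite (L →ₐ[ℚ] AlgebraicClosure ℚ) := inferInstance
  refine Finite.of_injective (fun m : r.range => res m.2.choose) ?_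
  intro m₁ m₂ h
  have := key _ _ h
  rw [m₁.2.choose_spec, m₂.2.choose_spec] at this
  exact Subtype.ext this

/-! ## `KillLemma`, `TestInjective`, `ExistsReduction` -/

theorem killLemma : KillLemma := by
  intro x hx
  have hint : IsIntegral ℤ x := Algebra.IsIntegral.isIntegral x
  have hc0 : (minpoly ℤ x).coeff 0 ≠ 0 := by
    intro h0
    obtain ⟨q, hq⟩ := X_dvd_iff.mpr h0
    have hmon : (X * q : ℤ[X]).Monic := hq ▸ minpoly.monic hint
    have hqm : q.Monic := Monic.of_mul_monic_left monic_X hmon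
    have hq0 : aeval x q = 0 := by
      have h1 : aeval x (minpoly ℤ x) = 0 := minpoly.aeval ℤ x
      rw [hq, map_mul, aeval_X] at h1
      exact (mul_eq_zero.mp h1).resolve_left hx
    have h2 := minpoly.min ℤ x hqm hq0
    rw [hq, degree_mul, degree_X, degree_eq_natDegree hqm.ne_zero] at h2
    have h3 : ((1 + q.natDegree : ℕ) : WithBot ℕ) ≤ ((q.natDegree : ℕ) : WithBot ℕ) := by
      rw [Nat.cast_add, Nat.cast_one]
      exact h2
    have h4 : 1 + q.natDegree ≤ q.natDegree := Nat.cast_le.mp h3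
    omega
  refine ⟨((minpoly ℤ x).coeff 0).natAbs, ?_⟩
  intro ℓ hℓ hL κ _ _ φ hφ
  have h1 : aeval x (minpoly ℤ x) = 0 := minpoly.aeval ℤ x
  have h2 : eval₂ (Int.castRingHom κ) (φ x) (minpoly ℤ x) = 0 := by
    have h3 := congrArg φ h1
    rw [map_zero, aeval_def, hom_eval₂] at h3
    rwa [show φ.comp (algebraMap ℤ Zbar) = Int.castRingHom κ from RingHom.ext_int _ _] at h3
  rw [hφ, eval₂_at_zero] at h2
  have h3 : (ℓ : ℤ) ∣ (minpoly ℤ x).coeff 0 := (CharP.intCast_eq_zero_iff κ ℓ _).mp h2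
  have h4 : ℓ ∣ ((minpoly ℤ x).coeff 0).natAbs := Int.natCast_dvd.mp h3
  have h5 := Nat.le_of_dvd (Int.natAbs_pos.mpr hc0) h4
  omega

theorem finite_testSet (m : ℕ) (hm : 0 < m) : (TestSet m).Finite := by
  classical
  have hS : {z : Zbar | z = 0 ∨ z ^ m = 1}.Finite := by
    have h1 : {z : Zbar | z ^ m = 1}.Finite := by
      refine Set.Finite.subset (nthRootsFinset m (1 : Zbar)).finite_toSet ?_
      intro z hz
      exact (mem_nthRootsFinset hm 1).mpr hz
    exact (Set.finite_singleton (0 : Zbar)).union h1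
  have hpi : {f : Fin 8 → Zbar | ∀ i, f i ∈ {z : Zbar | z = 0 ∨ z ^ m = 1}}.Finite :=
    Set.Finite.pi' (fun _ => hS)
  refine Set.Finite.subset (hpi.image (fun f => ∑ i, f i)) ?_
  rintro x ⟨f, hf, rfl⟩
  exact ⟨f, fun i => hf i, rfl⟩

theorem testInjective : TestInjective := by
  classical
  intro m hm
  have hfin := finite_testSet m hm
  choose! L hL using killLemma
  refine ⟨hfin.toFinset.sup L, ?_⟩
  intro ℓ hℓ hlt κ _ _ φ x hx hφ
  by_contra hx0
  have h1 : L x ≤ hfin.toFinset.sup L := Finset.le_sup (f := L) (hfin.mem_toFinset.mpr hx)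
  exact hL x hx0 ℓ hℓ (lt_of_le_of_lt h1 hlt) κ φ hφ

theorem existsReduction : ExistsReduction := by
  intro ℓ hℓ
  have hnu : ¬ IsUnit ((ℓ : ℕ) : Zbar) := by
    intro hu
    obtain ⟨y, hy⟩ := hu.exists_right_inv
    have hy' : ((ℓ : ℕ) : ℂ) * (y : ℂ) = 1 := by
      have := congrArg (fun z : Zbar => (z : ℂ)) hy
      simpa using this
    have hℓ0 : ((ℓ : ℕ) : ℂ) ≠ 0 := Nat.cast_ne_zero.mpr hℓ.ne_zero
    have hyq : (y : ℂ) = algebraMap ℚ ℂ ((ℓ : ℚ)⁻¹) := by
      rw [map_inv₀, map_natCast]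
      exact eq_inv_of_mul_eq_one_right hy'
    have hyint : IsIntegral ℤ ((ℓ : ℚ)⁻¹) := by
      have h1 : IsIntegral ℤ (algebraMap ℚ ℂ ((ℓ : ℚ)⁻¹)) := hyq ▸ y.2
      exact (isIntegral_algebraMap_iff (algebraMap ℚ ℂ).injective).mp h1
    obtain ⟨n, hn⟩ := IsIntegrallyClosed.isIntegral_iff.mp hyint
    have hℓq : (ℓ : ℚ) ≠ 0 := Nat.cast_ne_zero.mpr hℓ.ne_zero
    have h2 : ((ℓ : ℤ) * n : ℚ) = 1 := by
      have : (n : ℚ) = (ℓ : ℚ)⁻¹ := by simpa using hn
      rw [this]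
      simp [hℓq]
    have h3 : (ℓ : ℤ) * n = 1 := by exact_mod_cast h2
    have h4 : IsUnit (ℓ : ℤ) := IsUnit.of_mul_eq_one _ h3
    have h5 := Int.isUnit_iff.mp h4
    have := hℓ.two_le
    omega
  obtain ⟨I, hI, hmem⟩ := exists_max_ideal_of_mem_nonunits hnu
  let _ := Ideal.Quotient.field I
  refine ⟨Zbar ⧸ I, inferInstance, Fermat.Agent.S29.Residue.isAlgClosed_quot I, ?_,
    ⟨Ideal.Quotient.mk I⟩⟩
  have h0 : ((ℓ : ℕ) : Zbar ⧸ I) = 0 := by
    have := Ideal.Quotient.eq_zero_iff_mem.mpr hmem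
    simpa using this
  exact (CharP.charP_iff_prime_eq_zero hℓ).mpr h0

/-! ## `DensLe` -/

theorem densLe : DensLe := by
  classical
  intro X X' T η η' hU hL hsub
  obtain ⟨C, hC⟩ := hU
  obtain ⟨C', hC'⟩ := hL
  by_contra hlt
  rw [not_le] at hlt
  have key : ∀ s : ℝ, 1 < s → s ≤ 2 →
      (η' - η) * Real.log (1 / (s - 1)) ≤ C + C' + T.card := by
    intro s hs1 hs2
    obtain ⟨P, hP, hPs⟩ := hC' s hs1 hs2
    have h1 := hC s hs1 hs2 (P.filter (· ∈ X)) (by
      intro p hp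
      rw [Finset.mem_filter] at hp
      exact ⟨(hP p hp.1).1, hp.2⟩)
    have h2 : ∑ p ∈ P.filter (· ∉ X), (p : ℝ) ^ (-s) ≤ T.card := by
      calc ∑ p ∈ P.filter (· ∉ X), (p : ℝ) ^ (-s) ≤ ∑ p ∈ P.filter (· ∉ X), (1 : ℝ) := by
            apply Finset.sum_le_sum
            intro p hp
            rw [Finset.mem_filter] at hp
            have hp1 : (1 : ℝ) ≤ p := by exact_mod_cast (hP p hp.1).1.one_le
            exact Real.rpow_le_one_of_one_le_of_nonpos hp1 (by linarith)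
        _ = ((P.filter (· ∉ X)).card : ℝ) := by simp
        _ ≤ T.card := by
            exact_mod_cast Finset.card_le_card (fun p hp => by
              rw [Finset.mem_filter] at hp
              exact ((hsub p (hP p hp.1).2).resolve_left hp.2))
    have h3 := Finset.sum_filter_add_sum_filter_not P (· ∈ X) (fun p => (p : ℝ) ^ (-s))
    linarith
  set M : ℝ := (C + C' + T.card) / (η' - η) with hM
  have hpos : 0 < η' - η := sub_pos.mpr hlt
  have h5 := key (1 + Real.exp (-(|M| + 1))) (by linarith [Real.exp_pos (-(|M| + 1))]) (by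
    have : Real.exp (-(|M| + 1)) ≤ 1 := Real.exp_le_one_iff.mpr (by linarith [abs_nonneg M])
    linarith)
  have hlog : Real.log (1 / (1 + Real.exp (-(|M| + 1)) - 1)) = |M| + 1 := by
    rw [add_sub_cancel_left, one_div, ← Real.exp_neg, neg_neg, Real.log_exp]
  rw [hlog] at h5
  have h4 : C + C' + T.card = M * (η' - η) := by
    rw [hM]
    field_simp
  rw [h4] at h5
  nlinarith [le_abs_self M]

/-! ## `FrobConj` -/

section Conj

variable {K L : Type*} [Field K] [Field L] [Algebra K L]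

theorem mem_nonunits_smul_iff (g : L ≃ₐ[K] L) (A : ValuationSubring L) (x : L) :
    x ∈ (g • A).nonunits ↔ g⁻¹ x ∈ A.nonunits := by
  rw [ValuationSubring.mem_nonunits_iff_or, ValuationSubring.mem_nonunits_iff_or,
    ValuationSubring.mem_pointwise_smul_iff_inv_smul_mem]
  have h1 : g⁻¹ x = 0 ↔ x = 0 := map_eq_zero_iff _ (g⁻¹).injective
  have h2 : g⁻¹ • x⁻¹ = (g⁻¹ x)⁻¹ := map_inv₀ (g⁻¹) x
  rw [h1, h2]

theorem isFrobeniusAt_iff (A : ValuationSubring L) (σ : L ≃ₐ[K] L) (q : ℕ) :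
    A.IsFrobeniusAt σ q ↔
      σ ∈ A.decompositionSubgroup K ∧ ∀ x ∈ A, σ x - x ^ q ∈ A.nonunits := by
  constructor
  · rintro ⟨hdec, hφ⟩
    refine ⟨hdec, fun x hx => ?_⟩
    have h1 := hφ (IsLocalRing.residue A ⟨x, hx⟩)
    rw [← IsLocalRing.ResidueField.residue_smul, ← map_pow, ← sub_eq_zero, ← map_sub,
      IsLocalRing.residue_eq_zero_iff, A.valuation_lt_one_iff] at h1
    rw [A.mem_nonunits_iff]
    exact h1
  · rintro ⟨hdec, h⟩
    refine ⟨hdec, fun x => ?_⟩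
    obtain ⟨⟨y, hy⟩, rfl⟩ := IsLocalRing.residue_surjective x
    rw [← IsLocalRing.ResidueField.residue_smul, ← map_pow, ← sub_eq_zero, ← map_sub,
      IsLocalRing.residue_eq_zero_iff, A.valuation_lt_one_iff]
    have := h y hy
    rw [A.mem_nonunits_iff] at this
    exact this

theorem mem_inertiaSubgroupIn_iff (A : ValuationSubring L) (σ : L ≃ₐ[K] L) :
    σ ∈ A.inertiaSubgroupIn K ↔
      σ ∈ A.decompositionSubgroup K ∧ ∀ x ∈ A, σ x - x ∈ A.nonunits := by
  constructor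
  · rintro ⟨⟨τ', hdec⟩, hτ, rfl⟩
    refine ⟨hdec, fun x hx => ?_⟩
    have h0 : MulSemiringAction.toRingAut (A.decompositionSubgroup K)
        (IsLocalRing.ResidueField A) ⟨τ', hdec⟩ = 1 := hτ
    have h1 : (⟨τ', hdec⟩ : A.decompositionSubgroup K) • IsLocalRing.residue A ⟨x, hx⟩
        = IsLocalRing.residue A ⟨x, hx⟩ := by
      have := congrArg (fun f => f (IsLocalRing.residue A ⟨x, hx⟩)) h0
      exact this
    rw [← IsLocalRing.ResidueField.residue_smul, ← sub_eq_zero, ← map_sub,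
      IsLocalRing.residue_eq_zero_iff, A.valuation_lt_one_iff] at h1
    rw [A.mem_nonunits_iff]
    exact h1
  · rintro ⟨hdec, h⟩
    refine ⟨⟨σ, hdec⟩, ?_, rfl⟩
    change MulSemiringAction.toRingAut (A.decompositionSubgroup K)
        (IsLocalRing.ResidueField A) ⟨σ, hdec⟩ = 1
    ext x
    change (⟨σ, hdec⟩ : A.decompositionSubgroup K) • x = x
    obtain ⟨⟨y, hy⟩, rfl⟩ := IsLocalRing.residue_surjective x
    rw [← IsLocalRing.ResidueField.residue_smul, ← sub_eq_zero, ← map_sub,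
      IsLocalRing.residue_eq_zero_iff, A.valuation_lt_one_iff]
    have := h y hy
    rw [A.mem_nonunits_iff] at this
    exact this

theorem conj_mem_decompositionSubgroup (A : ValuationSubring L) (σ τ : L ≃ₐ[K] L)
    (h : σ ∈ A.decompositionSubgroup K) :
    τ * σ * τ⁻¹ ∈ (τ • A).decompositionSubgroup K := by
  change (τ * σ * τ⁻¹) • (τ • A) = τ • A
  rw [smul_smul, inv_mul_cancel_right, mul_smul, show σ • A = A from h]

theorem liesOverPrime_smul (A : ValuationSubring L) (τ : L ≃ₐ[K] L) (p : ℕ)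
    (h : A.LiesOverPrime p) : (τ • A).LiesOverPrime p := by
  change (p : L) ∈ (τ • A).nonunits
  rw [mem_nonunits_smul_iff, map_natCast]
  exact h

theorem isFrobeniusAt_conj (A : ValuationSubring L) (σ τ : L ≃ₐ[K] L) (q : ℕ)
    (h : A.IsFrobeniusAt σ q) : (τ • A).IsFrobeniusAt (τ * σ * τ⁻¹) q := by
  rw [isFrobeniusAt_iff] at h ⊢
  refine ⟨conj_mem_decompositionSubgroup A σ τ h.1, fun x hx => ?_⟩
  rw [ValuationSubring.mem_pointwise_smul_iff_inv_smul_mem] at hx
  rw [mem_nonunits_smul_iff, map_sub, map_pow]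
  have h1 := h.2 _ hx
  have h2 : τ⁻¹ ((τ * σ * τ⁻¹) x) = σ (τ⁻¹ • x) := by
    change τ⁻¹ (τ (σ (τ⁻¹ x))) = σ (τ⁻¹ x)
    exact τ.symm_apply_apply _
  rw [h2]
  exact h1

theorem mem_inertiaSubgroupIn_conj (A : ValuationSubring L) (σ τ : L ≃ₐ[K] L)
    (h : σ ∈ A.inertiaSubgroupIn K) : τ * σ * τ⁻¹ ∈ (τ • A).inertiaSubgroupIn K := by
  rw [mem_inertiaSubgroupIn_iff] at h ⊢
  refine ⟨conj_mem_decompositionSubgroup A σ τ h.1, fun x hx => ?_⟩
  rw [ValuationSubring.mem_pointwise_smul_iff_inv_smul_mem] at hx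
  rw [mem_nonunits_smul_iff, map_sub]
  have h1 := h.2 _ hx
  have h2 : τ⁻¹ ((τ * σ * τ⁻¹) x) = σ (τ⁻¹ • x) := by
    change τ⁻¹ (τ (σ (τ⁻¹ x))) = σ (τ⁻¹ x)
    exact τ.symm_apply_apply _
  rw [h2]
  exact h1

end Conj

theorem frobConj : FrobConj := by
  intro p σ τ
  constructor
  · rintro ⟨A, hA, hσ⟩
    exact ⟨τ • A, liesOverPrime_smul A τ p hA, isFrobeniusAt_conj A σ τ p hσ⟩
  · rintro ⟨A, hA, hσ⟩
    exact ⟨τ • A, liesOverPrime_smul A τ p hA, mem_inertiaSubgroupIn_conj A σ τ hσ⟩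

end Fermat.Agent.S48
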