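/-
S48 (Deligne-Serre).  Assembly: the nodes of `GalNodes.lean` imply the node `GaloisHalf`.
-/
import Fermat.Agent.S48.GalNodes

set_option autoImplicit false

namespace Fermat.Agent.S48

open Polynomial
open scoped MatrixGroups

/-- In a finite group of order at most `B` every
element is killed by `B.factorial`. -/
theorem pow_factorial_eq_one_of_card_range_le {Γ M : Type*} [Group Γ] [Group M] (r : Γ →* M)
    [Finite r.range] {B : ℕ} (hB : Nat.card r.range ≤ B) (g : Γ) : r g ^ B.factorial = 1 := by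
  have h1 : orderOf (⟨r g, g, rfl⟩ : r.range) ∣ Nat.card r.range := orderOf_dvd_natCard _
  have h2 : Nat.card r.range ∣ B.factorial := Nat.dvd_factorial Nat.card_pos hB
  have h3 : (⟨r g, g, rfl⟩ : r.range) ^ B.factorial = 1 := orderOf_dvd_iff_pow_eq_one.mp (h1.trans h2)
  simpa using congrArg Subtype.val h3

theorem not_dvd_mul_of_ne {p N ℓ : ℕ} (hp : p.Prime) (hℓ : ℓ.Prime) (hN : ¬ p ∣ N)
    (hne : p ≠ ℓ) : ¬ p ∣ N * ℓ := by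
  intro h
  rcases hp.dvd_mul.mp h with h | h
  · exact hN h
  · exact hne ((Nat.prime_dvd_prime_iff_eq hp hℓ).mp h)

theorem galoisHalf_of_nodes (h0 : FiniteRange) (h1 : ExistsDetData) (h2 : ExistsReduction)
    (h3 : TestInjective) (h4 : ResidualRep) (h5 : ImageBound) (h6 : RootsOfUnityNode)
    (h7 : LiftNode) (h8 : TraceDetermined) (h9 : IrredNode) : GaloisHalf := by
  classical
  intro N _ ε a H
  have hN0 : N ≠ 0 := NeZero.ne N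
  obtain ⟨d, c, D⟩ := h1 N ε H.odd
  -- the integral version of the eigenvalues
  let aZ : ℕ → Zbar := fun p =>
    if h : p.Prime ∧ ¬ p ∣ N then ⟨a p, H.integral p h.1 h.2⟩ else 0
  have haZ : ∀ p : ℕ, p.Prime → ¬ p ∣ N → ((aZ p : Zbar) : ℂ) = a p := by
    intro p hp hpN
    simp only [aZ]
    rw [dif_pos ⟨hp, hpN⟩]
  obtain ⟨Y, X, hX, hY⟩ := H.fin (1 / 8) (by norm_num)
  obtain ⟨B, hB⟩ := h5 N aZ d (Y.subtype (· ∈ Zbar)) X hX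
    (fun p hp hpN hpX => by
      rw [Finset.mem_subtype, haZ p hp hpN]
      exact hY p hp hpN hpX) D.tors
  obtain ⟨ℓ₀, hres⟩ := H.res
  set m : ℕ := 2 * B.factorial * N.totient with hm
  have hm0 : 0 < m := by
    have := Nat.totient_pos.mpr (Nat.pos_of_ne_zero hN0)
    have := Nat.factorial_pos B
    positivity
  have h2m : 2 ∣ m := ⟨B.factorial * N.totient, by rw [hm, mul_assoc]⟩
  have hdm : ∀ σ, d σ ^ m = 1 := by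
    intro σ
    rw [hm, mul_comm, pow_mul, D.tors, one_pow]
  -- the residual representations
  have key : ∀ ℓ : ℕ, ℓ.Prime → ℓ₀ < ℓ → B < ℓ →
      ∀ (κ : Type) [Field κ] [IsAlgClosed κ] [CharP κ ℓ] (φ : Zbar →+* κ),
      ∃ ρ' : GQ →* GL (Fin 2) κ, IsResidual N aZ d ℓ φ ρ' ∧ ∀ σ, ρ' σ ^ m = 1 := by
    intro ℓ hℓ hℓ₀ hℓB κ _ _ _ φ
    obtain ⟨W, _, _, _, _, r, hr1, hr2, hr3⟩ := hres ℓ hℓ hℓ₀ κ φ
    obtain ⟨ρ', hρ'⟩ := h4 N aZ d D.lvl D.inert ℓ κ φ W r hℓ hr1 hr2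
      (fun p hp hpN σ hσ => by
        have hpN' : ¬ p ∣ N := fun h => hpN (h.mul_right _)
        obtain ⟨x, e, hx, he, hrel⟩ := hr3 p hp hpN σ hσ
        have hx' : x = aZ p := Subtype.ext (hx.trans (haZ p hp hpN').symm)
        have he' : e = ((d σ : Zbarˣ) : Zbar) :=
          Subtype.ext (he.trans (D.frob p hp hpN' σ hσ).symm)
        rw [← hx', ← he']
        exact hrel)
    refine ⟨ρ', hρ', fun σ => ?_⟩
    have : Finite ρ'.range := h0 _ ρ' hρ'.lvl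
    have hc := hB ℓ κ φ ρ' hℓ hℓB hρ'
    have := pow_factorial_eq_one_of_card_range_le ρ' hc σ
    rw [hm, mul_comm 2, mul_assoc, pow_mul, this, one_pow]
  -- the eigenvalues are sums of two roots of unity
  have hRU : ∀ p : ℕ, p.Prime → ¬ p ∣ N → ∃ α β : Zbar, α ^ m = 1 ∧ β ^ m = 1 ∧ aZ p = α + β := by
    refine h6 N aZ d m (max ℓ₀ B) hm0 (fun ℓ hℓ hlt => ?_)
    obtain ⟨κ, i1, i2, i3, ⟨φ⟩⟩ := h2 ℓ hℓ
    obtain ⟨ρ', h, h'⟩ := key ℓ hℓ (lt_of_le_of_lt (le_max_left _ _) hlt)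
      (lt_of_le_of_lt (le_max_right _ _) hlt) κ φ
    exact ⟨κ, i1, i2, i3, φ, ρ', h, h'⟩
  obtain ⟨L, hL⟩ := h3 m hm0
  -- lifting at a large prime
  have lift : ∀ ℓ : ℕ, ℓ.Prime → ℓ₀ < ℓ → B < ℓ → L < ℓ →
      ∃ ρ : GQ →* GL (Fin 2) ℂ, GaloisFactorsThroughFiniteLevel ρ ∧
        (∀ σ, dtG ρ σ = (((d σ : Zbarˣ) : Zbar) : ℂ)) ∧
        (∀ p : ℕ, p.Prime → ¬ p ∣ N * ℓ → ∀ σ, IsInert σ p → ρ σ = 1) ∧
        (∀ p : ℕ, p.Prime → ¬ p ∣ N * ℓ → ∀ σ, IsFrob σ p → trG ρ σ = (aZ p : ℂ)) ∧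
        (∀ τ, (∀ g, trG ρ (g * τ) = trG ρ g) → ρ τ = 1) := by
    intro ℓ hℓ hℓ₀ hℓB hℓL
    obtain ⟨κ, i1, i2, i3, ⟨φ⟩⟩ := h2 ℓ hℓ
    obtain ⟨ρ', h, h'⟩ := key ℓ hℓ hℓ₀ hℓB κ φ
    exact h7 N aZ d c m ℓ hm0 h2m D.cc D.dc hdm hRU κ φ ρ' h h' (hL ℓ hℓ hℓL κ φ)
  -- two distinct large primes
  obtain ⟨ℓ₁, hℓ₁, hp₁⟩ := Nat.exists_infinite_primes (max ℓ₀ (max B L) + 1)
  obtain ⟨ℓ₂, hℓ₂, hp₂⟩ := Nat.exists_infinite_primes (ℓ₁ + 1)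
  have hne : ℓ₁ ≠ ℓ₂ := by omega
  have b1 : ℓ₀ < ℓ₁ ∧ B < ℓ₁ ∧ L < ℓ₁ := by
    have e1 := le_max_left ℓ₀ (max B L)
    have e2 := le_max_right ℓ₀ (max B L)
    have e3 := le_max_left B L
    have e4 := le_max_right B L
    omega
  obtain ⟨ρ₁, lv₁, dt₁, in₁, tr₁, ker₁⟩ := lift ℓ₁ hp₁ b1.1 b1.2.1 b1.2.2
  obtain ⟨ρ₂, lv₂, dt₂, in₂, tr₂, -⟩ := lift ℓ₂ hp₂ (by omega) (by omega) (by omega)
  have htr : ∀ σ, trG ρ₁ σ = trG ρ₂ σ := by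
    refine h8 ρ₁ ρ₂ lv₁ lv₂ (fun σ => (dt₁ σ).trans (dt₂ σ).symm) (N * ℓ₁ * ℓ₂).primeFactors
      (fun p hp hpT σ hσ => ?_)
    have hnd : ¬ p ∣ N * ℓ₁ * ℓ₂ := by
      intro h
      apply hpT
      rw [Nat.mem_primeFactors]
      exact ⟨hp, h, mul_ne_zero (mul_ne_zero hN0 hp₁.ne_zero) hp₂.ne_zero⟩
    have hnd₁ : ¬ p ∣ N * ℓ₁ := fun h => hnd (h.mul_right _)
    have hnd₂ : ¬ p ∣ N * ℓ₂ := fun h => hnd (by
      rw [mul_right_comm]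
      exact h.mul_right _)
    rw [tr₁ p hp hnd₁ σ hσ, tr₂ p hp hnd₂ σ hσ]
  -- traces of Frobenius elements at all primes not dividing `N`
  have hfrob : ∀ p : ℕ, p.Prime → ¬ p ∣ N → ∀ σ, IsFrob σ p → trG ρ₁ σ = a p := by
    intro p hp hpN σ hσ
    by_cases hpl : p = ℓ₁
    · rw [htr, tr₂ p hp (not_dvd_mul_of_ne hp hp₂ hpN (hpl ▸ hne)) σ hσ, haZ p hp hpN]
    · rw [tr₁ p hp (not_dvd_mul_of_ne hp hp₁ hpN hpl) σ hσ, haZ p hp hpN]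
  have hinert : ∀ p : ℕ, p.Prime → ¬ p ∣ N → ∀ σ, IsInert σ p → ρ₁ σ = 1 := by
    intro p hp hpN τ hτ
    by_cases hpl : p = ℓ₁
    · have h2 : ρ₂ τ = 1 := in₂ p hp (not_dvd_mul_of_ne hp hp₂ hpN (hpl ▸ hne)) τ hτ
      apply ker₁
      intro g
      rw [htr, htr]
      simp only [trG, map_mul, h2, mul_one]
    · exact in₁ p hp (not_dvd_mul_of_ne hp hp₁ hpN hpl) τ hτ
  refine ⟨ρ₁, lv₁, h9 N a ρ₁ lv₁ hfrob H.rankin, fun p hp hpN A hA => ⟨?_, ?_⟩⟩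
  · intro σ hσ
    exact hinert p hp hpN σ ⟨A, hA, hσ⟩
  · intro σ hσ
    have hσ' : IsFrob σ p := ⟨A, hA, hσ⟩
    exact ⟨hfrob p hp hpN σ hσ', (dt₁ σ).trans (D.frob p hp hpN σ hσ')⟩

end Fermat.Agent.S48
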