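/-
S48 (Deligne-Serre).  Node IB : the images of the residual representations are bounded.
`imageBound : ChebotarevSym → BoundedImage → DensLe → FiniteRange → ImageBound`.
-/
import Fermat.Agent.S48.GalNodes
import Fermat.Agent.Lib.Frobenius

set_option autoImplicit false

namespace Fermat.Agent.S48

open Polynomial
open scoped MatrixGroups

namespace ImageBoundAux

variable {κ : Type} [Field κ]

/-- The quadratic polynomial with given "trace" and "determinant". -/
noncomputable def quad (t : κ × κ) : κ[X] := X ^ 2 - C t.1 * X + C t.2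

theorem quad_injective : Function.Injective (quad (κ := κ)) := by
  rintro ⟨t, δ⟩ ⟨t', δ'⟩ h
  have h0 := congrArg (fun q => q.coeff 0) h
  have h1 := congrArg (fun q => q.coeff 1) h
  simp [quad, coeff_X_pow] at h0 h1
  rw [h0, h1]

theorem charpoly_eq_quad (g : Matrix (Fin 2) (Fin 2) κ) : g.charpoly = quad (g.trace, g.det) :=
  Matrix.charpoly_fin_two g

theorem det_ne_zero (g : GL (Fin 2) κ) : (g : Matrix (Fin 2) (Fin 2) κ).det ≠ 0 := by
  have := (Matrix.isUnit_iff_isUnit_det _).1 g.isUnit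
  exact this.ne_zero

theorem det_inv (g : GL (Fin 2) κ) :
    ((g⁻¹ : GL (Fin 2) κ) : Matrix (Fin 2) (Fin 2) κ).det =
      ((g : Matrix (Fin 2) (Fin 2) κ).det)⁻¹ := by
  rw [Matrix.coe_units_inv, Matrix.det_nonsing_inv, Ring.inverse_eq_inv']

theorem trace_inv (g : GL (Fin 2) κ) :
    ((g⁻¹ : GL (Fin 2) κ) : Matrix (Fin 2) (Fin 2) κ).trace =
      (g : Matrix (Fin 2) (Fin 2) κ).trace / (g : Matrix (Fin 2) (Fin 2) κ).det := by
  rw [Matrix.coe_units_inv, Matrix.inv_def, Ring.inverse_eq_inv', Matrix.trace_smul,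
    Matrix.adjugate_fin_two, Matrix.trace_fin_two, Matrix.trace_fin_two]
  simp only [Matrix.of_apply, Matrix.cons_val_zero, Matrix.cons_val_one, smul_eq_mul]
  rw [div_eq_inv_mul, add_comm]

/-- The set of admissible pairs (trace, determinant). -/
noncomputable def pairs (φ : Zbar →+* κ) (Y E : Finset Zbar) : Finset (κ × κ) := by
  classical
  exact (Y ×ˢ E).image (fun x => (φ x.1, φ x.2)) ∪
    (Y ×ˢ E).image (fun x => (φ x.1 / φ x.2, (φ x.2)⁻¹))

theorem card_pairs_le (φ : Zbar →+* κ) (Y E : Finset Zbar) :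
    (pairs φ Y E).card ≤ 2 * (Y.card * E.card) := by
  classical
  unfold pairs
  refine (Finset.card_union_le _ _).trans ?_
  have h1 := Finset.card_image_le (s := Y ×ˢ E) (f := fun x : Zbar × Zbar => (φ x.1, φ x.2))
  have h2 := Finset.card_image_le (s := Y ×ˢ E)
    (f := fun x : Zbar × Zbar => (φ x.1 / φ x.2, (φ x.2)⁻¹))
  rw [Finset.card_product] at h1 h2
  omega

theorem mem_pairs_of (φ : Zbar →+* κ) (Y E : Finset Zbar) {y e : Zbar} (hy : y ∈ Y)
    (he : e ∈ E) : (φ y, φ e) ∈ pairs φ Y E := by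
  classical
  unfold pairs
  exact Finset.mem_union_left _ (Finset.mem_image.2 ⟨(y, e), Finset.mk_mem_product hy he, rfl⟩)

/-- The set of pairs is stable under the involution `(t, δ) ↦ (t / δ, δ⁻¹)`. -/
theorem pairs_inv (φ : Zbar →+* κ) (Y E : Finset Zbar) (hE : ∀ e ∈ E, φ e ≠ 0) {t δ : κ}
    (h : (t, δ) ∈ pairs φ Y E) : (t / δ, δ⁻¹) ∈ pairs φ Y E := by
  classical
  unfold pairs at h ⊢
  rcases Finset.mem_union.1 h with h | h
  · obtain ⟨x, hx, hxe⟩ := Finset.mem_image.1 h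
    obtain ⟨rfl, rfl⟩ := Prod.mk.inj hxe
    exact Finset.mem_union_right _ (Finset.mem_image.2 ⟨x, hx, rfl⟩)
  · obtain ⟨x, hx, hxe⟩ := Finset.mem_image.1 h
    obtain ⟨rfl, rfl⟩ := Prod.mk.inj hxe
    refine Finset.mem_union_left _ (Finset.mem_image.2 ⟨x, hx, ?_⟩)
    have h0 : φ x.2 ≠ 0 := hE _ (Finset.mem_product.1 hx).2
    refine Prod.ext ?_ ?_
    · simp only
      field_simp
    · simp only [inv_inv]

end ImageBoundAux

open ImageBoundAux in
theorem imageBound (hCH : ChebotarevSym) (hF : BoundedImage) (hD : DensLe) (hR : FiniteRange) :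
    ImageBound := by
  classical
  intro N _ a d Y X hX hY htors
  have hN0 : N ≠ 0 := NeZero.ne N
  have htot : 0 < N.totient := Nat.totient_pos.2 (Nat.pos_of_ne_zero hN0)
  set E : Finset Zbar := nthRootsFinset N.totient (1 : Zbar) with hEdef
  have hdE : ∀ σ, ((d σ : Zbarˣ) : Zbar) ∈ E := by
    intro σ
    rw [hEdef, mem_nthRootsFinset htot]
    have := congrArg (fun u : Zbarˣ => (u : Zbar)) (htors σ)
    simpa using this
  obtain ⟨B, hB⟩ := hF (2 * (Y.card * E.card))
  refine ⟨B, ?_⟩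
  intro ℓ κ _ _ _ φ ρ hℓ hBℓ hres
  have hE0 : ∀ e ∈ E, φ e ≠ 0 := by
    intro e he h0
    rw [hEdef, mem_nthRootsFinset htot] at he
    have := congrArg φ he
    rw [map_pow, h0, zero_pow htot.ne', map_one] at this
    exact zero_ne_one this
  have : Finite ρ.range := hR _ ρ hres.lvl
  set TT := pairs φ Y E with hTT
  -- the invariants of an element of the image
  let inv : ρ.range → κ × κ := fun g =>
    (((g : GL (Fin 2) κ) : Matrix (Fin 2) (Fin 2) κ).trace,
      ((g : GL (Fin 2) κ) : Matrix (Fin 2) (Fin 2) κ).det)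
  have hmem : ∀ g : ρ.range,
      ((ρ.range.subtype g : GL (Fin 2) κ) : Matrix (Fin 2) (Fin 2) κ).charpoly ∈ TT.image quad ↔
        inv g ∈ TT := by
    intro g
    rw [charpoly_eq_quad]
    exact quad_injective.mem_finset_image
  let Bad : Set ρ.range := {g | inv g ∉ TT}
  have hconj : ∀ g h : ρ.range, g ∈ Bad → h * g * h⁻¹ ∈ Bad := by
    intro g h hg
    have : inv (h * g * h⁻¹) = inv g := by
      refine Prod.ext ?_ ?_
      · change ((((h : GL (Fin 2) κ) * g * (h : GL (Fin 2) κ)⁻¹ : GL (Fin 2) κ)) :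
          Matrix (Fin 2) (Fin 2) κ).trace = _
        rw [Units.val_mul, Units.val_mul, Matrix.trace_mul_comm, ← Matrix.mul_assoc,
          ← Units.val_mul, inv_mul_cancel, Units.val_one, Matrix.one_mul]
      · change ((((h : GL (Fin 2) κ) * g * (h : GL (Fin 2) κ)⁻¹ : GL (Fin 2) κ)) :
          Matrix (Fin 2) (Fin 2) κ).det = _
        rw [Units.val_mul, Units.val_mul, Matrix.det_mul, Matrix.det_mul, det_inv]
        have h0 := det_ne_zero (h : GL (Fin 2) κ)
        rw [mul_comm, ← mul_assoc, inv_mul_cancel₀ h0, one_mul]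
    change inv (h * g * h⁻¹) ∉ TT
    rw [this]
    exact hg
  have hinv : ∀ g ∈ Bad, g⁻¹ ∈ Bad := by
    intro g hg hg'
    apply hg
    have h1 : inv g⁻¹ = ((inv g).1 / (inv g).2, ((inv g).2)⁻¹) :=
      Prod.ext (trace_inv (g : GL (Fin 2) κ)) (det_inv (g : GL (Fin 2) κ))
    have h2 := pairs_inv φ Y E hE0 (t := (inv g⁻¹).1) (δ := (inv g⁻¹).2) hg'
    rw [h1] at h2
    have h0 : (inv g).2 ≠ 0 := det_ne_zero (g : GL (Fin 2) κ)
    have h3 : ((inv g).1 / (inv g).2 / ((inv g).2)⁻¹, (((inv g).2)⁻¹)⁻¹) = inv g := by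
      refine Prod.ext ?_ ?_
      · simp only
        field_simp
      · simp only [inv_inv]
    rw [← h3]
    exact h2
  -- Chebotarev
  have hsurj : Function.Surjective ρ.rangeRestrict := ρ.rangeRestrict_surjective
  have hlvl : GaloisFactorsThroughFiniteLevel ρ.rangeRestrict := by
    obtain ⟨L, hL, h⟩ := hres.lvl
    exact ⟨L, hL, fun σ hσ => Subtype.ext (h σ hσ)⟩
  have hXp : UpperDens {p | p.Prime → p ∈ X} (1 / 8) := by
    obtain ⟨C, hC⟩ := hX
    exact ⟨C, fun s hs hs2 P hP => hC s hs hs2 P fun p hp => ⟨(hP p hp).1, (hP p hp).2 (hP p hp).1⟩⟩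
  have hNℓ : N * ℓ ≠ 0 := Nat.mul_ne_zero hN0 hℓ.ne_zero
  have hsub : ∀ p ∈ {p : ℕ | ∀ σ : GQ, IsFrob σ p → ρ.rangeRestrict σ ∈ Bad},
      p ∈ {p : ℕ | p.Prime → p ∈ X} ∨ p ∈ (N * ℓ).divisors := by
    intro p hp
    by_cases hdiv : p ∣ N * ℓ
    · exact Or.inr (Nat.mem_divisors.2 ⟨hdiv, hNℓ⟩)
    · refine Or.inl fun hpp => ?_
      by_contra hpX
      obtain ⟨A, σ, hA, hσ⟩ := Fermat.Agent.Lib.Frobenius.exists_liesOverPrime_isFrobeniusAt p hpp
      have hfr : IsFrob σ p := ⟨A, hA, hσ⟩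
      have hpN : ¬ p ∣ N := fun h => hdiv (Dvd.dvd.mul_right h ℓ)
      refine hp σ hfr ?_
      have : inv (ρ.rangeRestrict σ) = (φ (a p), φ ((d σ : Zbarˣ) : Zbar)) :=
        Prod.ext (hres.tr p hpp hdiv σ hfr) (hres.det σ)
      rw [this]
      exact mem_pairs_of φ Y E (hY p hpp hpN hpX) (hdE σ)
  have hcardpos : (0 : ℝ) < Nat.card ρ.range := by
    exact_mod_cast Nat.card_pos
  have hbad : (Nat.card Bad : ℝ) / Nat.card ρ.range ≤ 1 / 8 := by
    refine le_of_forall_pos_le_add fun δ hδ => ?_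
    have := hD _ _ (N * ℓ).divisors (1 / 8) _ hXp
      (hCH ρ.range ρ.rangeRestrict hsurj hlvl Bad hconj hinv δ hδ) hsub
    linarith
  have hsum : Nat.card {g : ρ.range // inv g ∈ TT} + Nat.card Bad = Nat.card ρ.range := by
    rw [← Nat.card_sum]
    exact Nat.card_congr (Equiv.sumCompl fun g : ρ.range => inv g ∈ TT)
  refine hB ℓ κ ρ.range ρ.range.subtype hℓ hBℓ (Subgroup.subtype_injective _) ?_ ?_
  · -- semisimplicity
    intro v hv hstab
    obtain ⟨w, hw, hw'⟩ := hres.ss v hv fun σ => hstab ⟨ρ σ, σ, rfl⟩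
    refine ⟨w, hw, ?_⟩
    rintro ⟨_, σ, rfl⟩
    exact hw' σ
  · refine ⟨TT.image quad, Finset.card_image_le.trans (card_pairs_le φ Y E), ?_⟩
    have hcongr : Nat.card {g : ρ.range //
        ((ρ.range.subtype g : GL (Fin 2) κ) : Matrix (Fin 2) (Fin 2) κ).charpoly ∈ TT.image quad} =
        Nat.card {g : ρ.range // inv g ∈ TT} :=
      Nat.card_congr (Equiv.subtypeEquivRight hmem)
    rw [hcongr]
    have hsum' : (Nat.card {g : ρ.range // inv g ∈ TT} : ℝ) + Nat.card Bad = Nat.card ρ.range := by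
      exact_mod_cast hsum
    rw [div_le_iff₀ hcardpos] at hbad
    linarith

end Fermat.Agent.S48
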