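/-
S48 (Deligne-Serre).  Node IRR: irreducibility from the Rankin bound (task S48-G9; helper61).
-/
import Fermat.Agent.S48.GalNodes

set_option autoImplicit false

namespace Fermat.Agent.S48

open scoped MatrixGroups ComplexConjugate

namespace IrredAux

/-- values of characters of a finite group have absolute value one -/
theorem norm_char_eq_one {G : Type} [Group G] [Fintype G] (ψ : G →* ℂˣ) (g : G) :
    ‖(ψ g : ℂ)‖ = 1 := by
  apply Complex.norm_eq_one_of_pow_eq_one (n := Fintype.card G) _ Fintype.card_ne_zero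
  rw [← Units.val_pow_eq_pow_val, ← map_pow, pow_card_eq_one, map_one, Units.val_one]

/-- the mean of `|ψ₁ + ψ₂|²` over a finite group is at least `2` -/
theorem two_mul_card_le_sum {G : Type} [Group G] [Fintype G] (ψ₁ ψ₂ : G →* ℂˣ) :
    2 * (Fintype.card G : ℝ) ≤ ∑ g, ‖(ψ₁ g : ℂ) + (ψ₂ g : ℂ)‖ ^ 2 := by
  classical
  let θ : G →* ℂ := (Units.coeHom ℂ).comp (ψ₁ * ψ₂⁻¹)
  have hθ : ∀ g, ‖(ψ₁ g : ℂ) + (ψ₂ g : ℂ)‖ ^ 2 = 2 + 2 * (θ g).re := by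
    intro g
    have h1 := norm_char_eq_one ψ₁ g
    have h2 := norm_char_eq_one ψ₂ g
    have h3 : θ g = (ψ₁ g : ℂ) * conj (ψ₂ g : ℂ) := by
      rw [← Complex.inv_eq_conj h2]
      simp [θ]
    rw [← Complex.normSq_eq_norm_sq, Complex.normSq_add, Complex.normSq_eq_norm_sq,
      Complex.normSq_eq_norm_sq, h1, h2, h3]
    ring
  have hsum : 0 ≤ (∑ g, θ g).re := by
    rw [sum_hom_units θ]
    split_ifs <;> simp
  simp_rw [hθ]
  rw [Finset.sum_add_distrib, ← Finset.mul_sum, ← Complex.re_sum]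
  simp only [Finset.sum_const, Finset.card_univ, nsmul_eq_mul]
  linarith

/-- `y ≤ (5/4) log (1 + y)` for `0 ≤ y ≤ 1/2`. -/
theorem le_log_of_le_half {y : ℝ} (h0 : 0 ≤ y) (h1 : y ≤ 1 / 2) :
    y ≤ 5 / 4 * Real.log (1 + y) := by
  have h := Real.le_log_one_add_of_nonneg h0
  have h2 : 4 / 5 * y ≤ 2 * y / (y + 2) := by
    rw [le_div_iff₀ (by linarith)]
    nlinarith
  linarith

theorem rpow_neg_le_eighth {p : ℕ} (hp : 8 ≤ p) {s : ℝ} (hs : 1 < s) :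
    (p : ℝ) ^ (-s) ≤ 1 / 8 := by
  have hp8 : (8 : ℝ) ≤ p := by exact_mod_cast hp
  have h1 : (p : ℝ) ^ (-s) ≤ (p : ℝ) ^ (-1 : ℝ) :=
    Real.rpow_le_rpow_of_exponent_le (by linarith) (by linarith)
  rw [Real.rpow_neg_one] at h1
  have h2 : (p : ℝ)⁻¹ ≤ 8⁻¹ := inv_anti₀ (by norm_num) hp8
  linarith

end IrredAux

open IrredAux

theorem irredNode (hW : ChebotarevWeighted) (hS : ReducibleSplit) (hR : FiniteRange) :
    IrredNode := by
  classical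
  intro N _ a ρ hlvl htr hRankin
  by_contra hirr
  obtain ⟨χ₁, χ₂, hχ, hker⟩ := hS GQ ρ hirr
  have hfin : Finite ρ.range := hR _ ρ hlvl
  let _ : Fintype ρ.range := Fintype.ofFinite _
  have hsurj : Function.Surjective ρ.rangeRestrict := ρ.rangeRestrict_surjective
  have hrl : GaloisFactorsThroughFiniteLevel ρ.rangeRestrict := by
    obtain ⟨L, hL, h⟩ := hlvl
    exact ⟨L, hL, fun σ hσ => Subtype.ext (h σ hσ)⟩
  have hone : ∀ σ, ρ.rangeRestrict σ = 1 → ρ σ = 1 := fun σ h => congrArg Subtype.val h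
  have hk₁ : ρ.rangeRestrict.ker ≤ χ₁.ker := fun σ hσ => (hker σ (hone σ hσ)).1
  have hk₂ : ρ.rangeRestrict.ker ≤ χ₂.ker := fun σ hσ => (hker σ (hone σ hσ)).2
  let ψ₁ : ρ.range →* ℂˣ := ρ.rangeRestrict.liftOfSurjective hsurj ⟨χ₁, hk₁⟩
  let ψ₂ : ρ.range →* ℂˣ := ρ.rangeRestrict.liftOfSurjective hsurj ⟨χ₂, hk₂⟩
  have hψ₁ : ∀ σ, ψ₁ (ρ.rangeRestrict σ) = χ₁ σ := fun σ =>
    MonoidHom.liftOfRightInverse_comp_apply _ _ _ ⟨χ₁, hk₁⟩ σ
  have hψ₂ : ∀ σ, ψ₂ (ρ.rangeRestrict σ) = χ₂ σ := fun σ =>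
    MonoidHom.liftOfRightInverse_comp_apply _ _ _ ⟨χ₂, hk₂⟩ σ
  -- the trace on the image
  have htrace : ∀ g : ρ.range, ((g : GL (Fin 2) ℂ) : Matrix (Fin 2) (Fin 2) ℂ).trace =
      (ψ₁ g : ℂ) + (ψ₂ g : ℂ) := by
    intro g
    obtain ⟨σ, rfl⟩ := hsurj g
    rw [hψ₁, hψ₂]
    exact hχ σ
  let w : ρ.range → ℝ := fun g => ‖((g : GL (Fin 2) ℂ) : Matrix (Fin 2) (Fin 2) ℂ).trace‖ ^ 2
  have hw0 : ∀ g, 0 ≤ w g := fun g => sq_nonneg _
  have hwconj : ∀ g h : ρ.range, w (h * g * h⁻¹) = w g := by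
    intro g h
    show ‖(((h * g * h⁻¹ : ρ.range) : GL (Fin 2) ℂ) : Matrix (Fin 2) (Fin 2) ℂ).trace‖ ^ 2 = _
    have : (((h * g * h⁻¹ : ρ.range) : GL (Fin 2) ℂ) : Matrix (Fin 2) (Fin 2) ℂ) =
        ((h : GL (Fin 2) ℂ) : Matrix (Fin 2) (Fin 2) ℂ) *
          ((g : GL (Fin 2) ℂ) : Matrix (Fin 2) (Fin 2) ℂ) *
          (((h : GL (Fin 2) ℂ)⁻¹ : GL (Fin 2) ℂ) : Matrix (Fin 2) (Fin 2) ℂ) := rfl
    rw [this, Matrix.trace_units_conj]
  have hwinv : ∀ g : ρ.range, w g⁻¹ = w g := by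
    intro g
    show ‖_‖ ^ 2 = ‖_‖ ^ 2
    rw [htrace, htrace, map_inv, map_inv, Units.val_inv_eq_inv_val, Units.val_inv_eq_inv_val,
      Complex.inv_eq_conj (norm_char_eq_one ψ₁ g), Complex.inv_eq_conj (norm_char_eq_one ψ₂ g),
      ← map_add, Complex.norm_conj]
  have hwle : ∀ g, w g ≤ 4 := by
    intro g
    show ‖_‖ ^ 2 ≤ 4
    rw [htrace]
    have h1 := norm_add_le (ψ₁ g : ℂ) (ψ₂ g : ℂ)
    rw [norm_char_eq_one ψ₁ g, norm_char_eq_one ψ₂ g] at h1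
    have h0 := norm_nonneg ((ψ₁ g : ℂ) + (ψ₂ g : ℂ))
    nlinarith
  have hmean : 2 ≤ (∑ g, w g) / Fintype.card ρ.range := by
    have hc : (0 : ℝ) < Fintype.card ρ.range := by exact_mod_cast Fintype.card_pos
    rw [le_div_iff₀ hc]
    have := two_mul_card_le_sum ψ₁ ψ₂
    have h2 : ∑ g, w g = ∑ g, ‖(ψ₁ g : ℂ) + (ψ₂ g : ℂ)‖ ^ 2 :=
      Finset.sum_congr rfl fun g _ => by show ‖_‖ ^ 2 = _; rw [htrace]
    rw [h2]
    exact this
  -- the weights at the primes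
  let u : ℕ → ℝ := fun p => if ∃ σ, IsFrob σ p then ‖a p‖ ^ 2 else 0
  let T : Finset ℕ := N.primeFactors ∪ Finset.range 8
  have hT : ∀ p : ℕ, p.Prime → p ∉ T → ¬ p ∣ N ∧ 8 ≤ p := by
    intro p hp hpT
    rw [Finset.mem_union, not_or, Nat.mem_primeFactors, Finset.mem_range] at hpT
    exact ⟨fun h => hpT.1 ⟨hp, h, NeZero.ne N⟩, by omega⟩
  have hu : ∀ p : ℕ, p.Prime → p ∉ T → ∀ σ, IsFrob σ p → u p = w (ρ.rangeRestrict σ) := by
    intro p hp hpT σ hσ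
    show (if ∃ σ, IsFrob σ p then ‖a p‖ ^ 2 else 0) = _
    rw [if_pos ⟨σ, hσ⟩, ← htr p hp (hT p hp hpT).1 σ hσ]
    rfl
  obtain ⟨C₁, hC₁⟩ := hW ρ.range ρ.rangeRestrict hsurj hrl w hw0 hwconj hwinv u T hu (1 / 2)
    (by norm_num)
  obtain ⟨C₂, hC₂⟩ := hRankin
  -- choose `s`
  set M : ℝ := max 0 (4 * (C₁ + 5 / 4 * C₂) + 1) with hM
  have hM0 : 0 ≤ M := le_max_left _ _
  have hM1 : 4 * (C₁ + 5 / 4 * C₂) + 1 ≤ M := le_max_right _ _
  set s : ℝ := 1 + Real.exp (-M) with hs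
  have hs1 : 1 < s := by
    have := Real.exp_pos (-M)
    linarith
  have hs2 : s ≤ 2 := by
    have : Real.exp (-M) ≤ 1 := Real.exp_le_one_iff.mpr (by linarith)
    linarith
  have hlog : Real.log (1 / (s - 1)) = M := by
    rw [hs, add_sub_cancel_left, one_div, ← Real.exp_neg, neg_neg, Real.log_exp]
  obtain ⟨P, hP, hlow⟩ := hC₁ s hs1 hs2
  rw [hlog] at hlow
  have hup := hC₂ s hs1 hs2 (P.filter fun p => ∃ σ, IsFrob σ p) (by
    intro p hp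
    rw [Finset.mem_filter] at hp
    exact ⟨(hP p hp.1).1, (hT p (hP p hp.1).1 (hP p hp.1).2).1⟩)
  rw [hlog] at hup
  have hsum : ∑ p ∈ P, u p * (p : ℝ) ^ (-s) ≤
      5 / 4 * ∑ p ∈ P.filter (fun p => ∃ σ, IsFrob σ p),
        Real.log (1 + ‖a p‖ ^ 2 * (p : ℝ) ^ (-s)) := by
    rw [Finset.mul_sum, Finset.sum_filter]
    refine Finset.sum_le_sum fun p hp => ?_
    show (if ∃ σ, IsFrob σ p then ‖a p‖ ^ 2 else 0) * (p : ℝ) ^ (-s) ≤ _
    by_cases hex : ∃ σ, IsFrob σ p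
    · rw [if_pos hex, if_pos hex]
      obtain ⟨σ, hσ⟩ := hex
      have hpp := hT p (hP p hp).1 (hP p hp).2
      have h4 : ‖a p‖ ^ 2 ≤ 4 := by
        rw [← htr p (hP p hp).1 hpp.1 σ hσ]
        exact hwle (ρ.rangeRestrict σ)
      have h8 := rpow_neg_le_eighth hpp.2 hs1
      have hpos : 0 ≤ (p : ℝ) ^ (-s) := Real.rpow_nonneg (Nat.cast_nonneg p) _
      refine le_log_of_le_half (mul_nonneg (sq_nonneg _) hpos) ?_
      nlinarith [sq_nonneg ‖a p‖]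
    · rw [if_neg hex, if_neg hex, zero_mul]
  have hfinal : (2 - 1 / 2) * M ≤ ((∑ g, w g) / Fintype.card ρ.range - 1 / 2) * M :=
    mul_le_mul_of_nonneg_right (by linarith) hM0
  linarith

end Fermat.Agent.S48
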