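/-
S48, node P (task S48-P, helper187): a two dimensional pseudo-representation with a
"complex conjugation" over `ℂ` is the trace of a representation.
Specialisation of Wiles' matrices of `Fermat/Agent/S30/WilesRep.lean`.
-/
import Fermat.Agent.S48.Nodes
import Fermat.Agent.S30.WilesRep

set_option autoImplicit false

namespace Fermat.Agent.S48

open Fermat.Agent.S30

namespace PseudoRepAux

variable {G K : Type*} [Group G] [Field K] (ps : OddPseudo G K)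

theorem A_eq_one (h2 : (2 : K) ≠ 0) {τ : G} (hτ : ∀ g, ps.t (g * τ) = ps.t g) : ps.A τ = 1 := by
  have h1 := hτ 1
  rw [one_mul, ps.t_one] at h1
  unfold OddPseudo.A
  rw [h1, hτ ps.c, ps.t_c, add_zero, div_self h2]

theorem D_eq_one (h2 : (2 : K) ≠ 0) {τ : G} (hτ : ∀ g, ps.t (g * τ) = ps.t g) : ps.D τ = 1 := by
  have h1 := hτ 1
  rw [one_mul, ps.t_one] at h1
  unfold OddPseudo.D
  rw [h1, hτ ps.c, ps.t_c, sub_zero, div_self h2]

theorem A_mul_right {τ : G} (hτ : ∀ g, ps.t (g * τ) = ps.t g) (g : G) :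
    ps.A (g * τ) = ps.A g := by
  unfold OddPseudo.A
  rw [hτ g, ← mul_assoc, hτ (ps.c * g)]

theorem A_mul_left {τ : G} (hτ : ∀ g, ps.t (g * τ) = ps.t g) (h : G) :
    ps.A (τ * h) = ps.A h := by
  unfold OddPseudo.A
  rw [ps.t_comm τ h, hτ h, ← mul_assoc, ps.t_comm (ps.c * τ) h, ← mul_assoc, hτ (h * ps.c),
    ps.t_comm h ps.c]

theorem X_left_eq_zero (h2 : (2 : K) ≠ 0) {τ : G} (hτ : ∀ g, ps.t (g * τ) = ps.t g) (h : G) :
    ps.X τ h = 0 := by
  unfold OddPseudo.X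
  rw [A_mul_left ps hτ, A_eq_one ps h2 hτ, one_mul, sub_self]

theorem X_right_eq_zero (h2 : (2 : K) ≠ 0) {τ : G} (hτ : ∀ g, ps.t (g * τ) = ps.t g) (g : G) :
    ps.X g τ = 0 := by
  unfold OddPseudo.X
  rw [A_mul_right ps hτ, A_eq_one ps h2 hτ, mul_one, sub_self]

theorem mat_eq_one (h2 : (2 : K) ≠ 0) (g₀ h₀ : G) {τ : G} (hτ : ∀ g, ps.t (g * τ) = ps.t g) :
    ps.mat g₀ h₀ τ = 1 := by
  unfold OddPseudo.mat
  rw [A_eq_one ps h2 hτ, D_eq_one ps h2 hτ, X_left_eq_zero ps h2 hτ, X_right_eq_zero ps h2 hτ,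
    zero_div]
  exact Matrix.one_fin_two.symm

/-- the field version of node P. -/
theorem exists_rep (h2 : (2 : K) ≠ 0) :
    ∃ ρ : G →* GL (Fin 2) K,
      (∀ g, ((ρ g : GL (Fin 2) K) : Matrix (Fin 2) (Fin 2) K).trace = ps.t g ∧
        ((ρ g : GL (Fin 2) K) : Matrix (Fin 2) (Fin 2) K).det = (ps.ε g : K)) ∧
      (∀ τ, (∀ g, ps.t (g * τ) = ps.t g) → ρ τ = 1) := by
  classical
  obtain ⟨g₀, h₀, hadm⟩ : ∃ g₀ h₀ : G, ps.Admissible g₀ h₀ := by
    by_cases hX : ∃ g₀ h₀ : G, ps.X g₀ h₀ ≠ 0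
    · obtain ⟨g₀, h₀, h⟩ := hX
      exact ⟨g₀, h₀, Or.inl h⟩
    · refine ⟨1, 1, Or.inr ?_⟩
      intro g h
      by_contra hne
      exact hX ⟨g, h, hne⟩
  refine ⟨(ps.rep h2 hadm).toHomUnits, ?_, ?_⟩
  · intro g
    exact ⟨ps.trace_mat h2 hadm g, ps.det_mat h2 hadm g⟩
  · intro τ hτ
    apply Units.ext
    exact mat_eq_one ps h2 g₀ h₀ hτ

end PseudoRepAux

theorem pseudoRep : PseudoRep := by
  intro Γ _ t d c hcc htc hdc ht1 hcomm hmul
  exact PseudoRepAux.exists_rep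
    { t := t, ε := d, c := c, c_mul_c := hcc, t_one := ht1, t_comm := hcomm, t_mul := hmul,
      t_c := htc, ε_c := hdc } two_ne_zero

end Fermat.Agent.S48
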