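/-
S48, node LIFT (task S48-G6, helper258): a residual representation of bounded exponent, modulo a
prime at which reduction is injective on short sums of roots of unity, lifts to characteristic 0.
-/
import Fermat.Agent.S48.GalNodes
import Fermat.Agent.S48.PseudoRep

set_option autoImplicit false

namespace Fermat.Agent.S48

open Polynomial
open scoped MatrixGroups

namespace LiftAux

/-- zero or an `m`-th root of unity. -/
def RU (m : ℕ) (z : Zbar) : Prop := z = 0 ∨ z ^ m = 1

theorem RU.of_pow {m : ℕ} {z : Zbar} (h : z ^ m = 1) : RU m z := Or.inr h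

theorem RU.zero (m : ℕ) : RU m 0 := Or.inl rfl

theorem RU.one (m : ℕ) : RU m 1 := Or.inr (one_pow m)

theorem RU.mul {m : ℕ} {x y : Zbar} (hx : RU m x) (hy : RU m y) : RU m (x * y) := by
  rcases hx with rfl | hx
  · left; simp
  rcases hy with rfl | hy
  · left; simp
  · right; rw [mul_pow, hx, hy, one_mul]

theorem RU.neg {m : ℕ} (hm : 2 ∣ m) {x : Zbar} (hx : RU m x) : RU m (-x) := by
  rcases hx with rfl | hx
  · left; simp
  · right
    rw [neg_pow, hx, mul_one]
    exact Even.neg_one_pow (even_iff_two_dvd.mpr hm)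

theorem mem_testSet {m : ℕ} {z0 z1 z2 z3 z4 z5 z6 z7 : Zbar}
    (h0 : RU m z0) (h1 : RU m z1) (h2 : RU m z2) (h3 : RU m z3)
    (h4 : RU m z4) (h5 : RU m z5) (h6 : RU m z6) (h7 : RU m z7) :
    z0 + z1 + z2 + z3 + z4 + z5 + z6 + z7 ∈ TestSet m := by
  refine ⟨![z0, z1, z2, z3, z4, z5, z6, z7], ?_, ?_⟩
  · intro i
    fin_cases i
    · exact h0
    · exact h1
    · exact h2
    · exact h3
    · exact h4
    · exact h5
    · exact h6
    · exact h7
  · rw [Fin.sum_univ_eight]
    rfl

/-- every `m`-th root of unity of the residue field lifts. -/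
theorem exists_lift_root {m : ℕ} (hm : 0 < m) {κ : Type} [Field κ] (φ : Zbar →+* κ) {l : κ}
    (hl : l ^ m = 1) : ∃ z : Zbar, z ^ m = 1 ∧ φ z = l := by
  classical
  have hprim : IsPrimitiveRoot (Complex.exp (2 * Real.pi * Complex.I / m)) m :=
    Complex.isPrimitiveRoot_exp m hm.ne'
  have hint : IsIntegral ℤ (Complex.exp (2 * Real.pi * Complex.I / m)) := hprim.isIntegral hm
  set ζ : Zbar := ⟨_, hint⟩ with hζ
  have hprim' : IsPrimitiveRoot ζ m := by
    refine IsPrimitiveRoot.of_map_of_injective (f := (Zbar.val : Zbar →ₐ[ℤ] ℂ))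
      (hf := Subtype.val_injective) ?_
    exact hprim
  have hprod := X_pow_sub_one_eq_prod hm hprim'
  have hmap := congrArg (Polynomial.map φ) hprod
  have heval := congrArg (Polynomial.eval l) hmap
  simp only [Polynomial.map_sub, Polynomial.map_pow, Polynomial.map_X, Polynomial.map_one,
    Polynomial.map_prod, Polynomial.map_C, eval_sub, eval_pow, eval_X, eval_one,
    eval_prod, eval_C] at heval
  rw [hl, sub_self] at heval
  obtain ⟨z, hz, hz0⟩ := Finset.prod_eq_zero_iff.mp heval.symm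
  refine ⟨z, ?_, (sub_eq_zero.mp hz0).symm⟩
  exact (mem_nthRootsFinset hm 1).mp hz

section Mat

variable {κ : Type} [Field κ]

theorem trace_fin_two' (A : Matrix (Fin 2) (Fin 2) κ) : A.trace = A 0 0 + A 1 1 :=
  Matrix.trace_fin_two A

/-- a root of the characteristic equation of a matrix of exponent `m` is an `m`-th root of
unity. -/
theorem root_pow_eq_one {m : ℕ} (A : Matrix (Fin 2) (Fin 2) κ) (hA : A ^ m = 1) {l : κ}
    (hl : l * l - A.trace * l + A.det = 0) : l ^ m = 1 := by
  have hdet : (A - l • (1 : Matrix (Fin 2) (Fin 2) κ)).det = 0 := by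
    rw [Matrix.det_fin_two]
    rw [Matrix.trace_fin_two, Matrix.det_fin_two] at hl
    simp only [Matrix.sub_apply, Matrix.smul_apply, Matrix.one_apply_eq, smul_eq_mul, mul_one,
      Matrix.one_apply_ne (show (0 : Fin 2) ≠ 1 by decide),
      Matrix.one_apply_ne (show (1 : Fin 2) ≠ 0 by decide), mul_zero, sub_zero]
    linear_combination hl
  obtain ⟨v, hv, hv0⟩ := Matrix.exists_mulVec_eq_zero_iff.mpr hdet
  have hAv : A.mulVec v = l • v := by
    have : A.mulVec v - l • v = 0 := by
      rw [← hv0, Matrix.sub_mulVec, Matrix.smul_mulVec, Matrix.one_mulVec]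
    exact sub_eq_zero.mp this
  have hpow : ∀ k : ℕ, (A ^ k).mulVec v = l ^ k • v := by
    intro k
    induction k with
    | zero => simp
    | succ k ih =>
      rw [pow_succ, ← Matrix.mulVec_mulVec, hAv, Matrix.mulVec_smul, ih, smul_smul, pow_succ,
        mul_comm]
  have h1 := hpow m
  rw [hA, Matrix.one_mulVec] at h1
  by_contra hne
  apply hv
  have : (l ^ m - 1) • v = 0 := by rw [sub_smul, one_smul, ← h1, sub_self]
  rcases smul_eq_zero.mp this with h | h
  · exact absurd (sub_eq_zero.mp h) hne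
  · exact h

/-- eigenvalues. -/
theorem exists_eigen [IsAlgClosed κ] {m : ℕ} (A : Matrix (Fin 2) (Fin 2) κ) (hA : A ^ m = 1) :
    ∃ l₁ l₂ : κ, l₁ ^ m = 1 ∧ l₂ ^ m = 1 ∧ l₁ + l₂ = A.trace ∧ l₁ * l₂ = A.det := by
  obtain ⟨l, hl⟩ := IsAlgClosed.exists_root (X ^ 2 - C A.trace * X + C A.det : κ[X]) (by
    have : (X ^ 2 - C A.trace * X + C A.det : κ[X]).degree = 2 := by
      compute_degree!
    rw [this]; decide)
  have hl' : l * l - A.trace * l + A.det = 0 := by
    have := hl
    simp only [IsRoot.def, eval_add, eval_sub, eval_pow, eval_X, eval_mul, eval_C] at this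
    linear_combination this
  refine ⟨l, A.trace - l, root_pow_eq_one A hA hl', root_pow_eq_one A hA ?_, by ring, ?_⟩
  · linear_combination hl'
  · linear_combination -hl'

theorem trace_mul_trace (A B B' : Matrix (Fin 2) (Fin 2) κ) (hB : B * B' = 1) :
    A.trace * B.trace = (A * B).trace + B.det * (A * B').trace := by
  have hB' : B.det • B' = B.adjugate := by
    have h1 : B.adjugate * (B * B') = B.adjugate := by rw [hB, mul_one]
    rw [← mul_assoc, Matrix.adjugate_mul, Matrix.smul_mul, one_mul] at h1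
    exact h1
  have h2 : B.det * (A * B').trace = (A * B.adjugate).trace := by
    rw [← hB', Matrix.mul_smul, Matrix.trace_smul, smul_eq_mul]
  rw [h2, Matrix.adjugate_fin_two]
  simp only [Matrix.trace_fin_two, Matrix.mul_apply, Fin.sum_univ_two, Matrix.of_apply,
    Matrix.cons_val_zero, Matrix.cons_val_one, Matrix.cons_val', Matrix.cons_val_fin_one]
  ring

theorem trace_eq_zero_of_sq (A : Matrix (Fin 2) (Fin 2) κ) (hA : A * A = 1) (hd : A.det = -1) :
    A.trace = 0 := by
  have h00 := congrFun (congrFun hA 0) 0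
  have h01 := congrFun (congrFun hA 0) 1
  have h10 := congrFun (congrFun hA 1) 0
  have h11 := congrFun (congrFun hA 1) 1
  simp only [Matrix.mul_apply, Fin.sum_univ_two, Matrix.one_apply_eq,
    Matrix.one_apply_ne (show (0 : Fin 2) ≠ 1 by decide),
    Matrix.one_apply_ne (show (1 : Fin 2) ≠ 0 by decide)] at h00 h01 h10 h11
  rw [Matrix.det_fin_two] at hd
  rw [Matrix.trace_fin_two]
  -- `(a + d) * a = a^2 + ad = (1 - bc) + (bc - 1) = 0`, same for `d`, `b`, `c`
  have ha : (A 0 0 + A 1 1) * A 0 0 = 0 := by linear_combination h00 + hd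
  have hdd : (A 0 0 + A 1 1) * A 1 1 = 0 := by linear_combination h11 + hd
  have hb : (A 0 0 + A 1 1) * A 0 1 = 0 := by linear_combination h01
  by_contra hne
  have a0 : A 0 0 = 0 := (mul_eq_zero.mp ha).resolve_left hne
  have d0 : A 1 1 = 0 := (mul_eq_zero.mp hdd).resolve_left hne
  exact hne (by rw [a0, d0, add_zero])

end Mat

end LiftAux

open LiftAux

theorem liftNode : LiftNode := by
  intro N a d c m ℓ hm h2m hcc hdc hdm ha κ _ _ φ ρ' hres hρm hinj
  classical
  -- matrices
  let Mt : GQ → Matrix (Fin 2) (Fin 2) κ := fun σ => ((ρ' σ : GL (Fin 2) κ) : Matrix _ _ κ)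
  have hMt_mul : ∀ g h, Mt (g * h) = Mt g * Mt h := by
    intro g h; simp only [Mt, map_mul, Units.val_mul]
  have hMt_one : Mt 1 = 1 := by simp only [Mt, map_one, Units.val_one]
  have hMt_pow : ∀ σ, Mt σ ^ m = 1 := by
    intro σ
    have := congrArg (fun u : GL (Fin 2) κ => (u : Matrix (Fin 2) (Fin 2) κ)) (hρm σ)
    simpa [Mt, Units.val_pow_eq_pow_val] using this
  have hdRU : ∀ σ, RU m ((d σ : Zbarˣ) : Zbar) := by
    intro σ
    right
    have := congrArg (fun u : Zbarˣ => (u : Zbar)) (hdm σ)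
    simpa [Units.val_pow_eq_pow_val] using this
  -- the key uniqueness principle
  have key : ∀ {z0 z1 z2 z3 z4 z5 z6 z7 : Zbar}, RU m z0 → RU m z1 → RU m z2 → RU m z3 →
      RU m z4 → RU m z5 → RU m z6 → RU m z7 →
      φ (z0 + z1 + z2 + z3 + z4 + z5 + z6 + z7) = 0 →
      z0 + z1 + z2 + z3 + z4 + z5 + z6 + z7 = 0 := by
    intro z0 z1 z2 z3 z4 z5 z6 z7 h0 h1 h2 h3 h4 h5 h6 h7 h
    exact hinj _ (mem_testSet h0 h1 h2 h3 h4 h5 h6 h7) h
  -- existence of the trace
  have hex : ∀ σ : GQ, ∃ α β : Zbar, α ^ m = 1 ∧ β ^ m = 1 ∧ φ (α + β) = (Mt σ).trace := by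
    intro σ
    obtain ⟨l₁, l₂, h1, h2, htr, -⟩ := exists_eigen (Mt σ) (hMt_pow σ)
    obtain ⟨α, hα, hα'⟩ := exists_lift_root hm φ h1
    obtain ⟨β, hβ, hβ'⟩ := exists_lift_root hm φ h2
    exact ⟨α, β, hα, hβ, by rw [map_add, hα', hβ', htr]⟩
  choose α β hα hβ hφ using hex
  let t : GQ → Zbar := fun σ => α σ + β σ
  have hαR : ∀ σ, RU m (α σ) := fun σ => RU.of_pow (hα σ)
  have hβR : ∀ σ, RU m (β σ) := fun σ => RU.of_pow (hβ σ)
  have Z := RU.zero m
  -- `t` only depends on the residual trace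
  have huniq : ∀ (σ : GQ) (x y : Zbar), RU m x → RU m y → φ (x + y) = (Mt σ).trace →
      t σ = x + y := by
    intro σ x y hx hy hxy
    have := key (hαR σ) (hβR σ) (hx.neg h2m) (hy.neg h2m) Z Z Z Z (by
      have h1 : α σ + β σ + -x + -y + 0 + 0 + 0 + 0 = (α σ + β σ) - (x + y) := by ring
      rw [h1, map_sub, hφ σ, hxy, sub_self])
    simp only [t]
    linear_combination this
  have ht_eq : ∀ σ τ : GQ, (Mt σ).trace = (Mt τ).trace → t σ = t τ := by
    intro σ τ h
    exact huniq σ _ _ (hαR τ) (hβR τ) (by rw [hφ τ, h])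
  have hcomm : ∀ g h, t (g * h) = t (h * g) := by
    intro g h
    apply ht_eq
    rw [hMt_mul, hMt_mul, Matrix.trace_mul_comm]
  have ht1 : t 1 = 2 := by
    have := huniq 1 1 1 (RU.one m) (RU.one m) (by
      rw [hMt_one, Matrix.trace_one, map_add, map_one]; simp; norm_num)
    rw [this]; norm_num
  have htc : t c = 0 := by
    have htr : (Mt c).trace = 0 := by
      apply trace_eq_zero_of_sq
      · rw [← hMt_mul, hcc, hMt_one]
      · have := hres.det c
        simp only [dtG] at this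
        rw [show (Mt c).det = φ ((d c : Zbarˣ) : Zbar) from this, hdc]
        simp
    have := huniq c 0 0 Z Z (by rw [htr]; simp)
    rw [this, add_zero]
  have hmul : ∀ g h, t g * t h = t (g * h) + ((d h : Zbarˣ) : Zbar) * t (g * h⁻¹) := by
    intro g h
    have hκ : (Mt g).trace * (Mt h).trace
        = (Mt (g * h)).trace + φ ((d h : Zbarˣ) : Zbar) * (Mt (g * h⁻¹)).trace := by
      have hdet : (Mt h).det = φ ((d h : Zbarˣ) : Zbar) := hres.det h
      rw [hMt_mul, hMt_mul, ← hdet]
      apply trace_mul_trace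
      rw [← hMt_mul, mul_inv_cancel, hMt_one]
    have := key ((hαR g).mul (hαR h)) ((hαR g).mul (hβR h)) ((hβR g).mul (hαR h))
      ((hβR g).mul (hβR h)) ((hαR (g * h)).neg h2m) ((hβR (g * h)).neg h2m)
      (((hdRU h).mul (hαR (g * h⁻¹))).neg h2m) (((hdRU h).mul (hβR (g * h⁻¹))).neg h2m) (by
      have h1 : α g * α h + α g * β h + β g * α h + β g * β h + -α (g * h) + -β (g * h)
          + -(((d h : Zbarˣ) : Zbar) * α (g * h⁻¹)) + -(((d h : Zbarˣ) : Zbar) * β (g * h⁻¹))
          = (α g + β g) * (α h + β h) - (α (g * h) + β (g * h))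
            - ((d h : Zbarˣ) : Zbar) * (α (g * h⁻¹) + β (g * h⁻¹)) := by ring
      rw [h1, map_sub, map_sub, map_mul, map_mul, hφ, hφ, hφ, hφ, hκ]
      ring)
    simp only [t]
    linear_combination this
  -- apply the pseudo-representation node
  let ι : Zbar →+* ℂ := (Zbar.val : Zbar →ₐ[ℤ] ℂ).toRingHom
  have hι : ∀ z : Zbar, ι z = (z : ℂ) := fun _ => rfl
  obtain ⟨ρ, hρ, hρ1⟩ := pseudoRep GQ (fun σ => (t σ : ℂ)) ((Units.map ι.toMonoidHom).comp d) c hcc
    (by rw [htc]; rfl)
    (by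
      apply Units.ext
      simp only [MonoidHom.comp_apply, hdc, Units.coe_map, Units.val_neg, Units.val_one]
      simp)
    (by rw [ht1]; rfl)
    (by intro g h; rw [hcomm])
    (by
      intro g h
      have := congrArg (fun z : Zbar => (z : ℂ)) (hmul g h)
      simpa [hι] using this)
  have hkill : ∀ τ : GQ, ρ' τ = 1 → ρ τ = 1 := by
    intro τ hτ
    apply hρ1
    intro g
    have : t (g * τ) = t g := by
      apply ht_eq
      rw [hMt_mul]
      have : Mt τ = 1 := by simp only [Mt, hτ, Units.val_one]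
      rw [this, mul_one]
    simp only [this]
  refine ⟨ρ, ?_, ?_, ?_, ?_, ?_⟩
  · obtain ⟨L, hL, hL'⟩ := hres.lvl
    exact ⟨L, hL, fun σ hσ => hkill σ (hL' σ hσ)⟩
  · intro σ
    exact (hρ σ).2
  · intro p hp hpN σ hσ
    exact hkill σ (hres.unr p hp hpN σ hσ)
  · intro p hp hpN σ hσ
    have hpN' : ¬ p ∣ N := fun h => hpN (Dvd.dvd.mul_right h ℓ)
    obtain ⟨x, y, hx, hy, hxy⟩ := ha p hp hpN'
    have h1 : t σ = x + y := huniq σ x y (RU.of_pow hx) (RU.of_pow hy) (by
      rw [← hxy]; exact (hres.tr p hp hpN σ hσ).symm)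
    have h2 := (hρ σ).1
    simp only [trG]
    rw [h2, h1, hxy]
  · intro τ hτ
    apply hρ1
    intro g
    have h1 := (hρ (g * τ)).1
    have h2 := (hρ g).1
    rw [← h1, ← h2]
    exact hτ g

end Fermat.Agent.S48
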