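/-
S48 (Deligne-Serre).  Assembly of the node `ModularHalf` from the small nodes.  Owner: helper72.
-/
import Fermat.Agent.S48.ModNodes
import Fermat.Agent.S48.MeanSquare
import Fermat.Agent.S48.RankinAbstract

set_option autoImplicit false

namespace Fermat.Agent.S48

open CongruenceSubgroup ModularFormClass UpperHalfPlane
open scoped MatrixGroups ModularForm

/-- The action of `-1` in weight one. -/
theorem slash_one_neg_one (f : ℍ → ℂ) : f ∣[(1 : ℤ)] (-1 : SL(2, ℤ)) = -f := by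
  ext τ
  rw [ModularForm.SL_slash_apply]
  have h1 : ((-1 : SL(2, ℤ)) • τ) = τ := by
    simp
  have h2 : denom ((-1 : SL(2, ℤ)) : GL (Fin 2) ℝ) τ = -1 := by
    simp [denom]
  rw [h1, h2]
  simp

/-- A function on the upper half plane whose first coefficient is one is not zero. -/
theorem exists_ne_zero_of_qCoeff_one {f : ℍ → ℂ} (hf : qCoeff f 1 = 1) : ∃ τ, f τ ≠ 0 := by
  by_contra hcon
  simp only [not_exists, not_not] at hcon
  have hf0 : f = (0 : ℍ → ℂ) := funext hcon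
  rw [hf0, qCoeff, qExpansion_zero] at hf
  simp at hf

/-- The character of a weight one form is odd. -/
theorem odd_of_nebentypus (hA : Nebentypus) (N : ℕ) [NeZero N] (ε : DirichletCharacter ℂ N)
    (f : CuspForm (Gamma1 N) 1) (hf1 : qCoeff f 1 = 1) (hT : HeckeRel N ε (qCoeff f)) :
    ε (-1) = -1 := by
  have hmem : (-1 : SL(2, ℤ)) ∈ Gamma0 N := by
    rw [Gamma0_mem]
    simp
  have h := hA N ε f hf1 hT (-1) hmem
  rw [slash_one_neg_one] at h
  obtain ⟨τ, hτ⟩ := exists_ne_zero_of_qCoeff_one hf1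
  have h2 := congrFun h τ
  simp only [Pi.neg_apply, Pi.smul_apply, smul_eq_mul] at h2
  have h3 : (((-1 : SL(2, ℤ)) 1 1 : ℤ) : ZMod N) = -1 := by simp
  rw [h3] at h2
  have h4 : (ε (-1) + 1) * f τ = 0 := by
    rw [add_mul, ← h2]
    ring
  rcases mul_eq_zero.mp h4 with h5 | h5
  · exact eq_neg_of_add_eq_zero_left h5
  · exact absurd h5 hτ

/-- `HasResidualModules` only depends on the good eigenvalues. -/
theorem HasResidualModules.congr {N : ℕ} {ε : DirichletCharacter ℂ N} {a a' : ℕ → ℂ}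
    (h : ∀ p : ℕ, p.Prime → ¬ p ∣ N → a p = a' p) (H : HasResidualModules N ε a) :
    HasResidualModules N ε a' := by
  obtain ⟨ℓ₀, H⟩ := H
  refine ⟨ℓ₀, fun ℓ hℓ hℓ₀ κ _ _ _ φ => ?_⟩
  obtain ⟨W, i1, i2, i3, i4, r, hr1, hr2, hr3⟩ := H ℓ hℓ hℓ₀ κ φ
  refine ⟨W, i1, i2, i3, i4, r, hr1, hr2, fun p hp hpN σ hσ => ?_⟩
  obtain ⟨x, e, hx, he, hrel⟩ := hr3 p hp hpN σ hσ
  exact ⟨x, e, hx.trans (h p hp fun hd => hpN (Dvd.dvd.mul_right hd ℓ)), he, hrel⟩

/-- **Assembly of the modular half.** -/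
theorem modularHalf_of_nodes (hA : Nebentypus) (h5 : RationalModel) (h6 : ConjRankin)
    (h7 : FinAbstract) (h10 : ResNode) : ModularHalf := by
  intro N _ ε f hf1 hT
  obtain ⟨K, g, D, hK, hD, hεK, hp, hg1, hgT, hgK, hgD⟩ := h5 N ε f hf1 hT
  refine ⟨odd_of_nebentypus hA N ε f hf1 hT, fun p hpp hpN => (hp p hpp hpN).1, ?_, ?_, ?_⟩
  · intro eta heta
    let b : ℕ → K := fun n => ⟨qCoeff g n, hgK n⟩
    have hbint : ∀ p : ℕ, p.Prime → ¬ p ∣ N → IsIntegral ℤ (b p) := by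
      intro p hpp hpN
      have h1 : IsIntegral ℤ (algebraMap K ℂ (b p)) := by
        change IsIntegral ℤ (qCoeff g p)
        rw [(hp p hpp hpN).2]
        exact (hp p hpp hpN).1
      exact (isIntegral_algebraMap_iff (algebraMap K ℂ).injective).mp h1
    obtain ⟨Y, X, hX, hY⟩ := h7 N K b hK hbint
      (h6 N ε K g b hεK (fun _ => rfl) hg1 hgT) eta heta
    refine ⟨Y, X, hX, fun p hpp hpN hpX => ?_⟩
    have := hY p hpp hpN hpX
    rw [← (hp p hpp hpN).2]
    exact this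
  · obtain ⟨C0, hms⟩ := meanSquare N f
    exact rankin_abstract N ε _ hf1 hT C0 hms
  · refine HasResidualModules.congr (fun p hpp hpN => (hp p hpp hpN).2)
      (h10 N ε g D hD hg1 hgT hgD fun p hpp hpN => ?_)
    rw [(hp p hpp hpN).2]
    exact (hp p hpp hpN).1

end Fermat.Agent.S48
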