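/-
S48 (Deligne-Serre), node M9: the product of a cusp form of weight one on `Γ₁(N)` and a modular
form of weight one on `Γ₁(ℓ)` is a cusp form of weight two on `Γ₁(N ℓ)`.  Owner: helper217.
-/
import Fermat.Agent.S48.ModNodes

set_option autoImplicit false

namespace Fermat.Agent.S48

open CongruenceSubgroup ModularFormClass UpperHalfPlane
open scoped MatrixGroups ModularForm

/-- restriction of a cusp form to a smaller group -/
noncomputable def cuspFormRestrict {Γ Γ' : Subgroup (GL (Fin 2) ℝ)} (h : Γ' ≤ Γ) {k : ℤ}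
    (f : CuspForm Γ k) : CuspForm Γ' k where
  toFun := f
  slash_action_eq' A hA := f.slash_action_eq' A (h hA)
  holo' := f.holo'
  zero_at_cusps' hc := f.zero_at_cusps' (hc.mono h)

/-- restriction of a modular form to a smaller group -/
noncomputable def modularFormRestrict {Γ Γ' : Subgroup (GL (Fin 2) ℝ)} (h : Γ' ≤ Γ) {k : ℤ}
    (f : ModularForm Γ k) : ModularForm Γ' k where
  toFun := f
  slash_action_eq' A hA := f.slash_action_eq' A (h hA)
  holo' := f.holo'
  bdd_at_cusps' hc := f.bdd_at_cusps' (hc.mono h)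

theorem intCast_zmod_eq_of_dvd {M M' : ℕ} (h : M ∣ M') {a b : ℤ}
    (hab : (a : ZMod M') = (b : ZMod M')) : (a : ZMod M) = (b : ZMod M) := by
  rw [ZMod.intCast_eq_intCast_iff_dvd_sub] at hab ⊢
  exact (Int.natCast_dvd_natCast.mpr h).trans hab

theorem Gamma1_le_of_dvd {M M' : ℕ} (h : M ∣ M') : Gamma1 M' ≤ Gamma1 M := by
  intro γ hγ
  rw [Gamma1_mem] at hγ ⊢
  obtain ⟨h1, h2, h3⟩ := hγ
  refine ⟨?_, ?_, ?_⟩
  · have := intCast_zmod_eq_of_dvd h (a := γ 0 0) (b := 1) (by simpa using h1)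
    simpa using this
  · have := intCast_zmod_eq_of_dvd h (a := γ 1 1) (b := 1) (by simpa using h2)
    simpa using this
  · have := intCast_zmod_eq_of_dvd h (a := γ 1 0) (b := 0) (by simpa using h3)
    simpa using this

theorem Gamma0_le_of_dvd {M M' : ℕ} (h : M ∣ M') : Gamma0 M' ≤ Gamma0 M := by
  intro γ hγ
  rw [Gamma0_mem] at hγ ⊢
  have := intCast_zmod_eq_of_dvd h (a := γ 1 0) (b := 0) (by simpa using hγ)
  simpa using this

/-- the lower right entry of an element of `Γ₀(M)` is a unit modulo `M` -/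
theorem isUnit_lowerRight_of_mem_Gamma0 {M : ℕ} {γ : SL(2, ℤ)} (hγ : γ ∈ Gamma0 M) :
    IsUnit ((γ 1 1 : ℤ) : ZMod M) := by
  rw [Gamma0_mem] at hγ
  have hdet : γ 0 0 * γ 1 1 - γ 0 1 * γ 1 0 = 1 := by
    have := γ.det_coe
    rwa [Matrix.det_fin_two] at this
  have h2 : ((γ 0 0 : ℤ) : ZMod M) * ((γ 1 1 : ℤ) : ZMod M) = 1 := by
    have := congrArg (fun x : ℤ => (x : ZMod M)) hdet
    simpa [hγ] using this
  exact IsUnit.of_mul_eq_one_right _ h2

theorem changeLevel_intCast_of_isUnit {M M' : ℕ} (h : M ∣ M') (χ : DirichletCharacter ℂ M)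
    {d : ℤ} (hd : IsUnit ((d : ℤ) : ZMod M')) :
    DirichletCharacter.changeLevel h χ ((d : ℤ) : ZMod M') = χ ((d : ℤ) : ZMod M) := by
  obtain ⟨u, hu⟩ := hd
  rw [← hu, DirichletCharacter.changeLevel_eq_cast_of_dvd χ h u, hu, ZMod.cast_intCast h]

theorem productForm : ProductForm := by
  intro N ℓ _ _ ε χ f E hf hE
  have hN : N ∣ N * ℓ := Dvd.intro ℓ rfl
  have hℓ : ℓ ∣ N * ℓ := Dvd.intro_left N rfl
  let f' : CuspForm (Gamma1 (N * ℓ)) 1 :=
    cuspFormRestrict (Subgroup.map_mono (Gamma1_le_of_dvd hN)) f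
  let E' : ModularForm (Gamma1 (N * ℓ)) 1 :=
    modularFormRestrict (Subgroup.map_mono (Gamma1_le_of_dvd hℓ)) E
  let h : CuspForm (Gamma1 (N * ℓ)) 2 := CuspForm.mcast (by norm_num) (f'.mulModularForm E')
  have hcoe : (h : ℍ → ℂ) = (f : ℍ → ℂ) * (E : ℍ → ℂ) := rfl
  refine ⟨h, ?_, ?_⟩
  · intro γ hγ
    rw [hcoe, show (2 : ℤ) = 1 + 1 by norm_num, ModularForm.mul_slash_SL2,
      hf γ (Gamma0_le_of_dvd hN hγ), hE γ (Gamma0_le_of_dvd hℓ hγ), MulChar.mul_apply,
      changeLevel_intCast_of_isUnit _ ε (isUnit_lowerRight_of_mem_Gamma0 hγ),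
      changeLevel_intCast_of_isUnit _ χ (isUnit_lowerRight_of_mem_Gamma0 hγ),
      smul_mul_smul_comm]
  · intro n
    unfold qCoeff
    rw [hcoe, qExpansion_mul
      (ModularFormClass.analyticAt_cuspFunction_zero f one_pos (by simp))
      (ModularFormClass.analyticAt_cuspFunction_zero E one_pos (by simp)),
      PowerSeries.coeff_mul]

end Fermat.Agent.S48
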