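/-
S48 (Deligne-Serre), node M5: `RationalModel` from `ConjForm`, `CoeffFG`, `CoeffField`,
`Projection`.   Owner: helper279.
-/
import Fermat.Agent.S48.ModNodes

set_option autoImplicit false

namespace Fermat.Agent.S48

open CongruenceSubgroup ModularFormClass
open scoped MatrixGroups ModularForm

/-- An element of a number field inside `ℂ` has a positive integer multiple which is integral. -/
theorem exists_pos_nat_mul_isIntegral (K : IntermediateField ℚ ℂ) [FiniteDimensional ℚ K] {z : ℂ}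
    (hz : z ∈ K) : ∃ d : ℕ, 0 < d ∧ IsIntegral ℤ ((d : ℂ) * z) := by
  have h1 : IsAlgebraic ℚ (⟨z, hz⟩ : K) := Algebra.IsAlgebraic.isAlgebraic _
  have h2 : IsAlgebraic ℚ z := h1.algebraMap (A := ℂ)
  have h3 : IsAlgebraic ℤ z := (IsFractionRing.isAlgebraic_iff ℤ ℚ ℂ).mpr h2
  obtain ⟨y, hy0, hy⟩ := h3.exists_integral_multiple
  refine ⟨y.natAbs, Int.natAbs_pos.mpr hy0, ?_⟩
  rw [zsmul_eq_mul] at hy
  rcases Int.natAbs_eq y with h | h
  · have : ((y.natAbs : ℕ) : ℂ) = (y : ℂ) := by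
      conv_rhs => rw [h]
      simp
    rw [this]
    exact hy
  · have : ((y.natAbs : ℕ) : ℂ) = -(y : ℂ) := by
      conv_rhs => rw [h]
      simp
    rw [this, neg_mul]
    exact hy.neg

/-- A common denominator for the image of a finitely generated group under an additive map with
values in a number field. -/
theorem exists_common_denominator (K : IntermediateField ℚ ℂ) [FiniteDimensional ℚ K]
    (pr : ℂ →+ ℂ) (hpr : ∀ z, pr z ∈ K) {m : ℕ} (c : Fin m → ℂ) :
    ∃ D : ℕ, 0 < D ∧ ∀ z ∈ Submodule.span ℤ (Set.range c), IsIntegral ℤ ((D : ℂ) * pr z) := by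
  choose d hd0 hd using fun i : Fin m => exists_pos_nat_mul_isIntegral K (hpr (c i))
  refine ⟨∏ i, d i, Finset.prod_pos fun i _ => hd0 i, fun z hz => ?_⟩
  induction hz using Submodule.span_induction with
  | mem z hz =>
    obtain ⟨i, rfl⟩ := hz
    obtain ⟨e, he⟩ := Finset.dvd_prod_of_mem d (Finset.mem_univ i)
    rw [he, Nat.cast_mul, mul_comm (d i : ℂ), mul_assoc]
    exact (isIntegral_natCast e).mul (hd i)
  | zero =>
    rw [map_zero, mul_zero]
    exact isIntegral_zero
  | add x y _ _ hx hy =>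
    rw [map_add, mul_add]
    exact hx.add hy
  | smul a x _ hx =>
    rw [map_zsmul, mul_smul_comm]
    exact hx.smul a

theorem rationalModel (h1 : ConjForm) (h2 : CoeffFG) (h3 : CoeffField) (h4 : Projection) :
    RationalModel := by
  intro N _ ε f hf1 hrel
  obtain ⟨m, c, hc⟩ := h2 N f
  obtain ⟨K, hK, hεK, hap⟩ := h3 N ε (qCoeff f) m c hf1 hrel hc
  obtain ⟨pr, hprK, hprlin, hpr1⟩ := h4 K
  obtain ⟨g, hg⟩ := h1 N f pr
  obtain ⟨D, hD0, hD⟩ := exists_common_denominator K pr hprK c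
  have hgp : ∀ p : ℕ, p.Prime → ¬ p ∣ N → qCoeff g p = qCoeff f p := by
    intro p hp hpN
    rw [hg, ← mul_one (qCoeff f p), hprlin _ (hap p hp hpN).1, hpr1]
  refine ⟨K, g, D, hK, hD0, hεK, fun p hp hpN => ⟨(hap p hp hpN).2, hgp p hp hpN⟩, ?_, ?_, ?_, ?_⟩
  · rw [hg, hf1, hpr1]
  · intro p hp hpN n
    have h := congrArg pr (hrel p hp hpN n)
    rw [map_add, hprlin _ (hεK _), hprlin _ (hap p hp hpN).1, apply_ite pr, map_zero] at h
    rw [hg (p * n), hgp p hp hpN, hg n, hg (n / p)]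
    exact h
  · intro n
    rw [hg]
    exact hprK _
  · intro n
    rw [hg]
    exact hD _ (hc n)

end Fermat.Agent.S48
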