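/-
S48 (Deligne-Serre).  Node R: from a Galois module with quadratic relations to a residual
representation.  Owner: helper256.
-/
import Fermat.Agent.S48.GalNodes
import Fermat.Agent.S29.QuadRel
import Fermat.Agent.Lib.WeakChebotarev

set_option autoImplicit false

namespace Fermat.Agent.S48

open Polynomial Fermat.Agent.S29.QuadRel
open scoped MatrixGroups

namespace ResidualRepAux

/-- If `σ` and `f ^ j` agree on a field through which `r` factors then `r σ = r f ^ j`. -/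
theorem eq_pow_of_agree {M : Type*} [Monoid M] (r : GQ →* M)
    (L : IntermediateField ℚ (AlgebraicClosure ℚ))
    (hL : ∀ σ : GQ, (∀ x ∈ L, σ x = x) → r σ = 1) {σ f : GQ} {j : ℕ}
    (h : ∀ x ∈ L, σ x = (f ^ j) x) : r σ = r f ^ j := by
  have h1 : r (σ⁻¹ * f ^ j) = 1 := by
    apply hL
    intro x hx
    rw [AlgEquiv.mul_apply, ← h x hx]
    exact σ.symm_apply_apply x
  have h2 : r σ * r (σ⁻¹ * f ^ j) = r f ^ j := by
    rw [← map_mul, mul_inv_cancel_left, map_pow]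
  rw [← h2, h1, mul_one]

/-- Trace and determinant from the characteristic polynomial in dimension two. -/
theorem trace_det_of_charpoly {k : Type*} [Field k] {M : Matrix (Fin 2) (Fin 2) k} {a b : k}
    (h : M.charpoly = X ^ 2 - C a * X + C b) : M.trace = a ∧ M.det = b := by
  rw [Matrix.charpoly_fin_two] at h
  have h1 := congrArg (fun q : k[X] => q.coeff 1) h
  have h0 := congrArg (fun q : k[X] => q.coeff 0) h
  simp only [coeff_add, coeff_sub, coeff_X_pow, coeff_C_mul, coeff_X_one, coeff_X_zero,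
    coeff_C_zero, coeff_C_succ, mul_one, mul_zero] at h1 h0
  constructor
  · simpa using h1
  · simpa using h0

end ResidualRepAux

open ResidualRepAux in
/-- **Node R**. -/
theorem residualRep (hSS : Semisimplify) : ResidualRep := by
  intro N _ a d hd hdI ℓ κ _ _ φ W _ _ _ _ r hℓ hr hrI hrel
  obtain ⟨L₁, hL₁fin, hL₁⟩ := hr
  obtain ⟨L₂, hL₂fin, hL₂⟩ := hd
  set d' : GQ →* κˣ := (Units.map (φ : Zbar →* κ)).comp d with hd'
  have hd'v : ∀ σ, ((d' σ : κˣ) : κ) = φ (d σ : Zbarˣ) := fun σ => rfl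
  have hd'1 : ∀ σ, d σ = 1 → d' σ = 1 := fun σ h => by
    rw [hd', MonoidHom.comp_apply, h, map_one]
  set L : IntermediateField ℚ (AlgebraicClosure ℚ) := L₁ ⊔ L₂ with hLdef
  have hLfin : FiniteDimensional ℚ L := IntermediateField.finiteDimensional_sup L₁ L₂
  have hLr : ∀ σ : GQ, (∀ x ∈ L, σ x = x) → r σ = 1 := fun σ h =>
    hL₁ σ (fun x hx => h x ((le_sup_left : L₁ ≤ L) hx))
  have hLd : ∀ σ : GQ, (∀ x ∈ L, σ x = x) → d' σ = 1 := fun σ h =>
    hd'1 σ (hL₂ σ (fun x hx => h x ((le_sup_right : L₂ ≤ L) hx)))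
  have hN0 : N * ℓ ≠ 0 := Nat.mul_ne_zero (NeZero.ne N) hℓ.ne_zero
  have hrel' : ∀ p : ℕ, p.Prime → ¬ p ∣ N * ℓ → ∀ σ, IsFrob σ p →
      r σ * r σ - φ (a p) • r σ + ((d' σ : κˣ) : κ) • (1 : Module.End κ W) = 0 := by
    intro p hp hpN σ hσ
    rw [hd'v]
    exact hrel p hp hpN σ hσ
  obtain ⟨t, ht⟩ := exists_isQuad_of_dense r d' (by
    intro σ
    obtain ⟨p, A, f, hp, hpT, hA, -, hf, -, ⟨j, hj⟩⟩ :=
      Fermat.Agent.Lib.WeakChebotarev.weak_chebotarev_exists L σ (N * ℓ).primeFactors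
    have hpN : ¬ p ∣ N * ℓ := fun h => hpT (Nat.mem_primeFactors.mpr ⟨hp, h, hN0⟩)
    exact ⟨f, j, φ (a p), eq_pow_of_agree r L hLr hj, eq_pow_of_agree d' L hLd hj,
      hrel' p hp hpN f ⟨A, hA, hf⟩⟩)
  obtain ⟨ρ₀, hρ1, hρ2⟩ := exists_matrixRep r d' t ht
  let ρ₁ : GQ →* GL (Fin 2) κ := ρ₀.toHomUnits
  have hρ₁ : ∀ σ, ((ρ₁ σ : GL (Fin 2) κ) : Matrix (Fin 2) (Fin 2) κ) = ρ₀ σ := fun σ => rfl
  have hρ₁one : ∀ σ, r σ = 1 → d' σ = 1 → ρ₁ σ = 1 := fun σ h1 h2 =>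
    Units.ext (by rw [hρ₁, hρ2 σ h1 h2]; rfl)
  obtain ⟨ρ, hss, htd, hone⟩ := hSS GQ κ ρ₁
  refine ⟨ρ, ⟨⟨L, hLfin, fun σ h => hone σ (hρ₁one σ (hLr σ h) (hLd σ h))⟩, hss, ?_, ?_, ?_⟩⟩
  · intro σ
    rw [(htd σ).2]
    exact (trace_det_of_charpoly (hρ1 σ)).2
  · intro p hp hpN σ hσ
    have hpN' : ¬ p ∣ N := fun h => hpN (Dvd.dvd.mul_right h ℓ)
    exact hone σ (hρ₁one σ (hrI p hp hpN σ hσ) (hd'1 σ (hdI p hp hpN' σ hσ)))
  · intro p hp hpN σ hσ
    rw [(htd σ).1]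
    have := (trace_det_of_charpoly (hρ1 σ)).1
    rw [ht.t_unique (hrel' p hp hpN σ hσ)] at this
    exact this

end Fermat.Agent.S48
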