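/-
S48 (Deligne-Serre), node RU (task S48-G5, helper289): the Frobenius eigenvalues are roots of unity
of bounded order, from the node KILL.
-/
import Fermat.Agent.S48.GalNodes
import Fermat.Agent.S29.Residue
import Fermat.Agent.Lib.Frobenius

set_option autoImplicit false

namespace Fermat.Agent.S48

open Polynomial
open scoped MatrixGroups

namespace RootsOfUnity

/-- A root of the characteristic polynomial of a `2 × 2` matrix `M` with `M ^ m = 1` is an
`m`-th root of unity. -/
theorem pow_eq_one_of_root {κ : Type*} [Field κ] (M : Matrix (Fin 2) (Fin 2) κ) (m : ℕ)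
    (hM : M ^ m = 1) (lam : κ) (h : lam ^ 2 - M.trace * lam + M.det = 0) : lam ^ m = 1 := by
  have hdet : (lam • (1 : Matrix (Fin 2) (Fin 2) κ) - M).det = 0 := by
    rw [Matrix.det_fin_two]
    rw [Matrix.trace_fin_two, Matrix.det_fin_two] at h
    simp only [Matrix.sub_apply, Matrix.smul_apply, Matrix.one_apply_eq, smul_eq_mul, mul_one,
      ne_eq, zero_ne_one, one_ne_zero, not_false_eq_true, Matrix.one_apply_ne, mul_zero, zero_sub]
    linear_combination h
  obtain ⟨v, hv0, hv⟩ := Matrix.exists_mulVec_eq_zero_iff.mpr hdet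
  have hMv : M.mulVec v = lam • v := by
    rw [Matrix.sub_mulVec, Matrix.smul_mulVec, Matrix.one_mulVec, sub_eq_zero] at hv
    exact hv.symm
  have hpow : ∀ k : ℕ, (M ^ k).mulVec v = lam ^ k • v := by
    intro k
    induction k with
    | zero => simp
    | succ k ih =>
      rw [pow_succ, ← Matrix.mulVec_mulVec, hMv, Matrix.mulVec_smul, ih, smul_smul, pow_succ,
        mul_comm]
  have h1 := hpow m
  rw [hM, Matrix.one_mulVec] at h1
  by_contra hne
  apply hv0
  have h2 : (lam ^ m - 1) • v = 0 := by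
    rw [sub_smul, one_smul, ← h1, sub_self]
  exact (smul_eq_zero.mp h2).resolve_left (sub_ne_zero.mpr hne)

end RootsOfUnity

open RootsOfUnity in
theorem rootsOfUnityNode (hK : KillLemma) : RootsOfUnityNode := by
  intro N a d m ℓ₁ hm H p hp hpN
  obtain ⟨A, σ, hA, hσ⟩ := Fermat.Agent.Lib.Frobenius.exists_liesOverPrime_isFrobeniusAt p hp
  have hfrob : IsFrob σ p := ⟨A, hA, hσ⟩
  set e : Zbar := ((d σ : Zbarˣ) : Zbar) with he
  -- every root of `X ^ 2 - a_p X + e` is an `m`-th root of unity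
  have key : ∀ x : Zbar, x ^ 2 - a p * x + e = 0 → x ^ m = 1 := by
    intro x hx
    by_contra hne
    obtain ⟨L, hL⟩ := hK (x ^ m - 1) (sub_ne_zero.mpr hne)
    obtain ⟨ℓ, hℓge, hℓ⟩ := Nat.exists_infinite_primes (L + ℓ₁ + p + 1)
    obtain ⟨κ, _, _, _, φ, ρ, hres, hρm⟩ := H ℓ hℓ (by omega)
    have hpNℓ : ¬ p ∣ N * ℓ := by
      intro hdvd
      rcases (Nat.Prime.dvd_mul hp).mp hdvd with h1 | h1
      · exact hpN h1
      · have := (Nat.prime_dvd_prime_iff_eq hp hℓ).mp h1
        omega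
    have htr : trG ρ σ = φ (a p) := hres.tr p hp hpNℓ σ hfrob
    have hdt : dtG ρ σ = φ e := hres.det σ
    have hMm : ((ρ σ : GL (Fin 2) κ) : Matrix (Fin 2) (Fin 2) κ) ^ m = 1 := by
      rw [← Units.val_pow_eq_pow_val, hρm σ, Units.val_one]
    have hroot : (φ x) ^ 2 - ((ρ σ : GL (Fin 2) κ) : Matrix (Fin 2) (Fin 2) κ).trace * φ x
        + ((ρ σ : GL (Fin 2) κ) : Matrix (Fin 2) (Fin 2) κ).det = 0 := by
      have h1 : ((ρ σ : GL (Fin 2) κ) : Matrix (Fin 2) (Fin 2) κ).trace = φ (a p) := htr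
      have h2 : ((ρ σ : GL (Fin 2) κ) : Matrix (Fin 2) (Fin 2) κ).det = φ e := hdt
      rw [h1, h2, ← map_pow, ← map_mul, ← map_sub, ← map_add, hx, map_zero]
    have h3 := pow_eq_one_of_root _ m hMm (φ x) hroot
    apply hL ℓ hℓ (by omega) κ φ
    rw [map_sub, map_pow, h3, map_one, sub_self]
  -- existence of a root
  have hmonic : (X ^ 2 - C (a p) * X + C e : Zbar[X]).Monic := by
    have : (X ^ 2 - C (a p) * X + C e : Zbar[X]) = X ^ 2 + (- C (a p) * X + C e) := by ring
    rw [this]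
    apply monic_X_pow_add
    refine lt_of_le_of_lt (degree_add_le _ _) ?_
    refine max_lt ?_ ?_
    · rw [← C_neg]
      exact lt_of_le_of_lt (degree_C_mul_X_le _) (by norm_num)
    · exact lt_of_le_of_lt degree_C_le (by norm_num)
  have hdeg : (X ^ 2 - C (a p) * X + C e : Zbar[X]).degree ≠ 0 := by
    intro h0
    have h1 := eq_C_of_degree_eq_zero h0
    have h2 := congrArg (fun q : Zbar[X] => q.coeff 2) h1
    simp [coeff_X, coeff_C] at h2
  obtain ⟨α, hα⟩ := Fermat.Agent.S29.Residue.exists_root_zbar _ hmonic hdeg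
  have hα' : α ^ 2 - a p * α + e = 0 := by
    simpa using hα
  refine ⟨α, a p - α, key α hα', key (a p - α) ?_, by ring⟩
  linear_combination hα'

end Fermat.Agent.S48
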