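/-
S48 (Deligne-Serre), nodes SS and IRR1 (task S48-G2, helper151): two linear algebra lemmas on two
dimensional representations.
-/
import Fermat.Agent.S48.GalNodes

set_option autoImplicit false

namespace Fermat.Agent.S48

open scoped MatrixGroups

section Core

variable {Γ : Type*} [Group Γ] {κ : Type*} [Field κ]

/-- An eigenvalue of a `2 × 2` matrix is a root of `X ^ 2 - tr X + det`. -/
theorem eigen_quadratic (A : Matrix (Fin 2) (Fin 2) κ) (v : Fin 2 → κ) (hv : v ≠ 0) (c : κ)
    (h : A.mulVec v = c • v) : c * c - A.trace * c + A.det = 0 := by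
  have h1 : (A - c • (1 : Matrix (Fin 2) (Fin 2) κ)).det = 0 := by
    rw [← Matrix.exists_mulVec_eq_zero_iff]
    refine ⟨v, hv, ?_⟩
    rw [Matrix.sub_mulVec, Matrix.smul_mulVec, Matrix.one_mulVec, h, sub_self]
  rw [Matrix.det_fin_two] at h1
  rw [Matrix.det_fin_two, Matrix.trace_fin_two]
  simp only [Matrix.sub_apply, Matrix.smul_apply, Matrix.one_apply_eq, smul_eq_mul, mul_one,
    Matrix.one_apply_ne (show (0 : Fin 2) ≠ 1 by decide),
    Matrix.one_apply_ne (show (1 : Fin 2) ≠ 0 by decide), mul_zero, sub_zero] at h1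
  linear_combination h1

/-- A stable line gives two characters. -/
theorem exists_characters_of_stable (ρ : Γ →* GL (Fin 2) κ) (v : Fin 2 → κ) (hv : v ≠ 0)
    (h : ∀ g, ∃ c : κ, ((ρ g : GL (Fin 2) κ) : Matrix (Fin 2) (Fin 2) κ).mulVec v = c • v) :
    ∃ χ₁ χ₂ : Γ →* κˣ, (∀ g, trG ρ g = (χ₁ g : κ) + (χ₂ g : κ)) ∧
      (∀ g, dtG ρ g = (χ₁ g : κ) * (χ₂ g : κ)) ∧ ∀ g, ρ g = 1 → χ₁ g = 1 ∧ χ₂ g = 1 := by
  choose c hc using h
  have hinj : ∀ a b : κ, a • v = b • v → a = b := fun a b hab => smul_left_injective κ hv hab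
  have hc1 : ∀ g, ρ g = 1 → c g = 1 := by
    intro g hg
    apply hinj
    rw [← hc, hg, one_smul]
    simp
  let f : Γ →* κ :=
    { toFun := c
      map_one' := hc1 1 (map_one ρ)
      map_mul' := fun a b => by
        apply hinj
        rw [← hc, map_mul, Units.val_mul, ← Matrix.mulVec_mulVec, hc, Matrix.mulVec_smul, hc,
          smul_smul, mul_comm] }
  let χ₁ : Γ →* κˣ := f.toHomUnits
  let dd : Γ →* κˣ := Matrix.GeneralLinearGroup.det.comp ρ
  have hχ₁ : ∀ g, (χ₁ g : κ) = c g := fun g => rfl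
  have hdd : ∀ g, (dd g : κ) = dtG ρ g := fun g => rfl
  refine ⟨χ₁, dd * χ₁⁻¹, fun g => ?_, fun g => ?_, fun g hg => ?_⟩
  · have h0 : (χ₁ g : κ) ≠ 0 := (χ₁ g).ne_zero
    have h1 := eigen_quadratic _ v hv (c g) (hc g)
    rw [MonoidHom.mul_apply, MonoidHom.inv_apply, Units.val_mul, Units.val_inv_eq_inv_val, hdd]
    rw [← hχ₁] at h1
    field_simp
    linear_combination -h1
  · have h0 : (χ₁ g : κ) ≠ 0 := (χ₁ g).ne_zero
    rw [MonoidHom.mul_apply, MonoidHom.inv_apply, Units.val_mul, Units.val_inv_eq_inv_val, hdd]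
    field_simp
  · have h1 : χ₁ g = 1 := Units.ext (by rw [hχ₁, hc1 g hg]; rfl)
    refine ⟨h1, ?_⟩
    rw [MonoidHom.mul_apply, MonoidHom.inv_apply, h1, inv_one, mul_one]
    show Matrix.GeneralLinearGroup.det (ρ g) = 1
    rw [hg, map_one]

/-- The diagonal representation attached to two characters. -/
noncomputable def diagRep (χ₁ χ₂ : Γ →* κˣ) : Γ →* GL (Fin 2) κ :=
  MonoidHom.toHomUnits
    { toFun := fun g => Matrix.diagonal ![(χ₁ g : κ), (χ₂ g : κ)]
      map_one' := by
        rw [map_one, map_one, ← Matrix.diagonal_one]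
        congr 1
        ext i
        fin_cases i <;> rfl
      map_mul' := fun a b => by
        rw [Matrix.diagonal_mul_diagonal]
        congr 1
        ext i
        fin_cases i <;> simp }

theorem diagRep_coe (χ₁ χ₂ : Γ →* κˣ) (g : Γ) :
    ((diagRep χ₁ χ₂ g : GL (Fin 2) κ) : Matrix (Fin 2) (Fin 2) κ)
      = Matrix.diagonal ![(χ₁ g : κ), (χ₂ g : κ)] := rfl

theorem isSS_diagRep (χ₁ χ₂ : Γ →* κˣ) : IsSS (diagRep χ₁ χ₂) := by
  intro v hv _
  by_cases h1 : v 1 = 0
  · have h0 : v 0 ≠ 0 := by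
      intro h0
      apply hv
      ext i
      fin_cases i
      · exact h0
      · exact h1
    refine ⟨![0, 1], ?_, fun g => ⟨χ₂ g, ?_⟩⟩
    · rw [LinearIndependent.pair_iff]
      intro s t hst
      have e0 := congrFun hst 0
      have e1 := congrFun hst 1
      simp only [Pi.add_apply, Pi.smul_apply, smul_eq_mul, Matrix.cons_val_zero,
        Matrix.cons_val_one, Pi.zero_apply, mul_zero, add_zero, mul_one, h1, zero_add] at e0 e1
      exact ⟨(mul_eq_zero.mp e0).resolve_right h0, e1⟩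
    · rw [diagRep_coe]
      ext i
      fin_cases i <;> simp [Matrix.mulVec_diagonal]
  · refine ⟨![1, 0], ?_, fun g => ⟨χ₁ g, ?_⟩⟩
    · rw [LinearIndependent.pair_iff]
      intro s t hst
      have e0 := congrFun hst 0
      have e1 := congrFun hst 1
      simp only [Pi.add_apply, Pi.smul_apply, smul_eq_mul, Matrix.cons_val_zero,
        Matrix.cons_val_one, Pi.zero_apply, mul_zero, add_zero, mul_one] at e0 e1
      have hs : s = 0 := (mul_eq_zero.mp e1).resolve_right h1
      rw [hs, zero_mul, zero_add] at e0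
      exact ⟨hs, e0⟩
    · rw [diagRep_coe]
      ext i
      fin_cases i <;> simp [Matrix.mulVec_diagonal]

end Core

/-- **Node SS**. -/
theorem semisimplify : Semisimplify := by
  intro Γ _ κ _ ρ
  by_cases hss : IsSS ρ
  · exact ⟨ρ, hss, fun g => ⟨rfl, rfl⟩, fun g hg => hg⟩
  · unfold IsSS at hss
    push Not at hss
    obtain ⟨v, hv, hst, -⟩ := hss
    obtain ⟨χ₁, χ₂, htr, hdet, hone⟩ := exists_characters_of_stable ρ v hv hst
    refine ⟨diagRep χ₁ χ₂, isSS_diagRep χ₁ χ₂, fun g => ⟨?_, ?_⟩, fun g hg => ?_⟩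
    · rw [htr, trG, diagRep_coe, Matrix.trace_fin_two]
      simp
    · rw [hdet, dtG, diagRep_coe, Matrix.det_diagonal, Fin.prod_univ_two]
      simp
    · apply Units.ext
      rw [diagRep_coe, (hone g hg).1, (hone g hg).2, Units.val_one, Units.val_one,
        ← Matrix.diagonal_one]
      congr 1
      ext i
      fin_cases i <;> rfl

/-- A two dimensional representation without stable line is irreducible. -/
theorem exists_stable_of_not_irreducible {Γ : Type} [Group Γ] (ρ : Γ →* GL (Fin 2) ℂ)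
    (h : ¬ (Deformation.matrixRepresentation ρ).IsIrreducible) :
    ∃ v : Fin 2 → ℂ, v ≠ 0 ∧
      ∀ g, ∃ c : ℂ, ((ρ g : GL (Fin 2) ℂ) : Matrix (Fin 2) (Fin 2) ℂ).mulVec v = c • v := by
  by_contra hno
  push Not at hno
  apply h
  have hnt : Nontrivial (Subrepresentation (Deformation.matrixRepresentation ρ)) := by
    refine ⟨⊥, ⊤, fun hbt => ?_⟩
    have h1 : (⊥ : Submodule ℂ (Fin 2 → ℂ)) = ⊤ := congrArg Subrepresentation.toSubmodule hbt
    exact bot_ne_top h1
  refine { toNontrivial := hnt, eq_bot_or_eq_top := fun σ => ?_ }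
  by_cases hσ : σ.toSubmodule = ⊥
  · left
    exact Subrepresentation.toSubmodule_injective hσ
  · right
    apply Subrepresentation.toSubmodule_injective
    show σ.toSubmodule = ⊤
    obtain ⟨v, hvσ, hv0⟩ := (Submodule.ne_bot_iff _).mp hσ
    obtain ⟨g, hg⟩ := hno v hv0
    have hli : LinearIndependent ℂ
        ![v, ((ρ g : GL (Fin 2) ℂ) : Matrix (Fin 2) (Fin 2) ℂ).mulVec v] := by
      rw [LinearIndependent.pair_iff' hv0]
      intro a ha
      exact hg a ha.symm
    have hspan := hli.span_eq_top_of_card_eq_finrank (by simp)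
    rw [eq_top_iff, ← hspan, Submodule.span_le]
    rintro _ ⟨i, rfl⟩
    fin_cases i
    · exact hvσ
    · have := σ.apply_mem_toSubmodule g hvσ
      rw [Deformation.matrixRepresentation_apply] at this
      exact this

/-- **Node IRR1**. -/
theorem reducibleSplit : ReducibleSplit := by
  intro Γ _ ρ h
  obtain ⟨v, hv, hst⟩ := exists_stable_of_not_irreducible ρ h
  obtain ⟨χ₁, χ₂, htr, -, hone⟩ := exists_characters_of_stable ρ v hv hst
  exact ⟨χ₁, χ₂, htr, hone⟩

end Fermat.Agent.S48
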