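/-
S48 (Deligne-Serre).  Node M8: the Teichmüller character attached to a reduction map.
Owner: helper258.
-/
import Fermat.Agent.S48.ModNodes

set_option autoImplicit false

namespace Fermat.Agent.S48

namespace TeichAux

open Polynomial

/-- every `m`-th root of unity of the residue field lifts. -/
theorem exists_lift {m : ℕ} (hm : 0 < m) {κ : Type} [Field κ] (φ : Zbar →+* κ) {l : κ}
    (hl : l ^ m = 1) : ∃ z : Zbar, z ^ m = 1 ∧ φ z = l := by
  classical
  have hprim : IsPrimitiveRoot (Complex.exp (2 * Real.pi * Complex.I / m)) m :=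
    Complex.isPrimitiveRoot_exp m hm.ne'
  have hint : IsIntegral ℤ (Complex.exp (2 * Real.pi * Complex.I / m)) := hprim.isIntegral hm
  set ζ : Zbar := ⟨_, hint⟩ with hζ
  have hprim' : IsPrimitiveRoot ζ m := by
    refine IsPrimitiveRoot.of_map_of_injective (f := (Zbar.val : Zbar →ₐ[ℤ] ℂ))
      (hf := Subtype.val_injective) ?_
    exact hprim
  have hprod := X_pow_sub_one_eq_prod hm hprim'
  have hmap := congrArg (Polynomial.map φ) hprod
  have heval := congrArg (Polynomial.eval l) hmap
  simp only [Polynomial.map_sub, Polynomial.map_pow, Polynomial.map_X, Polynomial.map_one,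
    Polynomial.map_prod, Polynomial.map_C, eval_sub, eval_pow, eval_X, eval_one,
    eval_prod, eval_C] at heval
  rw [hl, sub_self] at heval
  obtain ⟨z, hz, hz0⟩ := Finset.prod_eq_zero_iff.mp heval.symm
  refine ⟨z, ?_, (sub_eq_zero.mp hz0).symm⟩
  exact (mem_nthRootsFinset hm 1).mp hz

/-- a root of unity of order prime to the residue characteristic which reduces to `1` is `1`. -/
theorem eq_one_of_map_eq_one {m : ℕ} {κ : Type} [Field κ] (φ : Zbar →+* κ)
    (hmκ : (m : κ) ≠ 0) {z : Zbar} (hz : z ^ m = 1) (hφ : φ z = 1) : z = 1 := by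
  by_contra hne
  have hgeom : (∑ i ∈ Finset.range m, z ^ i) * (z - 1) = z ^ m - 1 := geom_sum_mul z m
  rw [hz, sub_self] at hgeom
  have hsum : ∑ i ∈ Finset.range m, z ^ i = 0 := by
    rcases mul_eq_zero.mp hgeom with h | h
    · exact h
    · exact absurd (sub_eq_zero.mp h) hne
  have := congrArg φ hsum
  rw [map_sum, map_zero] at this
  simp only [map_pow, hφ, one_pow, Finset.sum_const, Finset.card_range, nsmul_eq_mul,
    mul_one] at this
  exact hmκ this

/-- the reduction map is injective on roots of unity of order prime to the residue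
characteristic. -/
theorem eq_of_map_eq {m : ℕ} (hm : 0 < m) {κ : Type} [Field κ] (φ : Zbar →+* κ)
    (hmκ : (m : κ) ≠ 0) {x y : Zbar} (hx : x ^ m = 1) (hy : y ^ m = 1) (hφ : φ x = φ y) :
    x = y := by
  have hy' : y ^ (m - 1) * y = 1 := by
    rw [← pow_succ, Nat.sub_add_cancel hm, hy]
  have h1 : x * y ^ (m - 1) = 1 := by
    apply eq_one_of_map_eq_one φ hmκ
    · rw [mul_pow, hx, one_mul, ← pow_mul, mul_comm, pow_mul, hy, one_pow]
    · rw [map_mul, hφ, ← map_mul, mul_comm, hy', map_one]
  calc x = x * (y ^ (m - 1) * y) := by rw [hy', mul_one]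
    _ = (x * y ^ (m - 1)) * y := by ring
    _ = y := by rw [h1, one_mul]

end TeichAux

open TeichAux in
theorem teichmuller : Teichmuller := by
  classical
  intro ℓ _ hℓ κ _ _ φ
  have : Fact ℓ.Prime := ⟨hℓ⟩
  set m : ℕ := ℓ - 1 with hmdef
  have hm : 0 < m := Nat.sub_pos_of_lt hℓ.one_lt
  have hmκ : (m : κ) ≠ 0 := by
    intro h
    have hdvd : ℓ ∣ m := (CharP.cast_eq_zero_iff κ ℓ m).mp h
    have hle := Nat.le_of_dvd hm hdvd
    have := hℓ.pos
    omega
  let c : ZMod ℓ →+* κ := ZMod.castHom (dvd_refl ℓ) κ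
  have hex : ∀ u : (ZMod ℓ)ˣ, ∃ z : Zbar, z ^ m = 1 ∧ φ z = c (u : ZMod ℓ) := by
    intro u
    apply exists_lift hm φ
    rw [← map_pow, ← Units.val_pow_eq_pow_val, ZMod.units_pow_card_sub_one_eq_one, Units.val_one,
      map_one]
  choose t ht htφ using hex
  have ht1 : t 1 = 1 :=
    eq_of_map_eq hm φ hmκ (ht 1) (one_pow m) (by rw [htφ, Units.val_one, map_one, map_one])
  have htmul : ∀ u v, t (u * v) = t u * t v := fun u v =>
    eq_of_map_eq hm φ hmκ (ht _) (by rw [mul_pow, ht, ht, one_mul])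
      (by rw [htφ, Units.val_mul, map_mul, map_mul, htφ, htφ])
  let T : (ZMod ℓ)ˣ →* ℂ :=
    { toFun := fun u => (t u : ℂ)
      map_one' := by rw [ht1]; rfl
      map_mul' := fun u v => by rw [htmul]; rfl }
  let ω : DirichletCharacter ℂ ℓ := MulChar.ofUnitHom T.toHomUnits
  let w : ZMod ℓ → Zbar := fun x => if h : IsUnit x then t h.unit else 0
  refine ⟨ω, w, ?_, ?_⟩
  · intro u
    by_cases h : IsUnit u
    · have hw : w u = t h.unit := dif_pos h
      have hω : ω u = (t h.unit : ℂ) := by
        conv_lhs => rw [← h.unit_spec]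
        exact MulChar.ofUnitHom_coe _ _
      rw [hw, hω]
    · have hw : w u = 0 := dif_neg h
      rw [hw, MulChar.map_nonunit ω h]
      rfl
  · intro x
    by_cases h : IsUnit (x : ZMod ℓ)
    · have hw : w (x : ZMod ℓ) = t h.unit := dif_pos h
      rw [hw, htφ, h.unit_spec, map_natCast]
    · have hw : w (x : ZMod ℓ) = 0 := dif_neg h
      have h0 : (x : ZMod ℓ) = 0 := by
        by_contra hne
        exact h (isUnit_iff_ne_zero.mpr hne)
      have : c (x : ZMod ℓ) = 0 := by rw [h0, map_zero]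
      rw [hw, map_zero, ← this, map_natCast]

end Fermat.Agent.S48
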