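/-
S48-G7 (owner: helper125).  A finite level two dimensional representation is determined, as far
as traces go, by its traces at almost all Frobenius elements.  Uses only the landed weak
Chebotarev theorem.
-/
import Fermat.Agent.S48.GalNodes
import Fermat.Agent.Lib.WeakChebotarev

set_option autoImplicit false

namespace Fermat.Agent.S48

open scoped MatrixGroups

/-- Cayley-Hamilton in dimension two. -/
theorem sq_eq_trace_smul_sub_det {R : Type*} [CommRing R] (A : Matrix (Fin 2) (Fin 2) R) :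
    A * A = A.trace • A - A.det • (1 : Matrix (Fin 2) (Fin 2) R) := by
  ext i j
  fin_cases i <;> fin_cases j <;>
    simp [Matrix.trace_fin_two, Matrix.det_fin_two, Matrix.mul_apply, Fin.sum_univ_two] <;> ring

/-- The traces of the powers of a two by two matrix only depend on its trace and determinant. -/
theorem trace_pow_eq_of_trace_det_eq {R : Type*} [CommRing R] (A B : Matrix (Fin 2) (Fin 2) R)
    (ht : A.trace = B.trace) (hd : A.det = B.det) (k : ℕ) : (A ^ k).trace = (B ^ k).trace := by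
  induction k using Nat.strong_induction_on with
  | _ k ih =>
    match k with
    | 0 => simp
    | 1 => simpa using ht
    | (k + 2) =>
      have hA : A ^ (k + 2) = A.trace • A ^ (k + 1) - A.det • A ^ k := by
        rw [pow_add, pow_two, sq_eq_trace_smul_sub_det, mul_sub, mul_smul_comm, mul_smul_comm,
          mul_one, pow_succ]
      have hB : B ^ (k + 2) = B.trace • B ^ (k + 1) - B.det • B ^ k := by
        rw [pow_add, pow_two, sq_eq_trace_smul_sub_det, mul_sub, mul_smul_comm, mul_smul_comm,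
          mul_one, pow_succ]
      rw [hA, hB, Matrix.trace_sub, Matrix.trace_sub, Matrix.trace_smul, Matrix.trace_smul,
        Matrix.trace_smul, Matrix.trace_smul, ih (k + 1) (by omega), ih k (by omega), ht, hd]

/-- **Node IND**. -/
theorem traceDetermined : TraceDetermined := by
  intro ρ₁ ρ₂ ⟨L₁, hL₁, h₁⟩ ⟨L₂, hL₂, h₂⟩ hdet T hT σ
  have : FiniteDimensional ℚ (L₁ ⊔ L₂ : IntermediateField ℚ (AlgebraicClosure ℚ)) :=
    IntermediateField.finiteDimensional_sup L₁ L₂
  obtain ⟨ℓ, A, φ, hℓ, hℓT, hA, -, hφ, -, k, hk⟩ :=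
    Fermat.Agent.Lib.WeakChebotarev.weak_chebotarev_exists (L₁ ⊔ L₂) σ T
  have hfix : ∀ x ∈ (L₁ ⊔ L₂ : IntermediateField ℚ (AlgebraicClosure ℚ)),
      ((φ ^ k)⁻¹ * σ) x = x := by
    intro x hx
    rw [AlgEquiv.mul_apply, hk x hx]
    exact (φ ^ k).symm_apply_apply x
  have e₁ : ρ₁ σ = ρ₁ φ ^ k := by
    have := h₁ ((φ ^ k)⁻¹ * σ) fun x hx => hfix x ((le_sup_left : L₁ ≤ L₁ ⊔ L₂) hx)
    rw [map_mul, map_inv, inv_mul_eq_one, map_pow] at this
    exact this.symm
  have e₂ : ρ₂ σ = ρ₂ φ ^ k := by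
    have := h₂ ((φ ^ k)⁻¹ * σ) fun x hx => hfix x ((le_sup_right : L₂ ≤ L₁ ⊔ L₂) hx)
    rw [map_mul, map_inv, inv_mul_eq_one, map_pow] at this
    exact this.symm
  have ht := hT ℓ hℓ hℓT φ ⟨A, hA, hφ⟩
  have hd := hdet φ
  simp only [trG, dtG] at ht hd ⊢
  rw [e₁, e₂, Units.val_pow_eq_pow_val, Units.val_pow_eq_pow_val]
  exact trace_pow_eq_of_trace_det_eq _ _ ht hd k

end Fermat.Agent.S48
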