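/-
S48 (Deligne-Serre), node G8: the weighted form of Chebotarev's density theorem follows from the
form for sets stable under conjugation and inversion.  Owner: helper159.
-/
import Fermat.Agent.S48.GalNodes
import Fermat.Agent.Lib.Frobenius

set_option autoImplicit false

namespace Fermat.Agent.S48

namespace ChebW

variable {G : Type} [Group G]

/-- The smallest subset containing `g` stable under conjugation and inversion. -/
def symClass (g : G) : Set G := {x | ∃ h : G, x = h * g * h⁻¹ ∨ x = h * g⁻¹ * h⁻¹}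

lemma self_mem (g : G) : g ∈ symClass g := ⟨1, Or.inl (by simp)⟩

lemma conj_mem {g x : G} (h : G) (hx : x ∈ symClass g) : h * x * h⁻¹ ∈ symClass g := by
  obtain ⟨k, rfl | rfl⟩ := hx
  · exact ⟨h * k, Or.inl (by group)⟩
  · exact ⟨h * k, Or.inr (by group)⟩

lemma inv_mem {g x : G} (hx : x ∈ symClass g) : x⁻¹ ∈ symClass g := by
  obtain ⟨k, rfl | rfl⟩ := hx
  · exact ⟨k, Or.inr (by group)⟩
  · exact ⟨k, Or.inl (by group)⟩

lemma mem_symm {g x : G} (hx : x ∈ symClass g) : g ∈ symClass x := by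
  obtain ⟨k, rfl | rfl⟩ := hx
  · exact ⟨k⁻¹, Or.inl (by group)⟩
  · exact ⟨k⁻¹, Or.inr (by group)⟩

lemma subset_of_mem {g x : G} (hx : x ∈ symClass g) : symClass x ⊆ symClass g := by
  rintro y ⟨k, rfl | rfl⟩
  · exact conj_mem k hx
  · exact conj_mem k (inv_mem hx)

lemma eq_of_mem {g x : G} (hx : x ∈ symClass g) : symClass x = symClass g :=
  Set.Subset.antisymm (subset_of_mem hx) (subset_of_mem (mem_symm hx))

lemma w_eq {w : G → ℝ} (h1 : ∀ g h : G, w (h * g * h⁻¹) = w g) (h2 : ∀ g, w g⁻¹ = w g)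
    {g x : G} (hx : x ∈ symClass g) : w x = w g := by
  obtain ⟨k, rfl | rfl⟩ := hx
  · exact h1 _ _
  · rw [h1, h2]

open Classical in
lemma sum_identity [Fintype G] {w : G → ℝ} (h1 : ∀ g h : G, w (h * g * h⁻¹) = w g)
    (h2 : ∀ g, w g⁻¹ = w g) (x : G) :
    ∑ g, (if x ∈ symClass g then w g / (Nat.card (symClass g) : ℝ) else 0) = w x := by
  have key : ∀ g, (if x ∈ symClass g then w g / (Nat.card (symClass g) : ℝ) else 0) =
      (if g ∈ symClass x then w x / (Nat.card (symClass x) : ℝ) else 0) := by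
    intro g
    by_cases hx : x ∈ symClass g
    · rw [if_pos hx, if_pos (mem_symm hx), w_eq h1 h2 hx, eq_of_mem hx]
    · rw [if_neg hx, if_neg (fun h => hx (mem_symm h))]
  simp_rw [key]
  rw [← Finset.sum_filter, Finset.sum_const, nsmul_eq_mul]
  have hc : (Finset.univ.filter (· ∈ symClass x)).card = Nat.card (symClass x) := by
    rw [Nat.card_eq_fintype_card, Fintype.card_subtype]
  rw [hc]
  have hne : (Nat.card (symClass x) : ℝ) ≠ 0 := by
    have : Nonempty (symClass x) := ⟨⟨x, self_mem x⟩⟩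
    exact_mod_cast (Nat.card_pos (α := symClass x)).ne'
  field_simp

end ChebW

open ChebW in
theorem chebotarevWeighted (hCH : ChebotarevSym) : ChebotarevWeighted := by
  intro G _ _ r hr hlvl w hw0 hwc hwi u T hu δ hδ
  classical
  set c : G → ℝ := fun g => w g / (Nat.card (symClass g) : ℝ) with hc
  have hc0 : ∀ g, 0 ≤ c g := fun g => div_nonneg (hw0 g) (Nat.cast_nonneg _)
  set Sc : ℝ := ∑ g, c g with hScdef
  have hSc : 0 ≤ Sc := Finset.sum_nonneg (fun g _ => hc0 g)
  set δ' : ℝ := δ / (1 + Sc) with hδ'def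
  have hδ' : 0 < δ' := by positivity
  have H : ∀ g : G, LowerDens {p : ℕ | ∀ σ : GQ, IsFrob σ p → r σ ∈ symClass g}
      ((Nat.card (symClass g) : ℝ) / Nat.card G - δ') :=
    fun g => hCH G r hr hlvl (symClass g) (fun x h hx => conj_mem h hx)
      (fun x hx => inv_mem hx) δ' hδ'
  choose K hK using H
  refine ⟨∑ g, c g * (K g + T.card), fun s hs1 hs2 => ?_⟩
  choose Pg hPg1 hPg2 using fun g => hK g s hs1 hs2
  set L := Real.log (1 / (s - 1)) with hLdef
  have hL : 0 ≤ L := Real.log_nonneg (by rw [le_div_iff₀ (by linarith)]; linarith)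
  have hmem : ∀ p ∈ Finset.univ.biUnion (fun g => Pg g \ T), p.Prime ∧ p ∉ T := by
    intro p hp
    simp only [Finset.mem_biUnion, Finset.mem_univ, true_and, Finset.mem_sdiff] at hp
    obtain ⟨g, hpg, hpT⟩ := hp
    exact ⟨(hPg1 g p hpg).1, hpT⟩
  refine ⟨Finset.univ.biUnion (fun g => Pg g \ T), hmem, ?_⟩
  set P := Finset.univ.biUnion (fun g => Pg g \ T) with hP
  have step1 : ∀ p ∈ P, ∑ g, (if p ∈ Pg g \ T then c g else 0) ≤ u p := by
    intro p hp
    obtain ⟨hpp, hpT⟩ := hmem p hp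
    obtain ⟨A, σ, hA, hσ⟩ := Lib.Frobenius.exists_liesOverPrime_isFrobeniusAt p hpp
    have hF : IsFrob σ p := ⟨A, hA, hσ⟩
    rw [hu p hpp hpT σ hF, ← sum_identity hwc hwi (r σ)]
    apply Finset.sum_le_sum
    intro g _
    by_cases h : p ∈ Pg g \ T
    · rw [if_pos h, if_pos ((hPg1 g p (Finset.mem_sdiff.1 h).1).2 σ hF)]
    · rw [if_neg h]
      split_ifs
      · exact hc0 g
      · exact le_rfl
  have step2 : ∑ g, c g * ∑ p ∈ Pg g \ T, (p : ℝ) ^ (-s) ≤ ∑ p ∈ P, u p * (p : ℝ) ^ (-s) := by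
    calc ∑ g, c g * ∑ p ∈ Pg g \ T, (p : ℝ) ^ (-s)
        = ∑ g, ∑ p ∈ P, (if p ∈ Pg g \ T then c g else 0) * (p : ℝ) ^ (-s) := by
          apply Finset.sum_congr rfl
          intro g _
          have hsub : Pg g \ T ⊆ P := Finset.subset_biUnion_of_mem (fun g => Pg g \ T)
            (Finset.mem_univ g)
          rw [Finset.mul_sum, ← Finset.sum_subset hsub]
          · apply Finset.sum_congr rfl
            intro p hp
            rw [if_pos hp]
          · intro p _ hp
            rw [if_neg hp, zero_mul]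
      _ = ∑ p ∈ P, (∑ g, (if p ∈ Pg g \ T then c g else 0)) * (p : ℝ) ^ (-s) := by
          rw [Finset.sum_comm]
          apply Finset.sum_congr rfl
          intro p _
          rw [Finset.sum_mul]
      _ ≤ _ := Finset.sum_le_sum (fun p hp =>
          mul_le_mul_of_nonneg_right (step1 p hp) (by positivity))
  have step3 : ∀ g, ((Nat.card (symClass g) : ℝ) / Nat.card G - δ') * L - K g - T.card
      ≤ ∑ p ∈ Pg g \ T, (p : ℝ) ^ (-s) := by
    intro g
    have h1 := hPg2 g
    have h2 : ∑ p ∈ Pg g, (p : ℝ) ^ (-s) ≤ ∑ p ∈ Pg g \ T, (p : ℝ) ^ (-s) + T.card := by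
      rw [← Finset.sum_sdiff (Finset.inter_subset_left : Pg g ∩ T ⊆ Pg g),
        Finset.sdiff_inter_self_left]
      have h3 : ∑ p ∈ Pg g ∩ T, (p : ℝ) ^ (-s) ≤ ∑ p ∈ Pg g ∩ T, (1 : ℝ) := by
        apply Finset.sum_le_sum
        intro p hp
        have hp1 : (1 : ℝ) ≤ p := by
          exact_mod_cast (hPg1 g p (Finset.mem_inter.1 hp).1).1.one_lt.le
        exact Real.rpow_le_one_of_one_le_of_nonpos hp1 (by linarith)
      have h4 : ∑ p ∈ Pg g ∩ T, (1 : ℝ) ≤ T.card := by
        rw [Finset.sum_const, nsmul_eq_mul, mul_one]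
        exact_mod_cast Finset.card_le_card Finset.inter_subset_right
      linarith
    linarith
  have step4 : ∑ g, c g * (((Nat.card (symClass g) : ℝ) / Nat.card G - δ') * L - K g - T.card)
      ≤ ∑ g, c g * ∑ p ∈ Pg g \ T, (p : ℝ) ^ (-s) :=
    Finset.sum_le_sum (fun g _ => mul_le_mul_of_nonneg_left (step3 g) (hc0 g))
  have step5 : ∑ g, c g * (((Nat.card (symClass g) : ℝ) / Nat.card G - δ') * L - K g - T.card)
      = ((∑ g, w g) / Fintype.card G - δ' * Sc) * L - ∑ g, c g * (K g + T.card) := by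
    have e1 : ∀ g, c g * (((Nat.card (symClass g) : ℝ) / Nat.card G - δ') * L - K g - T.card)
        = (w g / Fintype.card G) * L - (δ' * L) * c g - c g * (K g + T.card) := by
      intro g
      have hne : (Nat.card (symClass g) : ℝ) ≠ 0 := by
        have : Nonempty (symClass g) := ⟨⟨g, self_mem g⟩⟩
        exact_mod_cast (Nat.card_pos (α := symClass g)).ne'
      have hG : (Nat.card G : ℝ) = Fintype.card G := by rw [Nat.card_eq_fintype_card]
      have hG0 : (Fintype.card G : ℝ) ≠ 0 := by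
        exact_mod_cast Fintype.card_ne_zero
      simp only [hc, hG]
      field_simp
      ring
    simp_rw [e1]
    rw [Finset.sum_sub_distrib, Finset.sum_sub_distrib, ← Finset.sum_mul, ← Finset.mul_sum,
      ← Finset.sum_div]
    ring
  have step6 : δ' * Sc ≤ δ := by
    rw [hδ'def, div_mul_eq_mul_div, div_le_iff₀ (by positivity)]
    nlinarith
  have step7 : ((∑ g, w g) / Fintype.card G - δ) * L ≤
      ((∑ g, w g) / Fintype.card G - δ' * Sc) * L :=
    mul_le_mul_of_nonneg_right (by linarith) hL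
  linarith

end Fermat.Agent.S48
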